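import Mathlib
import Fermat.Agent.Lib.FinPolyFun

/-!
# The quantitative Lagrange conductor

Level-free complement to `Lib/FinPolyFun.exists_conductor` for Program FG (S19), helper217:
if any two points of the finite set `S` are separated by an element of `R` up to a divisor of
`d`, then `d ^ (|S| - 1) • f ∈ R` for every function `f` (so for a valuation ring `A` and a
separation threshold `ℓ ^ c`, the conductor of `A[τ]` contains `ℓ ^ (c (|S| - 1))`).
-/

set_option autoImplicit false

namespace Fermat.Agent.S19.Red.ConductorPow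

universe u v

variable {A : Type u} [CommRing A] {S : Type v}

/-- A Lagrange delta function at `s` whose value at `s` divides `d ^ (|S| - 1)`. -/
theorem exists_delta_dvd [Fintype S] (R : Subalgebra A (S → A)) (d : A)
    (hsep : ∀ s s' : S, s ≠ s' → ∃ f ∈ R, f s - f s' ∣ d) (s : S) :
    ∃ e ∈ R, e s ∣ d ^ (Fintype.card S - 1) ∧ ∀ s' : S, s' ≠ s → e s' = 0 := by
  classical
  have hex : ∀ s' : S, ∃ f ∈ R, (s' ≠ s → f s ∣ d ∧ f s' = 0) := by
    intro s'
    by_cases h : s' = s
    · exact ⟨1, R.one_mem, fun h' => absurd h h'⟩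
    · obtain ⟨f, hf, hd⟩ := hsep s s' (Ne.symm h)
      refine ⟨f - algebraMap A (S → A) (f s'), R.sub_mem hf (R.algebraMap_mem _), fun _ => ?_⟩
      simp only [Pi.sub_apply, Pi.algebraMap_apply, Algebra.algebraMap_self, RingHom.id_apply,
        sub_self, and_true]
      exact hd
  choose f hfR hf using hex
  refine ⟨∏ s' ∈ Finset.univ.erase s, f s', R.prod_mem fun s' _ => hfR s', ?_, fun s' hs' => ?_⟩
  · rw [Finset.prod_apply]
    have hcard : (Finset.univ.erase s).card = Fintype.card S - 1 := by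
      rw [Finset.card_erase_of_mem (Finset.mem_univ s), Finset.card_univ]
    rw [← hcard, ← Finset.prod_const]
    exact Finset.prod_dvd_prod_of_dvd _ _ fun s' hs' => (hf s' (Finset.ne_of_mem_erase hs')).1
  · rw [Finset.prod_apply]
    exact Finset.prod_eq_zero (Finset.mem_erase.2 ⟨hs', Finset.mem_univ s'⟩) (hf s' hs').2

/-- **Quantitative conductor.**  If any two distinct points `s ≠ s'` are separated by some
`f ∈ R` with `f s - f s' ∣ d`, then `d ^ (|S| - 1) • f ∈ R` for every function `f : S → A`. -/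
theorem smul_mem_of_sep [Fintype S] (R : Subalgebra A (S → A)) (d : A)
    (hsep : ∀ s s' : S, s ≠ s' → ∃ f ∈ R, f s - f s' ∣ d) (f : S → A) :
    d ^ (Fintype.card S - 1) • f ∈ R := by
  classical
  choose e heR hed he0 using exists_delta_dvd R d hsep
  choose q hq using hed
  have hsum : d ^ (Fintype.card S - 1) • f = ∑ s : S, (f s * q s) • e s := by
    funext s₀
    rw [Finset.sum_apply, Pi.smul_apply, smul_eq_mul, Finset.sum_eq_single s₀]
    · rw [Pi.smul_apply, smul_eq_mul, hq s₀]
      ring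
    · intro s _ hs
      rw [Pi.smul_apply, he0 s s₀ (Ne.symm hs), smul_zero]
    · intro h
      exact absurd (Finset.mem_univ s₀) h
  rw [hsum]
  exact R.sum_mem fun s _ => R.smul_mem (heR s) _

/-- In a valuation ring, "not divisible by `d`" is "divides `d`". -/
theorem dvd_of_not_dvd [IsDomain A] [ValuationRing A] {a d : A} (h : ¬ d ∣ a) : a ∣ d :=
  (ValuationRing.dvd_total a d).resolve_right h

/-- The valuation-ring form: if any two distinct points are separated by some `f ∈ R` with
`f s - f s'` not divisible by `d`, then `d ^ (|S| - 1) • f ∈ R` for every `f`. -/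
theorem smul_mem_of_sep_not_dvd [IsDomain A] [ValuationRing A] [Fintype S]
    (R : Subalgebra A (S → A)) (d : A)
    (hsep : ∀ s s' : S, s ≠ s' → ∃ f ∈ R, ¬ d ∣ f s - f s') (f : S → A) :
    d ^ (Fintype.card S - 1) • f ∈ R :=
  smul_mem_of_sep R d (fun s s' h => by
    obtain ⟨g, hg, hd⟩ := hsep s s' h
    exact ⟨g, hg, dvd_of_not_dvd hd⟩) f

/-- Congruence modulo `d ^ (|S| - 1)` to an element of `R` implies membership. -/
theorem mem_of_dvd_sub_pow [Fintype S] (R : Subalgebra A (S → A)) (d : A)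
    (hsep : ∀ s s' : S, s ≠ s' → ∃ f ∈ R, f s - f s' ∣ d) {b r : S → A} (hr : r ∈ R)
    (h : ∀ s, d ^ (Fintype.card S - 1) ∣ b s - r s) : b ∈ R :=
  Fermat.Agent.Lib.FinPolyFun.mem_of_dvd_sub R (smul_mem_of_sep R d hsep) hr h

/-! ### Products: every function on `S₁ × S₂` is a sum of products, up to the conductors -/

open Fermat.Agent.Lib.FinPolyFun in
theorem isSumMul_zero {S₁ : Type*} {S₂ : Type*} (R₁ : Subalgebra A (S₁ → A))
    (R₂ : Subalgebra A (S₂ → A)) : IsSumMul R₁ R₂ (0 : S₁ × S₂ → A) :=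
  ⟨0, Fin.elim0, Fin.elim0, fun i => i.elim0, fun i => i.elim0, fun x y => by simp⟩

open Fermat.Agent.Lib.FinPolyFun in
/-- If `d₁`, `d₂` are conductors of `R₁`, `R₂`, then `(d₁ d₂) • F` is a finite sum of products
`b(x) c(y)` with `b ∈ R₁`, `c ∈ R₂`, for EVERY function `F` on `S₁ × S₂`. -/
theorem isSumMul_smul {S₁ : Type*} {S₂ : Type*} [Finite S₁] [Finite S₂]
    (R₁ : Subalgebra A (S₁ → A)) (R₂ : Subalgebra A (S₂ → A)) {d₁ d₂ : A}
    (h₁ : ∀ f : S₁ → A, d₁ • f ∈ R₁) (h₂ : ∀ f : S₂ → A, d₂ • f ∈ R₂) (F : S₁ × S₂ → A) :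
    IsSumMul R₁ R₂ ((d₁ * d₂) • F) := by
  classical
  cases nonempty_fintype S₁
  cases nonempty_fintype S₂
  have hF : (d₁ * d₂) • F = ∑ p : S₁ × S₂,
      (fun q : S₁ × S₂ => (d₁ • (Pi.single p.1 (F p) : S₁ → A)) q.1 *
        (d₂ • (Pi.single p.2 1 : S₂ → A)) q.2) := by
    funext q
    rw [Finset.sum_apply, Pi.smul_apply, smul_eq_mul, Finset.sum_eq_single q]
    · simp only [Pi.smul_apply, Pi.single_eq_same, smul_eq_mul]
      ring
    · intro p _ hp
      by_cases h1 : p.1 = q.1
      · have h2 : p.2 ≠ q.2 := fun h2 => hp (Prod.ext h1 h2)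
        simp only [Pi.smul_apply, smul_eq_mul, Pi.single_eq_of_ne (Ne.symm h2), mul_zero]
      · simp only [Pi.smul_apply, smul_eq_mul, Pi.single_eq_of_ne (Ne.symm h1), mul_zero,
          zero_mul]
    · intro h
      exact absurd (Finset.mem_univ q) h
  rw [hF]
  refine Finset.sum_induction _ (IsSumMul R₁ R₂) (fun f g hf hg => hf.add R₁ R₂ hg)
    (isSumMul_zero R₁ R₂) fun p _ => ?_
  exact (IsSumMul.fst R₁ R₂ (h₁ _)).mul R₁ R₂ (IsSumMul.snd R₁ R₂ (h₂ _))

open Fermat.Agent.Lib.FinPolyFun in
/-- A polynomial over `A` in the coordinates of the two factors is a sum of products. -/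
theorem isSumMul_eval {G : Type*} {ι : Type*} (τ : ι → G → A) (P : MvPolynomial (ι ⊕ ι) A) :
    IsSumMul (Algebra.adjoin A (Set.range τ)) (Algebra.adjoin A (Set.range τ))
      (fun q : G × G => MvPolynomial.eval (Sum.elim (fun i => τ i q.1) (fun i => τ i q.2)) P) := by
  classical
  set R := Algebra.adjoin A (Set.range τ) with hR
  induction P using MvPolynomial.induction_on with
  | C c =>
    have h := IsSumMul.fst R R (R.algebraMap_mem c)
    simpa using h
  | add p q hp hq =>
    have h := hp.add R R hq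
    simpa [Pi.add_def] using h
  | mul_X p i hp =>
    rcases i with i | i
    · have h := hp.mul R R (IsSumMul.fst R R (Algebra.subset_adjoin ⟨i, rfl⟩ : τ i ∈ R))
      simpa [Pi.mul_def] using h
    · have h := hp.mul R R (IsSumMul.snd R R (Algebra.subset_adjoin ⟨i, rfl⟩ : τ i ∈ R))
      simpa [Pi.mul_def] using h

open Fermat.Agent.Lib.FinPolyFun in
/-- **Comultiplication from a congruence law.**  Let `R = A[τ]` be generated by finitely many
coordinate functions on the finite additive group `G`, with conductor `d` (`d • f ∈ R` for all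
`f`).  If `a (x + y)` is congruent modulo `d ^ 2` to a polynomial over `A` in the `τ i x`,
`τ i y`, then `(x, y) ↦ a (x + y)` is a finite sum of products `b(x) c(y)`, `b, c ∈ R`. -/
theorem isSumMul_of_congr_law {G : Type*} [Add G] [Finite G] {ι : Type*} (τ : ι → G → A) {d : A}
    (hd : ∀ f : G → A, d • f ∈ Algebra.adjoin A (Set.range τ)) (a : G → A)
    (P : MvPolynomial (ι ⊕ ι) A) (r : G → G → A)
    (hlaw : ∀ x y, a (x + y)
      = MvPolynomial.eval (Sum.elim (fun i => τ i x) (fun i => τ i y)) P + d ^ 2 * r x y) :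
    IsSumMul (Algebra.adjoin A (Set.range τ)) (Algebra.adjoin A (Set.range τ))
      (fun q : G × G => a (q.1 + q.2)) := by
  have h1 : IsSumMul (Algebra.adjoin A (Set.range τ)) (Algebra.adjoin A (Set.range τ))
      ((d * d) • fun q : G × G => r q.1 q.2) := isSumMul_smul _ _ hd hd _
  have h3 := (isSumMul_eval τ P).add _ _ h1
  have h4 : (fun q : G × G => a (q.1 + q.2))
      = (fun q : G × G => MvPolynomial.eval (Sum.elim (fun i => τ i q.1) (fun i => τ i q.2)) P)
        + (d * d) • fun q : G × G => r q.1 q.2 := by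
    funext q
    rw [hlaw q.1 q.2, Pi.add_apply, Pi.smul_apply, smul_eq_mul, sq]
  rw [h4]
  exact h3

end Fermat.Agent.S19.Red.ConductorPow
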