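/-
S19 (Program FG), layer (RED) (helper116; route of #5287 as simplified by helper113 #5970):
CONTRACT of the reduction

  finitely many inertia-equivariant, `A`-valued, separating coordinate functions on `G`,
  closed under addition over `A`   ==>   a Hopf order of functions on `G` over `ℤ_(ℓ)`
  (= the hypotheses of `S19.HopfOrder.exists_hopf_of_order`, verbatim).

This file only fixes the LITERALS (no proofs):

* `twist act σ f`   : the semilinear action `x ↦ σ (f (σ⁻¹ x))` on functions `G → ℚ̄`;
* `UnramGenStatement` : (U+) the only number theory: an inertia-fixed integer `θ` of a finite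
                      level that detects inertia modulo the maximal ideal of `A` and is
                      `ℓ`-adically small at the other conjugates of `A`;
* `DescStatement`   : (DESC) an inertia-equivariant element of a decomposition-stable `A`-module
                      `N` of functions (with a conductor) is an `A`-combination of
                      `Gal`-equivariant elements of `N`;
* `RedStatement`    : the exit of the layer, consumed by the top contract of S19.

Plan: `UnramGenStatement → DescStatement` (one Lagrange interpolation over the orbit of `θ`),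
`DescStatement → RedStatement` (close the coordinate family under the decomposition group, take
the `Gal`-equivariant elements of `A[T]`, saturate).  No dual lattice, no maximal order.

`Qb = AlgebraicClosure ℚ`, `Gal = Qb ≃ₐ[ℚ] Qb` (abbreviations of `S19.HopfOrder.Zl`).
-/
import Mathlib
import Fermat.Prelude.Def_FLTPrelim_Ramification
import Fermat.Agent.S19.HopfOrder.Zl

set_option autoImplicit false

noncomputable section

namespace Fermat.Agent.S19.Red

open Fermat.Agent.S19.HopfOrder GaloisRep

/-- The semilinear action of `Gal` on functions: `(σ • f) x = σ (f (σ⁻¹ x))`. -/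
def twist {G : Type} (act : Gal → G → G) (σ : Gal) (f : G → Qb) : G → Qb :=
  fun x => σ (f (act σ⁻¹ x))

/-- **(U+), the only number-theoretic input.** `A` a valuation subring of `ℚ̄` over `ℓ`, `M₂` a
finite normal extension of `ℚ`, `K` a precision.  There are a finite normal `M ⊇ M₂` and an
algebraic integer `θ ∈ M`, a unit of `A`, fixed by the inertia group of `A`, such that
* an automorphism that moves `θ` by an element of the maximal ideal of `A` agrees on `M` with an
  element of the inertia group of `A`;
* an automorphism that agrees on `M` with no element of the decomposition group of `A` sends `θ`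
  into `ℓ ^ K • A`.
(`θ = e ζ`: `ζ` a root of unity of order `q - 1` generating the residue field of `M`, `e` an
inertia-invariant integer of `M` that is `≡ 1` at `A` and divisible by `ℓ ^ K` at the other
conjugates of `A ∩ M`.) -/
def UnramGenStatement : Prop :=
  ∀ (A : ValuationSubring Qb) (ℓ : ℕ), ℓ.Prime → A.LiesOverPrime ℓ →
    ∀ (M₂ : IntermediateField ℚ Qb) [FiniteDimensional ℚ M₂] [Normal ℚ M₂] (K : ℕ),
      ∃ (M : IntermediateField ℚ Qb) (θ : Qb), M₂ ≤ M ∧ FiniteDimensional ℚ M ∧ Normal ℚ M ∧
        θ ∈ M ∧ IsIntegral ℤ θ ∧ θ ∉ A.nonunits ∧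
        (∀ ι ∈ A.inertiaSubgroupIn ℚ, ι θ = θ) ∧
        (∀ σ : Gal, σ θ - θ ∈ A.nonunits → ∃ ι ∈ A.inertiaSubgroupIn ℚ, ∀ x ∈ M, σ x = ι x) ∧
        (∀ σ : Gal, (∀ δ ∈ A.decompositionSubgroup ℚ, ∃ x ∈ M, σ x ≠ δ x) →
          ∃ r ∈ A, σ θ = (ℓ : Qb) ^ K * r)

/-- **(DESC), descent for decomposition-stable modules.** `G` a finite set with an action of
`Gal` that is trivial on the fixing subgroup of a finite extension `L`; `N` an `A`-submodule of
the functions `G → ℚ̄`, stable under the twists by the decomposition group of `A` and containing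
`ℓ ^ c • (G → A)`.  Every `f ∈ N` that is equivariant for the inertia group of `A` is an
`A`-combination of `Gal`-equivariant elements of `N`. -/
def DescStatement : Prop :=
  ∀ (ℓ : ℕ) [Fact ℓ.Prime] (A : ValuationSubring Qb), A.LiesOverPrime ℓ →
    ∀ {G : Type} [Finite G] (act : Gal → G → G), (∀ x, act 1 x = x) →
      (∀ σ τ x, act (σ * τ) x = act σ (act τ x)) →
      ∀ (L : IntermediateField ℚ Qb) [FiniteDimensional ℚ L],
        (∀ σ ∈ L.fixingSubgroup, ∀ x, act σ x = x) →
        ∀ N : Submodule A (G → Qb),
          (∀ σ ∈ A.decompositionSubgroup ℚ, ∀ f ∈ N, twist act σ f ∈ N) →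
          (∃ c : ℕ, ∀ φ : G → Qb, (∀ x, φ x ∈ A) → (fun x => (ℓ : Qb) ^ c * φ x) ∈ N) →
          ∀ f ∈ N, (∀ σ ∈ A.inertiaSubgroupIn ℚ, ∀ x, f (act σ x) = σ (f x)) →
            f ∈ Submodule.span A
              {ν : G → Qb | ν ∈ N ∧ ∀ (σ : Gal) (x : G), ν (act σ x) = σ (ν x)}

/-- **The exit of (RED).** `G` a finite abelian group with an additive action of `Gal` that is
trivial on the fixing subgroup of a finite extension `L`; `A` a valuation subring of `ℚ̄` over
`ℓ`; `τ` a finite family of functions `G → A`, equivariant for the inertia group of `A` only,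
separating the points of `G`, with `τ j (x + y)` in the `A`-span of the products `a x * b y`,
`a, b ∈ A[τ]`.  Then there is a `ℤ_(ℓ)`-subalgebra of `G → ℚ̄` satisfying the four hypotheses of
`S19.HopfOrder.exists_hopf_of_order`. -/
def RedStatement : Prop :=
  ∀ (ℓ : ℕ) [Fact ℓ.Prime] {G : Type} [AddCommGroup G] [Finite G] (act : Gal → G → G),
    (∀ x, act 1 x = x) → (∀ σ τ x, act (σ * τ) x = act σ (act τ x)) →
    (∀ σ x y, act σ (x + y) = act σ x + act σ y) →
    ∀ (L : IntermediateField ℚ Qb) [FiniteDimensional ℚ L],
      (∀ σ ∈ L.fixingSubgroup, ∀ x, act σ x = x) →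
      ∀ (A : ValuationSubring Qb), A.LiesOverPrime ℓ →
        ∀ {ι : Type} [Finite ι] (τ : ι → G → Qb), (∀ j x, τ j x ∈ A) →
          (∀ σ ∈ A.inertiaSubgroupIn ℚ, ∀ j x, τ j (act σ x) = σ (τ j x)) →
          (∀ x y, x ≠ y → ∃ j, τ j x ≠ τ j y) →
          (∀ j, (fun p : G × G => τ j (p.1 + p.2)) ∈ Submodule.span A
            {F : G × G → Qb | ∃ a ∈ Algebra.adjoin A (Set.range τ),
              ∃ b ∈ Algebra.adjoin A (Set.range τ), F = fun p => a p.1 * b p.2}) →
          ∃ H : Subalgebra (ratLocalizedAt ℓ) (G → Qb), (Subalgebra.toSubmodule H).FG ∧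
            (∀ h ∈ H, ∀ (σ : Gal) (x : G), h (act σ x) = σ (h x)) ∧
            (∀ x y : G, x ≠ y → ∃ h ∈ H, h x ≠ h y) ∧
            ∀ h ∈ H, (fun p : G × G => h (p.1 + p.2)) ∈ Submodule.span (ratLocalizedAt ℓ)
              {F : G × G → Qb | ∃ a ∈ H, ∃ b ∈ H, F = fun p => a p.1 * b p.2}

end Fermat.Agent.S19.Red
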