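import Mathlib
import Fermat.Agent.S19.Contract
import Fermat.Agent.S19.Red.Contract
import Fermat.Agent.S19.Red.ConductorPow

/-!
# S19 (Program FG), layer (RED): the adapter from the exact exit to the top contract

`contract_red_of_red : Red.RedStatement → Contract.RedStatement` (row FG.RED.Adapter, helper217).

The top contract `Contract.RedStatement` starts from congruence coordinates
(`Contract.HasCongCoords`: separation threshold `ℓ ^ c` fixed before the precision `N`, group
law only modulo `ℓ ^ N`, one level field per point); the exit `Red.RedStatement` of the (RED)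
layer wants ONE level field, ONE finite family and an EXACT comultiplication in span form.

* (i) congruence to exact: at the precision `N = 2 c (|G| - 1)` the Lagrange conductor of
  `A[τ]` is `ℓ ^ (c (|G| - 1))` (`ConductorPow.smul_mem_of_sep_not_dvd`), so the error term
  `ℓ ^ N r(x, y)` of the group law is itself a sum of products
  (`ConductorPow.isSumMul_of_congr_law`);
* (ii) one level field: the compositum of the finitely many level fields of the points;
* (iii) the conclusion: the `ℤ_(ℓ)`-lattice underlying the order `H`; its elements have integral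
  values because `H` is a finitely generated `ℤ_(ℓ)`-module.
-/

set_option autoImplicit false

noncomputable section

namespace Fermat.Agent.S19.Red.Adapter

open Fermat.Agent.S19.HopfOrder GaloisRep Fermat.Agent.Lib.FinPolyFun

/-- A function in `A[τ']` (values in `A`), read with values in `ℚ̄`, lies in `A[τ]`. -/
theorem coe_mem_adjoin (A : ValuationSubring Qb) {G : Type} {ι : Type} (τ' : ι → G → A)
    {f : G → A} (hf : f ∈ Algebra.adjoin A (Set.range τ')) :
    (fun x => (f x : Qb)) ∈
      Algebra.adjoin A (Set.range fun (j : ι) (x : G) => (τ' j x : Qb)) := by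
  induction hf using Algebra.adjoin_induction with
  | mem f hf =>
    obtain ⟨j, rfl⟩ := hf
    exact Algebra.subset_adjoin ⟨j, rfl⟩
  | algebraMap r =>
    exact Subalgebra.algebraMap_mem _ r
  | add f g _ _ hf hg =>
    exact Subalgebra.add_mem _ hf hg
  | mul f g _ _ hf hg =>
    exact Subalgebra.mul_mem _ hf hg

/-- A sum of products over `A[τ']`, read with values in `ℚ̄`, lies in the `A`-span of the
products of elements of `A[τ]`. -/
theorem span_of_isSumMul (A : ValuationSubring Qb) {G : Type} {ι : Type} (τ' : ι → G → A)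
    (F' : G × G → A)
    (h : IsSumMul (Algebra.adjoin A (Set.range τ')) (Algebra.adjoin A (Set.range τ')) F') :
    (fun p : G × G => (F' p : Qb)) ∈ Submodule.span A
      {F : G × G → Qb |
        ∃ a ∈ Algebra.adjoin A (Set.range fun (j : ι) (x : G) => (τ' j x : Qb)),
        ∃ b ∈ Algebra.adjoin A (Set.range fun (j : ι) (x : G) => (τ' j x : Qb)),
          F = fun p => a p.1 * b p.2} := by
  obtain ⟨n, b, c, hb, hc, hF⟩ := h
  have hsum : (fun p : G × G => (F' p : Qb))
      = ∑ i : Fin n, fun p : G × G => (b i p.1 : Qb) * (c i p.2 : Qb) := by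
    funext p
    rw [Finset.sum_apply, hF p.1 p.2]
    push_cast
    rfl
  rw [hsum]
  refine Submodule.sum_mem _ fun i _ => Submodule.subset_span ?_
  exact ⟨fun x => (b i x : Qb), coe_mem_adjoin A τ' (hb i), fun x => (c i x : Qb),
    coe_mem_adjoin A τ' (hc i), rfl⟩

/-- A polynomial over `ℚ̄` with coefficients in `A` comes from a polynomial over `A`. -/
theorem exists_map_eq (A : ValuationSubring Qb) {σ : Type} (P : MvPolynomial σ Qb)
    (hP : ∀ m, P.coeff m ∈ A) : ∃ P' : MvPolynomial σ A, MvPolynomial.map (algebraMap A Qb) P' = P := by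
  classical
  refine MvPolynomial.mem_range_map_iff_coeffs_subset.2 fun a ha => ?_
  obtain ⟨m, -, rfl⟩ := MvPolynomial.mem_coeffs_iff.1 (Finset.mem_coe.1 ha)
  exact ⟨⟨P.coeff m, hP m⟩, rfl⟩

/-- **The adapter.**  The exact exit of the (RED) layer implies the (RED) hypothesis of the top
contract of S19. -/
theorem contract_red_of_red (h : Fermat.Agent.S19.Red.RedStatement) :
    Fermat.Agent.S19.Contract.RedStatement := by
  intro ℓ hℓ G _ _ act hadd hone hmul hlevel hcoords
  have : Fact ℓ.Prime := ⟨hℓ⟩
  classical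
  cases nonempty_fintype G
  -- (ii) one level field
  choose E hEfin hEfix using hlevel
  have : ∀ x, FiniteDimensional ℚ (E x) := hEfin
  have hL : ∀ σ ∈ (⨆ x, E x : IntermediateField ℚ Qb).fixingSubgroup, ∀ x, act σ x = x :=
    fun σ hσ x => hEfix x σ (IntermediateField.fixingSubgroup_antitone (le_iSup E x) hσ)
  -- the coordinates at the precision `2 c (|G| - 1)`
  obtain ⟨A, hA, c, hc⟩ := hcoords
  obtain ⟨n, τ, P, h1, h2, h3, h4, h5⟩ := hc (2 * (c * (Fintype.card G - 1)))
  have hsepτ : ∀ x y, x ≠ y → ∃ j, τ j x ≠ τ j y := by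
    intro x y hxy
    obtain ⟨j, hj⟩ := h3 x y hxy
    exact ⟨j, fun he => hj ⟨0, A.zero_mem, by rw [he, sub_self, mul_zero]⟩⟩
  -- (i) the exact comultiplication
  have hΔτ : ∀ j, (fun p : G × G => τ j (p.1 + p.2)) ∈ Submodule.span A
      {F : G × G → Qb | ∃ a ∈ Algebra.adjoin A (Set.range τ),
        ∃ b ∈ Algebra.adjoin A (Set.range τ), F = fun p => a p.1 * b p.2} := by
    intro j
    -- everything with values in `A`
    set τ' : Fin n → G → A := fun i x => ⟨τ i x, h1 i x⟩ with hτ'
    -- separation modulo `ℓ ^ c`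
    have hsep' : ∀ x y : G, x ≠ y → ∃ f ∈ Algebra.adjoin A (Set.range τ'),
        ¬ (ℓ : A) ^ c ∣ f x - f y := by
      intro x y hxy
      obtain ⟨i, hi⟩ := h3 x y hxy
      refine ⟨τ' i, Algebra.subset_adjoin ⟨i, rfl⟩, fun hdvd => hi ?_⟩
      obtain ⟨r, hr⟩ := hdvd
      refine ⟨(r : Qb), r.2, ?_⟩
      have h6 := congrArg (fun a : A => (a : Qb)) hr
      simp only [hτ'] at h6
      push_cast at h6
      exact h6
    -- the conductor
    have hd : ∀ f : G → A, ((ℓ : A) ^ c) ^ (Fintype.card G - 1) • f
        ∈ Algebra.adjoin A (Set.range τ') :=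
      ConductorPow.smul_mem_of_sep_not_dvd _ _ hsep'
    -- the polynomial over `A`
    obtain ⟨P', hP'⟩ := exists_map_eq A (P j) (h4 j)
    -- the error term
    choose r hr he using h5 j
    have hlaw : ∀ x y, τ' j (x + y)
        = MvPolynomial.eval (Sum.elim (fun i => τ' i x) (fun i => τ' i y)) P'
          + (((ℓ : A) ^ c) ^ (Fintype.card G - 1)) ^ 2 * (⟨r x y, hr x y⟩ : A) := by
      intro x y
      apply Subtype.ext
      have h7 : ((MvPolynomial.eval (Sum.elim (fun i => τ' i x) (fun i => τ' i y)) P' : A) : Qb)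
          = MvPolynomial.eval (Sum.elim (fun i => τ i x) (fun i => τ i y)) (P j) := by
        have h8 := MvPolynomial.eval₂_comp (algebraMap A Qb)
          (Sum.elim (fun i => τ' i x) (fun i => τ' i y)) P'
        rw [← MvPolynomial.eval_map, hP'] at h8
        have h9 : (algebraMap A Qb) ∘ (Sum.elim (fun i => τ' i x) (fun i => τ' i y))
            = Sum.elim (fun i => τ i x) (fun i => τ i y) := by
          funext i
          rcases i with i | i <;> rfl
        rw [h9] at h8
        exact h8
      have h10 : ((((ℓ : A) ^ c) ^ (Fintype.card G - 1)) ^ 2 * (⟨r x y, hr x y⟩ : A) : A)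
          = ((ℓ : Qb) ^ (2 * (c * (Fintype.card G - 1))) * r x y : Qb) := by
        push_cast
        ring
      have h11 : ((τ' j (x + y) : A) : Qb) = τ j (x + y) := rfl
      rw [h11, he x y]
      push_cast
      rw [h7, ← h10]
      push_cast
      rfl
    have hsm := ConductorPow.isSumMul_of_congr_law τ' hd (τ' j) P'
      (fun x y => (⟨r x y, hr x y⟩ : A)) hlaw
    exact span_of_isSumMul A τ' _ hsm
  -- the exact statement
  obtain ⟨H, hfg, heq, hsep, hΔ⟩ := h ℓ act hone hmul hadd (⨆ x, E x) hL A hA τ h1
    (fun σ hσ j x => h2 j σ hσ x) hsepτ hΔτ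
  refine ⟨Subalgebra.toSubmodule H, hfg, ?_, heq, hsep, hΔ⟩
  intro a ha x
  have hint : IsIntegral (Zl ℓ) a := IsIntegral.of_mem_of_fg H hfg a ha
  exact hint.map (Pi.evalAlgHom (Zl ℓ) (fun _ : G => Qb) x)

end Fermat.Agent.S19.Red.Adapter
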