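import Mathlib
import Fermat.Agent.S36.UnramBase
import Fermat.Agent.Lib.Frobenius
import Fermat.Agent.Lib.CycloChar

/-!
# S19, reduction (RED), CLAIM C: integrality of the coordinates of inertia-equivariant functions

`Qb = AlgebraicClosure ℚ`, `Gq = Gal(Qb/ℚ)` acting on a type `G`, `A` a valuation subring of `Qb`
over the prime `ℓ`, `I = A.inertiaSubgroupIn ℚ`.  Let `f : Fin n → G → Qb` be a family of
`Gq`-equivariant functions which is linearly independent over `Qb` and *integrally maximal*: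
a `Qb`-combination of the `f i` which is `Gq`-equivariant and `A`-valued has its coefficients in
`A`.  Then the same holds for `I`-equivariant combinations:

* `claimC` : an `A`-valued, `I`-equivariant combination `∑ i, a i * f i` has all `a i ∈ A`.
* `claimC_pairing` : the pairing form.

The proof uses only: a Frobenius element `φ` at `A`, normality of `I` in the decomposition
group, the fact that `ℓ` is a uniformiser on inertia-fixed numbers (`S36/UnramBase`), and roots of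
unity of order prime to `ℓ` (`Lib/CycloChar`).
-/

set_option autoImplicit false

open Polynomial

namespace Fermat.Agent.S19.Red.ClaimCAlt

open Fermat.Agent.Lib Fermat.Agent.S36

local notation "Qb" => AlgebraicClosure ℚ
local notation "Gq" => (AlgebraicClosure ℚ ≃ₐ[ℚ] AlgebraicClosure ℚ)

/-! ### `∏_{m<ℓ} (X - m) ≡ X^ℓ - X` modulo `ℓ` -/

theorem prod_X_sub_C_zmod (ℓ : ℕ) [Fact ℓ.Prime] :
    ∏ m ∈ Finset.range ℓ, (X - C ((m : ℕ) : ZMod ℓ)) = (X ^ ℓ - X : (ZMod ℓ)[X]) := by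
  have hℓ : ℓ.Prime := Fact.out
  have hmonic : (X ^ ℓ - X : (ZMod ℓ)[X]).Monic :=
    Polynomial.monic_X_pow_sub (n := ℓ) (p := (X : (ZMod ℓ)[X]))
      (by rw [Polynomial.degree_X]; exact_mod_cast hℓ.one_lt)
  have hroots : (X ^ ℓ - X : (ZMod ℓ)[X]).roots = Finset.univ.val := by
    have := FiniteField.roots_X_pow_card_sub_X (ZMod ℓ)
    rwa [ZMod.card] at this
  have hdeg : (X ^ ℓ - X : (ZMod ℓ)[X]).natDegree = ℓ :=
    FiniteField.X_pow_card_sub_X_natDegree_eq (ZMod ℓ) hℓ.one_lt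
  have h2 := Polynomial.prod_multiset_X_sub_C_of_monic_of_roots_card_eq hmonic
    (by rw [hroots, hdeg, Finset.card_val, Finset.card_univ, ZMod.card])
  rw [hroots] at h2
  rw [← h2]
  change _ = ∏ a : ZMod ℓ, (X - C a)
  symm
  refine Finset.prod_nbij (fun a => a.val) ?_ ?_ ?_ ?_
  · intro a _
    exact Finset.mem_range.mpr (ZMod.val_lt a)
  · intro a _ b _ hab
    exact ZMod.val_injective ℓ hab
  · intro m hm
    have hm' : m < ℓ := Finset.mem_range.mp hm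
    exact ⟨(m : ZMod ℓ), Finset.mem_coe.mpr (Finset.mem_univ _), ZMod.val_natCast_of_lt hm'⟩
  · intro a _
    rw [ZMod.natCast_zmod_val]

/-- `∏_{m<ℓ} (X - m) = X^ℓ - X + ℓ R` in `ℤ[X]`. -/
theorem exists_prod_X_sub_C_eq (ℓ : ℕ) [Fact ℓ.Prime] :
    ∃ R : ℤ[X], ∏ m ∈ Finset.range ℓ, (X - C ((m : ℕ) : ℤ)) = X ^ ℓ - X + C (ℓ : ℤ) * R := by
  have hmap : (∏ m ∈ Finset.range ℓ, (X - C ((m : ℕ) : ℤ)) - (X ^ ℓ - X)).map
      (Int.castRingHom (ZMod ℓ)) = 0 := by
    have hfac : ∀ m : ℕ, (X - C ((m : ℕ) : ℤ)).map (Int.castRingHom (ZMod ℓ))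
        = X - C ((m : ℕ) : ZMod ℓ) := by
      intro m
      rw [Polynomial.map_sub, Polynomial.map_X, Polynomial.map_C, map_natCast]
    rw [Polynomial.map_sub, Polynomial.map_prod, Polynomial.map_sub, Polynomial.map_pow,
      Polynomial.map_X, Finset.prod_congr rfl (fun m _ => hfac m), prod_X_sub_C_zmod, sub_self]
  have hdvd : C (ℓ : ℤ) ∣ (∏ m ∈ Finset.range ℓ, (X - C ((m : ℕ) : ℤ)) - (X ^ ℓ - X)) := by
    rw [Polynomial.C_dvd_iff_dvd_coeff]
    intro i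
    have h := congrArg (fun p => p.coeff i) hmap
    simp only [Polynomial.coeff_map, Polynomial.coeff_zero, eq_intCast] at h
    exact (ZMod.intCast_zmod_eq_zero_iff_dvd _ _).mp h
  obtain ⟨R, hR⟩ := hdvd
  exact ⟨R, by rw [← hR]; ring⟩

/-! ### Elementary facts on a valuation subring of `Qb` over `ℓ` -/

section Val

variable (A : ValuationSubring Qb) {ℓ : ℕ}

theorem aeval_int_mem {y : Qb} (hy : y ∈ A) (R : ℤ[X]) : Polynomial.aeval y R ∈ A := by
  induction R using Polynomial.induction_on with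
  | C a =>
    rw [Polynomial.aeval_C, eq_intCast]
    exact intCast_mem A a
  | add p q hp hq =>
    rw [map_add]
    exact A.add_mem _ _ hp hq
  | monomial n a _ =>
    rw [map_mul, Polynomial.aeval_C, eq_intCast, map_pow, Polynomial.aeval_X]
    exact A.mul_mem _ _ (intCast_mem A a) (pow_mem hy _)

theorem natCast_mem' (m : ℕ) : (m : Qb) ∈ A := natCast_mem A m

/-- Every algebraic number becomes `A`-integral after multiplication by a power of `ℓ`. -/
theorem exists_pow_mul_mem (hℓ : ℓ.Prime) (hA : A.LiesOverPrime ℓ) (x : Qb) :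
    ∃ M : ℕ, (ℓ : Qb) ^ M * x ∈ A := by
  have halg : IsAlgebraic ℤ x :=
    (IsFractionRing.isAlgebraic_iff ℤ ℚ Qb).mpr
      ((AlgebraicClosure.isAlgebraic ℚ).isAlgebraic x)
  obtain ⟨d, hd0, hd⟩ := halg.exists_integral_multiple
  have hdx : (d : Qb) * x ∈ A := by
    have := S14.Wiring.ValRing.mem_of_isIntegral A hd
    rwa [zsmul_eq_mul] at this
  have hd0' : d.natAbs ≠ 0 := Int.natAbs_ne_zero.mpr hd0
  obtain ⟨e, u, hu, hdu⟩ := Nat.exists_eq_pow_mul_and_not_dvd hd0' ℓ hℓ.ne_one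
  refine ⟨e, ?_⟩
  have hvu : A.valuation (u : Qb) = 1 := UnramBase.valuation_natCast_eq_one A hℓ hA hu
  have hvd : A.valuation ((d : Qb) * x) ≤ 1 := (A.valuation_le_one_iff _).mpr hdx
  have habs : A.valuation (d : Qb) = A.valuation ((ℓ : Qb) ^ e) := by
    have h1 : A.valuation (d : Qb) = A.valuation ((d.natAbs : ℕ) : Qb) := by
      rcases Int.natAbs_eq d with h | h
      · rw [h]; simp
      · rw [h]; simp
    rw [h1, hdu]
    push_cast
    rw [map_mul, hvu, mul_one]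
  rw [← A.valuation_le_one_iff, map_mul, ← habs, ← map_mul]
  exact hvd

theorem pow_mul_mem_of_le {x : Qb} {M M' : ℕ} (h : M ≤ M')
    (hx : (ℓ : Qb) ^ M * x ∈ A) : (ℓ : Qb) ^ M' * x ∈ A := by
  obtain ⟨j, rfl⟩ := Nat.exists_eq_add_of_le h
  have : (ℓ : Qb) ^ (M + j) * x = (ℓ : Qb) ^ j * ((ℓ : Qb) ^ M * x) := by ring
  rw [this]
  exact A.mul_mem _ _ (pow_mem (natCast_mem A ℓ) _) hx

/-- Finitely many algebraic numbers become `A`-integral after multiplication by one power of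
`ℓ`. -/
theorem exists_pow_mul_mem_finset (hℓ : ℓ.Prime) (hA : A.LiesOverPrime ℓ) (S : Finset Qb) :
    ∃ M : ℕ, ∀ x ∈ S, (ℓ : Qb) ^ M * x ∈ A := by
  classical
  induction S using Finset.induction_on with
  | empty => exact ⟨0, by simp⟩
  | insert x S _ ih =>
    obtain ⟨M₁, h₁⟩ := ih
    obtain ⟨M₂, h₂⟩ := exists_pow_mul_mem A hℓ hA x
    refine ⟨M₁ + M₂, ?_⟩
    intro y hy
    rcases Finset.mem_insert.mp hy with rfl | hy'
    · exact pow_mul_mem_of_le A (Nat.le_add_left _ _) h₂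
    · exact pow_mul_mem_of_le A (Nat.le_add_right _ _) (h₁ y hy')

end Val

/-! ### Inertia, decomposition, Frobenius -/

section Main

variable (A : ValuationSubring Qb) {ℓ : ℕ} (hℓ : ℓ.Prime) (hA : A.LiesOverPrime ℓ)

theorem inertia_le_decomposition {s : Gq} (hs : s ∈ A.inertiaSubgroupIn ℚ) :
    s ∈ A.decompositionSubgroup ℚ := by
  obtain ⟨τ, _, rfl⟩ := hs
  exact τ.2

/-- The inertia group is normal in the decomposition group. -/
theorem conj_mem_inertia {σ s : Gq} (hσ : σ ∈ A.decompositionSubgroup ℚ)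
    (hs : s ∈ A.inertiaSubgroupIn ℚ) : σ⁻¹ * s * σ ∈ A.inertiaSubgroupIn ℚ := by
  obtain ⟨τ', hτ', rfl⟩ := hs
  have hnormal : (A.inertiaSubgroup ℚ).Normal := by
    unfold ValuationSubring.inertiaSubgroup
    infer_instance
  have h := hnormal.conj_mem τ' hτ' (⟨σ, hσ⟩ : A.decompositionSubgroup ℚ)⁻¹
  rw [inv_inv] at h
  exact ⟨_, h, rfl⟩

include hℓ hA in
/-- A Frobenius-fixed element of `A` is congruent to a natural number modulo the maximal ideal. -/
theorem exists_natCast_sub_mem_nonunits {φ : Gq} (hφ : A.IsFrobeniusAt φ ℓ) {y : Qb} (hy : y ∈ A)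
    (hyφ : φ y = y) : ∃ m : ℕ, y - (m : Qb) ∈ A.nonunits := by
  have : Fact ℓ.Prime := ⟨hℓ⟩
  obtain ⟨R, hR⟩ := exists_prod_X_sub_C_eq ℓ
  have h := congrArg (Polynomial.aeval y) hR
  have hfac : ∀ m : ℕ, Polynomial.aeval y (X - C ((m : ℕ) : ℤ)) = y - (m : Qb) := by
    intro m
    rw [map_sub, Polynomial.aeval_X, Polynomial.aeval_C, eq_intCast, Int.cast_natCast]
  rw [map_prod, Finset.prod_congr rfl (fun m _ => hfac m), map_add, map_sub, map_pow,
    Polynomial.aeval_X, map_mul, Polynomial.aeval_C, eq_intCast, Int.cast_natCast] at h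
  have h1 : y ^ ℓ - y ∈ A.nonunits := by
    have h0 := CycloChar.sub_pow_mem_nonunits_of_isFrobeniusAt A φ ℓ hφ hy
    rw [hyφ] at h0
    have h2 : y ^ ℓ - y = (-1) * (y - y ^ ℓ) := by ring
    rw [h2]
    exact CycloChar.nonunits_mul A (neg_mem (one_mem A)) h0
  have h3 : (ℓ : Qb) * Polynomial.aeval y R ∈ A.nonunits := by
    rw [mul_comm]
    exact CycloChar.nonunits_mul A (aeval_int_mem A hy R) hA
  have h4 : ∏ m ∈ Finset.range ℓ, (y - (m : Qb)) ∈ A.nonunits := by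
    rw [h]
    exact CycloChar.nonunits_add A h1 h3
  by_contra hne
  have hne : ∀ m : ℕ, y - (m : Qb) ∉ A.nonunits := fun m hm => hne ⟨m, hm⟩
  have h5 : ∀ m : ℕ, A.valuation (y - (m : Qb)) = 1 := by
    intro m
    have hle : A.valuation (y - (m : Qb)) ≤ 1 :=
      (A.valuation_le_one_iff _).mpr (sub_mem hy (natCast_mem A m))
    have hnlt : ¬ A.valuation (y - (m : Qb)) < 1 := fun hlt => hne m (A.mem_nonunits_iff.mpr hlt)
    exact le_antisymm hle (not_lt.mp hnlt)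
  rw [A.mem_nonunits_iff, map_prod, Finset.prod_congr rfl (fun m _ => h5 m),
    Finset.prod_const_one] at h4
  exact lt_irrefl _ h4

include hℓ hA in
/-- **(APX)** An element of `A` fixed by inertia and by a Frobenius element is `ℓ`-adically
approximated by integers. -/
theorem exists_int_approx {φ : Gq} (hφ : A.IsFrobeniusAt φ ℓ) {z : Qb} (hz : z ∈ A)
    (hzI : ∀ s ∈ A.inertiaSubgroupIn ℚ, s z = z) (hzφ : φ z = z) (k : ℕ) :
    ∃ (m : ℤ) (y : Qb), y ∈ A ∧ (∀ s ∈ A.inertiaSubgroupIn ℚ, s y = y) ∧ φ y = y ∧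
      z = (m : Qb) + (ℓ : Qb) ^ k * y := by
  induction k with
  | zero => exact ⟨0, z, hz, hzI, hzφ, by simp⟩
  | succ k ih =>
    obtain ⟨m, y, hy, hyI, hyφ, hzy⟩ := ih
    obtain ⟨m', hm'⟩ := exists_natCast_sub_mem_nonunits A hℓ hA hφ hy hyφ
    have hℓ0 : (ℓ : Qb) ≠ 0 := Nat.cast_ne_zero.mpr hℓ.ne_zero
    have hfixI : ∀ s ∈ A.inertiaSubgroupIn ℚ, s (y - (m' : Qb)) = y - (m' : Qb) := by
      intro s hs
      rw [map_sub, hyI s hs, map_natCast]
    obtain ⟨K, hfd, hK, hmem⟩ := UnramBase.exists_field A {y - (m' : Qb)} (by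
      intro t ht s hs
      rw [Finset.mem_singleton.mp ht]
      exact hfixI s hs)
    have := hfd
    have hv := UnramBase.valuation_le_natCast A hℓ hA K hK (y - (m' : Qb))
      (hmem _ (Finset.mem_singleton_self _)) (A.mem_nonunits_iff.mp hm')
    have hvℓ : 0 < A.valuation (ℓ : Qb) := zero_lt_iff.mpr ((_root_.map_ne_zero _).mpr hℓ0)
    refine ⟨m + (ℓ : ℤ) ^ k * (m' : ℤ), (y - (m' : Qb)) / (ℓ : Qb), ?_, ?_, ?_, ?_⟩
    · rw [← A.valuation_le_one_iff, map_div₀]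
      exact (div_le_one₀ hvℓ).mpr hv
    · intro s hs
      rw [map_div₀, hfixI s hs, map_natCast]
    · rw [map_div₀, map_sub, hyφ, map_natCast, map_natCast]
    · rw [hzy]
      push_cast
      field_simp
      ring

/-! ### Coordinates of equivariant combinations -/

section Coord

variable {G : Type*} (act : Gq → G → G) {n : ℕ} (f : Fin n → G → Qb)

/-- The coordinates of a `σ`-equivariant combination of the `f i` are fixed by `σ`. -/
theorem coord_fixed (hf : ∀ i σ x, f i (act σ x) = σ (f i x))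
    (hindep : ∀ a : Fin n → Qb, (∀ x, ∑ i, a i * f i x = 0) → ∀ i, a i = 0)
    {a : Fin n → Qb} {σ : Gq}
    (h : ∀ x, ∑ i, a i * f i (act σ x) = σ (∑ i, a i * f i x)) (i : Fin n) : σ (a i) = a i := by
  have h0 : ∀ x, ∑ i, σ.symm (a i - σ (a i)) * f i x = 0 := by
    intro x
    have h1 := h x
    rw [map_sum] at h1
    have h2 : ∑ i, (a i - σ (a i)) * σ (f i x) = 0 := by
      have e : ∑ i, (a i - σ (a i)) * σ (f i x)
          = ∑ i, a i * f i (act σ x) - ∑ i, σ (a i * f i x) := by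
        rw [← Finset.sum_sub_distrib]
        refine Finset.sum_congr rfl (fun i _ => ?_)
        rw [hf, map_mul]; ring
      rw [e, h1, sub_self]
    have h3 := congrArg σ.symm h2
    rw [map_sum, map_zero] at h3
    rw [← h3]
    refine Finset.sum_congr rfl (fun i _ => ?_)
    rw [map_mul, AlgEquiv.symm_apply_apply]
  have h4 := hindep _ h0 i
  have h5 : a i - σ (a i) = 0 := by
    have := congrArg σ h4
    rwa [AlgEquiv.apply_symm_apply, map_zero] at this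
  exact (sub_eq_zero.mp h5).symm

/-- The set of `Gq`-equivariant `A`-valued functions on `G`. -/
def eqInt : Set (G → Qb) :=
  {ν | (∀ (σ : Gq) x, ν (act σ x) = σ (ν x)) ∧ ∀ x, ν x ∈ A}

include hℓ hA in
/-- **Step 1, decomposition.** The coordinates of an `A`-valued combination of the `f i` which is
equivariant for inertia and for a Frobenius element are `ℓ`-adically close to rational numbers:
`a i = m i / ℓ ^ M + ℓ ^ M * y i` with `y i ∈ A`, where `∑ i, (m i / ℓ ^ M) * f i` is again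
`A`-valued (and `Gq`-equivariant), and `ℓ ^ M * f i` is `A`-valued. -/
theorem exists_decomp [Finite G] {φ : Gq} (hφ : A.IsFrobeniusAt φ ℓ)
    (hf : ∀ i σ x, f i (act σ x) = σ (f i x))
    (hindep : ∀ a : Fin n → Qb, (∀ x, ∑ i, a i * f i x = 0) → ∀ i, a i = 0)
    (a : Fin n → Qb)
    (hI : ∀ s ∈ A.inertiaSubgroupIn ℚ, ∀ x, ∑ i, a i * f i (act s x) = s (∑ i, a i * f i x))
    (hφe : ∀ x, ∑ i, a i * f i (act φ x) = φ (∑ i, a i * f i x))
    (hval : ∀ x, ∑ i, a i * f i x ∈ A) :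
    ∃ (M : ℕ) (m : Fin n → ℤ) (y : Fin n → Qb), (∀ i, y i ∈ A) ∧
      (∀ i x, (ℓ : Qb) ^ M * f i x ∈ A) ∧
      (∀ i, a i = (m i : Qb) / (ℓ : Qb) ^ M + (ℓ : Qb) ^ M * y i) ∧
      (∀ x, ∑ i, (m i : Qb) / (ℓ : Qb) ^ M * f i x ∈ A) ∧
      (∀ (σ : Gq) x, ∑ i, (m i : Qb) / (ℓ : Qb) ^ M * f i (act σ x)
        = σ (∑ i, (m i : Qb) / (ℓ : Qb) ^ M * f i x)) := by
  classical
  cases nonempty_fintype G
  have haI : ∀ i, ∀ s ∈ A.inertiaSubgroupIn ℚ, s (a i) = a i :=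
    fun i s hs => coord_fixed act f hf hindep (hI s hs) i
  have haφ : ∀ i, φ (a i) = a i := fun i => coord_fixed act f hf hindep hφe i
  obtain ⟨M, hM⟩ := exists_pow_mul_mem_finset A hℓ hA
    (Finset.univ.image a ∪ Finset.univ.image (fun p : Fin n × G => f p.1 p.2))
  have hMa : ∀ i, (ℓ : Qb) ^ M * a i ∈ A := fun i =>
    hM _ (Finset.mem_union_left _ (Finset.mem_image_of_mem _ (Finset.mem_univ i)))
  have hMf : ∀ i x, (ℓ : Qb) ^ M * f i x ∈ A := fun i x =>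
    hM _ (Finset.mem_union_right _
      (Finset.mem_image_of_mem (fun p : Fin n × G => f p.1 p.2) (Finset.mem_univ (i, x))))
  have hℓ0 : (ℓ : Qb) ≠ 0 := Nat.cast_ne_zero.mpr hℓ.ne_zero
  have happ : ∀ i, ∃ (m : ℤ) (y : Qb), y ∈ A ∧
      (ℓ : Qb) ^ M * a i = (m : Qb) + (ℓ : Qb) ^ (M + M) * y := by
    intro i
    obtain ⟨m, y, hy, _, _, h⟩ := exists_int_approx A hℓ hA hφ (hMa i)
      (fun s hs => by rw [map_mul, map_pow, map_natCast, haI i s hs])
      (by rw [map_mul, map_pow, map_natCast, haφ i]) (M + M)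
    exact ⟨m, y, hy, h⟩
  choose m y hy hmy using happ
  have hac : ∀ i, a i = (m i : Qb) / (ℓ : Qb) ^ M + (ℓ : Qb) ^ M * y i := by
    intro i
    have h := hmy i
    rw [pow_add] at h
    have hℓM : (ℓ : Qb) ^ M ≠ 0 := pow_ne_zero _ hℓ0
    field_simp
    linear_combination h
  have hcσ : ∀ (σ : Gq) i, σ ((m i : Qb) / (ℓ : Qb) ^ M) = (m i : Qb) / (ℓ : Qb) ^ M := by
    intro σ i
    rw [map_div₀, map_intCast, map_pow, map_natCast]
  refine ⟨M, m, y, hy, hMf, hac, ?_, ?_⟩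
  · intro x
    have e : ∑ i, (m i : Qb) / (ℓ : Qb) ^ M * f i x
        = ∑ i, a i * f i x - ∑ i, y i * ((ℓ : Qb) ^ M * f i x) := by
      rw [← Finset.sum_sub_distrib]
      refine Finset.sum_congr rfl (fun i _ => ?_)
      rw [hac i]; ring
    rw [e]
    exact sub_mem (hval x) (sum_mem (fun i _ => mul_mem (hy i) (hMf i x)))
  · intro σ x
    rw [map_sum]
    refine Finset.sum_congr rfl (fun i _ => ?_)
    rw [hf, map_mul, hcσ]

include hℓ hA in
/-- **Step 1, coordinate form.** An `A`-valued combination of the `f i` which is equivariant for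
inertia and for a Frobenius element has its coordinates in `A`. -/
theorem coord_mem_of_frob [Finite G] {φ : Gq} (hφ : A.IsFrobeniusAt φ ℓ)
    (hf : ∀ i σ x, f i (act σ x) = σ (f i x))
    (hindep : ∀ a : Fin n → Qb, (∀ x, ∑ i, a i * f i x = 0) → ∀ i, a i = 0)
    (hmax : ∀ a : Fin n → Qb, (∀ σ x, ∑ i, a i * f i (act σ x) = σ (∑ i, a i * f i x)) →
      (∀ x, ∑ i, a i * f i x ∈ A) → ∀ i, a i ∈ A)
    (a : Fin n → Qb)
    (hI : ∀ s ∈ A.inertiaSubgroupIn ℚ, ∀ x, ∑ i, a i * f i (act s x) = s (∑ i, a i * f i x))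
    (hφe : ∀ x, ∑ i, a i * f i (act φ x) = φ (∑ i, a i * f i x))
    (hval : ∀ x, ∑ i, a i * f i x ∈ A) : ∀ i, a i ∈ A := by
  obtain ⟨M, m, y, hy, _, hac, hcA, hcσ⟩ :=
    exists_decomp A hℓ hA act f hφ hf hindep a hI hφe hval
  have hcmem := hmax (fun i => (m i : Qb) / (ℓ : Qb) ^ M) hcσ hcA
  intro i
  rw [hac i]
  exact add_mem (hcmem i) (mul_mem (pow_mem (natCast_mem A ℓ) _) (hy i))

include hℓ hA in
/-- **Step 1, span form.** An `A`-valued combination of the `f i` which is equivariant for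
inertia and for a Frobenius element lies in the `A`-span of the `Gq`-equivariant `A`-valued
functions. -/
theorem span_of_frob [Finite G] {φ : Gq} (hφ : A.IsFrobeniusAt φ ℓ)
    (hf : ∀ i σ x, f i (act σ x) = σ (f i x))
    (hindep : ∀ a : Fin n → Qb, (∀ x, ∑ i, a i * f i x = 0) → ∀ i, a i = 0)
    (a : Fin n → Qb)
    (hI : ∀ s ∈ A.inertiaSubgroupIn ℚ, ∀ x, ∑ i, a i * f i (act s x) = s (∑ i, a i * f i x))
    (hφe : ∀ x, ∑ i, a i * f i (act φ x) = φ (∑ i, a i * f i x))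
    (hval : ∀ x, ∑ i, a i * f i x ∈ A) :
    (fun x => ∑ i, a i * f i x) ∈ Submodule.span ↥A (eqInt A act) := by
  obtain ⟨M, m, y, hy, hMf, hac, hcA, hcσ⟩ :=
    exists_decomp A hℓ hA act f hφ hf hindep a hI hφe hval
  have e : (fun x => ∑ i, a i * f i x)
      = (fun x => ∑ i, (m i : Qb) / (ℓ : Qb) ^ M * f i x)
        + ∑ i, (⟨y i, hy i⟩ : ↥A) • (fun x => (ℓ : Qb) ^ M * f i x) := by
    funext x
    simp only [Pi.add_apply, Finset.sum_apply, Pi.smul_apply]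
    rw [← Finset.sum_add_distrib]
    refine Finset.sum_congr rfl (fun i _ => ?_)
    rw [hac i, Algebra.smul_def, ValuationSubring.algebraMap_apply]
    ring
  rw [e]
  refine Submodule.add_mem _ (Submodule.subset_span ⟨hcσ, hcA⟩)
    (Submodule.sum_mem _ (fun i _ => Submodule.smul_mem _ _ (Submodule.subset_span ⟨?_, hMf i⟩)))
  intro σ x
  show (ℓ : Qb) ^ M * f i (act σ x) = σ ((ℓ : Qb) ^ M * f i x)
  rw [hf, map_mul, map_pow, map_natCast]

/-- The twist by `φ ∈ D_A` of an `A`-valued inertia-equivariant combination. -/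
theorem twist_spec {φ : Gq} (hφD : φ ∈ A.decompositionSubgroup ℚ)
    (hone : ∀ x, act 1 x = x) (hmul : ∀ σ τ x, act (σ * τ) x = act σ (act τ x))
    (hf : ∀ i σ x, f i (act σ x) = σ (f i x)) (b : Fin n → Qb)
    (hbI : ∀ s ∈ A.inertiaSubgroupIn ℚ, ∀ x, ∑ i, b i * f i (act s x) = s (∑ i, b i * f i x))
    (hbA : ∀ x, ∑ i, b i * f i x ∈ A) :
    (∀ s ∈ A.inertiaSubgroupIn ℚ, ∀ x,
        ∑ i, φ (b i) * f i (act s x) = s (∑ i, φ (b i) * f i x)) ∧
      (∀ x, ∑ i, φ (b i) * f i x ∈ A) ∧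
      (∀ x, ∑ i, φ (b i) * f i (act φ x) = φ (∑ i, b i * f i x)) := by
  have key : ∀ x, ∑ i, φ (b i) * f i (act φ x) = φ (∑ i, b i * f i x) := by
    intro x
    rw [map_sum]
    refine Finset.sum_congr rfl (fun i _ => ?_)
    rw [hf, map_mul]
  have key2 : ∀ x, ∑ i, φ (b i) * f i x = φ (∑ i, b i * f i (act φ⁻¹ x)) := by
    intro x
    rw [← key (act φ⁻¹ x), ← hmul, mul_inv_cancel, hone]
  refine ⟨?_, ?_, key⟩
  · intro s hs x
    have hs' := conj_mem_inertia A hφD hs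
    have e1 : act φ⁻¹ (act s x) = act (φ⁻¹ * s * φ) (act φ⁻¹ x) := by
      rw [← hmul, ← hmul]
      congr 1
      group
    rw [key2 (act s x), e1, hbI _ hs', key2 x]
    have e2 : ∀ w : Qb, φ ((φ⁻¹ * s * φ) w) = s (φ w) := by
      intro w
      have : φ * (φ⁻¹ * s * φ) = s * φ := by group
      calc φ ((φ⁻¹ * s * φ) w) = (φ * (φ⁻¹ * s * φ)) w := rfl
        _ = (s * φ) w := by rw [this]
        _ = s (φ w) := rfl
    exact e2 _
  · intro x
    rw [key2 x]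
    exact CycloChar.map_mem_of_mem_decomposition A φ hφD (hbA _)

/-- Iterated twists. -/
theorem twist_pow_spec {φ : Gq} (hφD : φ ∈ A.decompositionSubgroup ℚ)
    (hone : ∀ x, act 1 x = x) (hmul : ∀ σ τ x, act (σ * τ) x = act σ (act τ x))
    (hf : ∀ i σ x, f i (act σ x) = σ (f i x)) (b : Fin n → Qb)
    (hbI : ∀ s ∈ A.inertiaSubgroupIn ℚ, ∀ x, ∑ i, b i * f i (act s x) = s (∑ i, b i * f i x))
    (hbA : ∀ x, ∑ i, b i * f i x ∈ A) (t : ℕ) :
    (∀ s ∈ A.inertiaSubgroupIn ℚ, ∀ x,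
        ∑ i, (φ ^ t) (b i) * f i (act s x) = s (∑ i, (φ ^ t) (b i) * f i x)) ∧
      (∀ x, ∑ i, (φ ^ t) (b i) * f i x ∈ A) := by
  induction t with
  | zero => exact ⟨by simpa using hbI, by simpa using hbA⟩
  | succ t ih =>
    obtain ⟨h1, h2, _⟩ := twist_spec A act f hφD hone hmul hf (fun i => (φ ^ t) (b i)) ih.1 ih.2
    have e : ∀ i, (φ ^ (t + 1)) (b i) = φ ((φ ^ t) (b i)) := by
      intro i
      rw [pow_succ']
      rfl
    simp only [e]
    exact ⟨h1, h2⟩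

/-- **Step 2, trace coordinates.** For `θ ∈ A` fixed by inertia and by `φ ^ r`, where `φ ^ r`
also fixes the coordinates `a i` of an `A`-valued inertia-equivariant combination, the
combination with coordinates `∑_{t<r} φ^t (θ a_i)` is `A`-valued and equivariant for inertia and
for `φ`. -/
theorem trace_coord_spec {φ : Gq} (hφD : φ ∈ A.decompositionSubgroup ℚ)
    (hone : ∀ x, act 1 x = x) (hmul : ∀ σ τ x, act (σ * τ) x = act σ (act τ x))
    (hf : ∀ i σ x, f i (act σ x) = σ (f i x))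
    (a : Fin n → Qb)
    (hI : ∀ s ∈ A.inertiaSubgroupIn ℚ, ∀ x, ∑ i, a i * f i (act s x) = s (∑ i, a i * f i x))
    (hval : ∀ x, ∑ i, a i * f i x ∈ A)
    {θ : Qb} (hθA : θ ∈ A) (hθI : ∀ s ∈ A.inertiaSubgroupIn ℚ, s θ = θ)
    (r : ℕ) (hθr : (φ ^ r) θ = θ) (har : ∀ i, (φ ^ r) (a i) = a i) :
    (∀ s ∈ A.inertiaSubgroupIn ℚ, ∀ x,
        ∑ i, (∑ t ∈ Finset.range r, (φ ^ t) (θ * a i)) * f i (act s x)
          = s (∑ i, (∑ t ∈ Finset.range r, (φ ^ t) (θ * a i)) * f i x)) ∧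
      (∀ x, ∑ i, (∑ t ∈ Finset.range r, (φ ^ t) (θ * a i)) * f i (act φ x)
          = φ (∑ i, (∑ t ∈ Finset.range r, (φ ^ t) (θ * a i)) * f i x)) ∧
      (∀ x, ∑ i, (∑ t ∈ Finset.range r, (φ ^ t) (θ * a i)) * f i x ∈ A) := by
  -- the combination with coordinates `θ * a i`
  have hbI : ∀ s ∈ A.inertiaSubgroupIn ℚ, ∀ x,
      ∑ i, (θ * a i) * f i (act s x) = s (∑ i, (θ * a i) * f i x) := by
    intro s hs x
    have e : ∀ z : G, ∑ i, (θ * a i) * f i z = θ * ∑ i, a i * f i z := by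
      intro z
      rw [Finset.mul_sum]
      exact Finset.sum_congr rfl (fun i _ => by ring)
    rw [e, e, hI s hs, map_mul, hθI s hs]
  have hbA : ∀ x, ∑ i, (θ * a i) * f i x ∈ A := by
    intro x
    have e : ∑ i, (θ * a i) * f i x = θ * ∑ i, a i * f i x := by
      rw [Finset.mul_sum]
      exact Finset.sum_congr rfl (fun i _ => by ring)
    rw [e]
    exact mul_mem hθA (hval x)
  have hP := twist_pow_spec A act f hφD hone hmul hf (fun i => θ * a i) hbI hbA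
  have hshift : ∀ (t : ℕ) x, ∑ i, (φ ^ (t + 1)) (θ * a i) * f i (act φ x)
      = φ (∑ i, (φ ^ t) (θ * a i) * f i x) := by
    intro t x
    have h3 := (twist_spec A act f hφD hone hmul hf (fun i => (φ ^ t) (θ * a i))
      (hP t).1 (hP t).2).2.2 x
    rw [← h3]
    refine Finset.sum_congr rfl (fun i _ => ?_)
    rw [pow_succ']
    rfl
  have hper : ∀ i, (φ ^ r) (θ * a i) = θ * a i := by
    intro i
    rw [map_mul, hθr, har]
  have hsum : ∀ z : G, ∑ i, (∑ t ∈ Finset.range r, (φ ^ t) (θ * a i)) * f i z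
      = ∑ t ∈ Finset.range r, ∑ i, (φ ^ t) (θ * a i) * f i z := by
    intro z
    rw [Finset.sum_comm]
    exact Finset.sum_congr rfl (fun i _ => Finset.sum_mul _ _ _)
  refine ⟨?_, ?_, ?_⟩
  · intro s hs x
    rw [hsum, hsum, map_sum]
    exact Finset.sum_congr rfl (fun t _ => (hP t).1 s hs x)
  · intro x
    rw [hsum, hsum, map_sum]
    have e1 : ∑ t ∈ Finset.range r, φ (∑ i, (φ ^ t) (θ * a i) * f i x)
        = ∑ t ∈ Finset.range r, ∑ i, (φ ^ (t + 1)) (θ * a i) * f i (act φ x) :=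
      Finset.sum_congr rfl (fun t _ => (hshift t x).symm)
    rw [e1]
    have e2 := Finset.sum_range_succ (fun t => ∑ i, (φ ^ t) (θ * a i) * f i (act φ x)) r
    have e3 := Finset.sum_range_succ' (fun t => ∑ i, (φ ^ t) (θ * a i) * f i (act φ x)) r
    have e4 : ∑ i, (φ ^ r) (θ * a i) * f i (act φ x) = ∑ i, (φ ^ 0) (θ * a i) * f i (act φ x) := by
      refine Finset.sum_congr rfl (fun i _ => ?_)
      rw [hper i, pow_zero]
      rfl
    rw [e4] at e2
    rw [e2] at e3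
    exact add_right_cancel e3
  · intro x
    rw [hsum]
    exact sum_mem (fun t _ => (hP t).2 x)

include hℓ hA in
/-- **Step 2, roots of unity.** For any finite family `a i` of algebraic numbers there are a
Frobenius element `φ` at `A`, a period `r` of the `a i` under `φ`, and a root of unity `ζ` of
order `N = ℓ ^ r - 1` such that `N * a i = ∑_{j<N} ζ⁻¹ ^ j * ∑_{t<r} φ^t (ζ^j a_i)`. -/
theorem exists_trace_ident (a : Fin n → Qb) :
    ∃ (φ : Gq) (r N : ℕ) (ζ : Qb), A.IsFrobeniusAt φ ℓ ∧ ¬ ℓ ∣ N ∧ 0 < N ∧ ζ ∈ A ∧ ζ⁻¹ ∈ A ∧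
      (∀ s ∈ A.inertiaSubgroupIn ℚ, s ζ = ζ) ∧ (φ ^ r) ζ = ζ ∧ (∀ i, (φ ^ r) (a i) = a i) ∧
      ∀ i, (N : Qb) * a i
        = ∑ j ∈ Finset.range N, (ζ⁻¹) ^ j * ∑ t ∈ Finset.range r, (φ ^ t) (ζ ^ j * a i) := by
  classical
  obtain ⟨φ, hφ⟩ := Frobenius.exists_isFrobeniusAt A hℓ hA
  -- a period of the coordinates under `φ`
  obtain ⟨r, hr0, har⟩ : ∃ r : ℕ, 0 < r ∧ ∀ i, (φ ^ r) (a i) = a i := by
    have hfin : (Set.pi Set.univ (fun i : Fin n => (minpoly ℚ (a i)).rootSet Qb)).Finite :=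
      Set.Finite.pi (fun i => Polynomial.rootSet_finite _ _)
    have hmem : ∀ t : ℕ, (fun i => (φ ^ t) (a i)) ∈
        Set.pi Set.univ (fun i : Fin n => (minpoly ℚ (a i)).rootSet Qb) := by
      intro t i _
      have hint : IsIntegral ℚ (a i) :=
        ((AlgebraicClosure.isAlgebraic ℚ).isAlgebraic (a i)).isIntegral
      rw [Polynomial.mem_rootSet]
      refine ⟨minpoly.ne_zero hint, ?_⟩
      have h3 := Polynomial.aeval_algHom_apply ((φ ^ t : Gq) : Qb →ₐ[ℚ] Qb) (a i)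
        (minpoly ℚ (a i))
      rw [minpoly.aeval, map_zero] at h3
      exact h3
    obtain ⟨t₁, t₂, hlt, heq⟩ := hfin.exists_lt_map_eq_of_forall_mem hmem
    refine ⟨t₂ - t₁, Nat.sub_pos_of_lt hlt, fun i => ?_⟩
    have h1 : (φ ^ t₁) (a i) = (φ ^ t₂) (a i) := congrFun heq i
    have h2 : (φ ^ t₂) (a i) = (φ ^ t₁) ((φ ^ (t₂ - t₁)) (a i)) := by
      have : φ ^ t₂ = φ ^ t₁ * φ ^ (t₂ - t₁) := by
        rw [← pow_add, Nat.add_sub_cancel' hlt.le]
      rw [this]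
      rfl
    rw [h2] at h1
    exact ((φ ^ t₁).injective h1).symm
  -- a root of unity of order `ℓ ^ r - 1`
  have hℓr : 1 < ℓ ^ r := Nat.one_lt_pow hr0.ne' hℓ.one_lt
  set N : ℕ := ℓ ^ r - 1 with hN
  have hN0 : 0 < N := Nat.sub_pos_of_lt hℓr
  have hN1 : N + 1 = ℓ ^ r := Nat.sub_add_cancel hℓr.le
  have hNℓ : ¬ ℓ ∣ N := by
    intro hdvd
    have h1 : ℓ ∣ ℓ ^ r := dvd_pow_self ℓ hr0.ne'
    rw [← hN1] at h1
    exact hℓ.one_lt.ne' (Nat.dvd_one.mp ((Nat.dvd_add_right hdvd).mp h1))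
  have hcop : Nat.Coprime N ℓ := (Nat.Coprime.symm ((Nat.Prime.coprime_iff_not_dvd hℓ).mpr hNℓ))
  have : NeZero (N : Qb) := ⟨Nat.cast_ne_zero.mpr hN0.ne'⟩
  obtain ⟨ζ, hζ⟩ := HasEnoughRootsOfUnity.exists_primitiveRoot Qb N
  have hζN : ζ ^ N = 1 := hζ.pow_eq_one
  have hζ0 : ζ ≠ 0 := hζ.ne_zero hN0.ne'
  have hζA : ζ ∈ A := CycloChar.mem_of_pow_eq_one A hN0.ne' hζN
  have hζiA : ζ⁻¹ ∈ A := CycloChar.mem_of_pow_eq_one A hN0.ne' (by rw [inv_pow, hζN, inv_one])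
  have hζI : ∀ s ∈ A.inertiaSubgroupIn ℚ, s ζ = ζ := fun s hs =>
    CycloChar.inertia_root A hA s hs hcop hζN
  have hζφ : ∀ t : ℕ, (φ ^ t) ζ = ζ ^ (ℓ ^ t) := by
    intro t
    induction t with
    | zero => simp
    | succ t ih =>
      have e : (φ ^ (t + 1)) ζ = φ ((φ ^ t) ζ) := by
        rw [pow_succ']
        rfl
      rw [e, ih, map_pow, CycloChar.frob_root A hA φ hφ hcop hζN, ← pow_mul, pow_succ']
  have hζr : (φ ^ r) ζ = ζ := by
    rw [hζφ, ← hN1, pow_succ, hζN, one_mul]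
  -- the geometric sums
  have hgeom0 : ∀ t, 0 < t → t < r → ∑ j ∈ Finset.range N, (ζ⁻¹ * ζ ^ (ℓ ^ t)) ^ j = 0 := by
    intro t ht0 htr
    have hw : (ζ⁻¹ * ζ ^ (ℓ ^ t)) ^ N = 1 := by
      rw [mul_pow, inv_pow, hζN, inv_one, one_mul, ← pow_mul, mul_comm, pow_mul, hζN, one_pow]
    have hne : ζ⁻¹ * ζ ^ (ℓ ^ t) ≠ 1 := by
      intro h1
      have hℓt : 1 < ℓ ^ t := Nat.one_lt_pow ht0.ne' hℓ.one_lt
      have h2 : ζ ^ (ℓ ^ t - 1) = 1 := by
        have h3 : ζ ^ (ℓ ^ t) = ζ ^ (ℓ ^ t - 1) * ζ := by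
          rw [← pow_succ, Nat.sub_add_cancel hℓt.le]
        rw [h3] at h1
        field_simp at h1
        exact h1
      have h4 := (hζ.pow_eq_one_iff_dvd _).mp h2
      have h5 : N ≤ ℓ ^ t - 1 := Nat.le_of_dvd (Nat.sub_pos_of_lt hℓt) h4
      have h6 : ℓ ^ t < ℓ ^ r := Nat.pow_lt_pow_right hℓ.one_lt htr
      omega
    have h7 := geom_sum_mul (ζ⁻¹ * ζ ^ (ℓ ^ t)) N
    rw [hw, sub_self] at h7
    rcases mul_eq_zero.mp h7 with h8 | h8
    · exact h8
    · exact absurd (sub_eq_zero.mp h8) hne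
  refine ⟨φ, r, N, ζ, hφ, hNℓ, hN0, hζA, hζiA, hζI, hζr, har, ?_⟩
  intro i
  have e1 : ∀ j ∈ Finset.range N, (ζ⁻¹) ^ j * ∑ t ∈ Finset.range r, (φ ^ t) (ζ ^ j * a i)
      = ∑ t ∈ Finset.range r, (φ ^ t) (a i) * (ζ⁻¹ * ζ ^ (ℓ ^ t)) ^ j := by
    intro j _
    rw [Finset.mul_sum]
    refine Finset.sum_congr rfl (fun t _ => ?_)
    rw [map_mul, map_pow, hζφ, mul_pow]
    ring
  rw [Finset.sum_congr rfl e1, Finset.sum_comm]
  have e2 : ∀ t ∈ Finset.range r, ∑ j ∈ Finset.range N, (φ ^ t) (a i) * (ζ⁻¹ * ζ ^ (ℓ ^ t)) ^ j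
      = if t = 0 then (N : Qb) * a i else 0 := by
    intro t ht
    rw [← Finset.mul_sum]
    by_cases ht0 : t = 0
    · subst ht0
      have hw1 : ζ⁻¹ * ζ ^ (ℓ ^ 0) = 1 := by
        rw [pow_zero, pow_one, inv_mul_cancel₀ hζ0]
      have hφ0 : (φ ^ 0) (a i) = a i := by
        rw [pow_zero]
        rfl
      rw [if_pos rfl, hw1, hφ0]
      simp only [one_pow, Finset.sum_const, Finset.card_range, nsmul_eq_mul, mul_one]
      rw [mul_comm]
    · rw [if_neg ht0, hgeom0 t (Nat.pos_of_ne_zero ht0) (Finset.mem_range.mp ht), mul_zero]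
  rw [Finset.sum_congr rfl e2, Finset.sum_ite_eq' (Finset.range r) 0,
    if_pos (Finset.mem_range.mpr hr0)]

include hℓ hA in
/-- **CLAIM C (coordinate form).** Let `f i : G → Qb` be `Gq`-equivariant, linearly independent
over `Qb`, and integrally maximal at `A` (`hmax`).  If `∑ i, a i * f i` is `A`-valued and
equivariant for the inertia group of `A`, then all `a i` lie in `A`. -/
theorem claimC [Finite G]
    (hone : ∀ x, act 1 x = x) (hmul : ∀ σ τ x, act (σ * τ) x = act σ (act τ x))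
    (hf : ∀ i σ x, f i (act σ x) = σ (f i x))
    (hindep : ∀ a : Fin n → Qb, (∀ x, ∑ i, a i * f i x = 0) → ∀ i, a i = 0)
    (hmax : ∀ a : Fin n → Qb, (∀ σ x, ∑ i, a i * f i (act σ x) = σ (∑ i, a i * f i x)) →
      (∀ x, ∑ i, a i * f i x ∈ A) → ∀ i, a i ∈ A)
    (a : Fin n → Qb)
    (hI : ∀ s ∈ A.inertiaSubgroupIn ℚ, ∀ x, ∑ i, a i * f i (act s x) = s (∑ i, a i * f i x))
    (hval : ∀ x, ∑ i, a i * f i x ∈ A) : ∀ i, a i ∈ A := by
  obtain ⟨φ, r, N, ζ, hφ, hNℓ, hN0, hζA, hζiA, hζI, hζr, har, hident⟩ :=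
    exists_trace_ident A hℓ hA a
  have hT : ∀ (j : ℕ) i, ∑ t ∈ Finset.range r, (φ ^ t) (ζ ^ j * a i) ∈ A := by
    intro j
    obtain ⟨h1, h2, h3⟩ := trace_coord_spec A act f hφ.mem_decompositionSubgroup hone hmul hf a
      hI hval (pow_mem hζA j) (fun s hs => by rw [map_pow, hζI s hs]) r
      (by rw [map_pow, hζr]) har
    exact coord_mem_of_frob A hℓ hA act f hφ hf hindep hmax _ h1 h2 h3
  intro i
  have hNinv : ((N : Qb))⁻¹ ∈ A := by
    rw [← A.valuation_le_one_iff, map_inv₀, UnramBase.valuation_natCast_eq_one A hℓ hA hNℓ,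
      inv_one]
  have hNQ : (N : Qb) ≠ 0 := Nat.cast_ne_zero.mpr hN0.ne'
  have hfin : a i = ((N : Qb))⁻¹ * ((N : Qb) * a i) := (inv_mul_cancel_left₀ hNQ (a i)).symm
  rw [hfin, hident i]
  exact mul_mem hNinv (sum_mem (fun j _ => mul_mem (pow_mem hζiA j) (hT j i)))

include hℓ hA in
/-- **CLAIM C (span form).** Let `f i : G → Qb` be `Gq`-equivariant and linearly independent over
`Qb`.  Every `A`-valued combination of the `f i` which is equivariant for the inertia group of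
`A` lies in the `A`-span of the `Gq`-equivariant `A`-valued functions. -/
theorem claimC_span [Finite G]
    (hone : ∀ x, act 1 x = x) (hmul : ∀ σ τ x, act (σ * τ) x = act σ (act τ x))
    (hf : ∀ i σ x, f i (act σ x) = σ (f i x))
    (hindep : ∀ a : Fin n → Qb, (∀ x, ∑ i, a i * f i x = 0) → ∀ i, a i = 0)
    (a : Fin n → Qb)
    (hI : ∀ s ∈ A.inertiaSubgroupIn ℚ, ∀ x, ∑ i, a i * f i (act s x) = s (∑ i, a i * f i x))
    (hval : ∀ x, ∑ i, a i * f i x ∈ A) :
    (fun x => ∑ i, a i * f i x) ∈ Submodule.span ↥A (eqInt A act) := by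
  obtain ⟨φ, r, N, ζ, hφ, hNℓ, hN0, hζA, hζiA, hζI, hζr, har, hident⟩ :=
    exists_trace_ident A hℓ hA a
  have hT : ∀ j : ℕ, (fun x => ∑ i, (∑ t ∈ Finset.range r, (φ ^ t) (ζ ^ j * a i)) * f i x)
      ∈ Submodule.span ↥A (eqInt A act) := by
    intro j
    obtain ⟨h1, h2, h3⟩ := trace_coord_spec A act f hφ.mem_decompositionSubgroup hone hmul hf a
      hI hval (pow_mem hζA j) (fun s hs => by rw [map_pow, hζI s hs]) r
      (by rw [map_pow, hζr]) har
    exact span_of_frob A hℓ hA act f hφ hf hindep _ h1 h2 h3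
  have hNinv : ((N : Qb))⁻¹ ∈ A := by
    rw [← A.valuation_le_one_iff, map_inv₀, UnramBase.valuation_natCast_eq_one A hℓ hA hNℓ,
      inv_one]
  have hNQ : (N : Qb) ≠ 0 := Nat.cast_ne_zero.mpr hN0.ne'
  have e : (fun x => ∑ i, a i * f i x)
      = ∑ j ∈ Finset.range N, (⟨((N : Qb))⁻¹ * (ζ⁻¹) ^ j, mul_mem hNinv (pow_mem hζiA j)⟩ : ↥A) •
          (fun x => ∑ i, (∑ t ∈ Finset.range r, (φ ^ t) (ζ ^ j * a i)) * f i x) := by
    funext x
    simp only [Finset.sum_apply, Pi.smul_apply]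
    have e1 : ∀ j ∈ Finset.range N,
        (⟨((N : Qb))⁻¹ * (ζ⁻¹) ^ j, mul_mem hNinv (pow_mem hζiA j)⟩ : ↥A) •
          (∑ i, (∑ t ∈ Finset.range r, (φ ^ t) (ζ ^ j * a i)) * f i x)
        = ∑ i, ((N : Qb))⁻¹ * ((ζ⁻¹) ^ j * ∑ t ∈ Finset.range r, (φ ^ t) (ζ ^ j * a i))
            * f i x := by
      intro j _
      rw [Algebra.smul_def, ValuationSubring.algebraMap_apply, Finset.mul_sum]
      exact Finset.sum_congr rfl (fun i _ => by ring)
    rw [Finset.sum_congr rfl e1, Finset.sum_comm]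
    refine Finset.sum_congr rfl (fun i _ => ?_)
    rw [← Finset.sum_mul, ← Finset.mul_sum, ← hident i, inv_mul_cancel_left₀ hNQ]
  rw [e]
  exact Submodule.sum_mem _ (fun j _ => Submodule.smul_mem _ _ (hT j))

include hℓ hA in
/-- **CLAIM C (existence form).** Under the hypotheses of `claimC_span`, the combination is a
finite `A`-linear combination of `Gq`-equivariant `A`-valued functions. -/
theorem claimC_exists [Finite G]
    (hone : ∀ x, act 1 x = x) (hmul : ∀ σ τ x, act (σ * τ) x = act σ (act τ x))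
    (hf : ∀ i σ x, f i (act σ x) = σ (f i x))
    (hindep : ∀ a : Fin n → Qb, (∀ x, ∑ i, a i * f i x = 0) → ∀ i, a i = 0)
    (a : Fin n → Qb)
    (hI : ∀ s ∈ A.inertiaSubgroupIn ℚ, ∀ x, ∑ i, a i * f i (act s x) = s (∑ i, a i * f i x))
    (hval : ∀ x, ∑ i, a i * f i x ∈ A) :
    ∃ (k : ℕ) (c : Fin k → Qb) (ν : Fin k → G → Qb), (∀ j, c j ∈ A) ∧
      (∀ j (σ : Gq) x, ν j (act σ x) = σ (ν j x)) ∧ (∀ j x, ν j x ∈ A) ∧
      ∀ x, ∑ i, a i * f i x = ∑ j, c j * ν j x := by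
  obtain ⟨k, c, g, hg⟩ := Submodule.mem_span_set'.mp
    (claimC_span A hℓ hA act f hone hmul hf hindep a hI hval)
  refine ⟨k, fun j => ((c j : ↥A) : Qb), fun j => (g j : G → Qb), fun j => (c j).2,
    fun j => (g j).2.1, fun j => (g j).2.2, fun x => ?_⟩
  have h := congrFun hg x
  simp only [Finset.sum_apply, Pi.smul_apply] at h
  rw [← h]
  refine Finset.sum_congr rfl (fun j _ => ?_)
  rw [Algebra.smul_def, ValuationSubring.algebraMap_apply]

include hℓ hA in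
/-- **CLAIM C (function form).** -/
theorem claimC_fun [Finite G]
    (hone : ∀ x, act 1 x = x) (hmul : ∀ σ τ x, act (σ * τ) x = act σ (act τ x))
    (hf : ∀ i σ x, f i (act σ x) = σ (f i x))
    (hindep : ∀ a : Fin n → Qb, (∀ x, ∑ i, a i * f i x = 0) → ∀ i, a i = 0)
    (hmax : ∀ a : Fin n → Qb, (∀ σ x, ∑ i, a i * f i (act σ x) = σ (∑ i, a i * f i x)) →
      (∀ x, ∑ i, a i * f i x ∈ A) → ∀ i, a i ∈ A)
    (μ : G → Qb) (hμI : ∀ s ∈ A.inertiaSubgroupIn ℚ, ∀ x, μ (act s x) = s (μ x))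
    (hμA : ∀ x, μ x ∈ A) (a : Fin n → Qb) (ha : ∀ x, μ x = ∑ i, a i * f i x) :
    ∀ i, a i ∈ A :=
  claimC A hℓ hA act f hone hmul hf hindep hmax a
    (fun s hs x => by rw [← ha, ← ha, hμI s hs]) (fun x => by rw [← ha]; exact hμA x)

include hℓ hA in
/-- **CLAIM C (pairing form).** If `c : G → Qb` pairs every `f i` into `A`, then it pairs every
`A`-valued inertia-equivariant combination of the `f i` into `A`. -/
theorem claimC_pairing [Fintype G]
    (hone : ∀ x, act 1 x = x) (hmul : ∀ σ τ x, act (σ * τ) x = act σ (act τ x))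
    (hf : ∀ i σ x, f i (act σ x) = σ (f i x))
    (hindep : ∀ a : Fin n → Qb, (∀ x, ∑ i, a i * f i x = 0) → ∀ i, a i = 0)
    (hmax : ∀ a : Fin n → Qb, (∀ σ x, ∑ i, a i * f i (act σ x) = σ (∑ i, a i * f i x)) →
      (∀ x, ∑ i, a i * f i x ∈ A) → ∀ i, a i ∈ A)
    (c : G → Qb) (hc : ∀ i, ∑ x, c x * f i x ∈ A)
    (μ : G → Qb) (hμI : ∀ s ∈ A.inertiaSubgroupIn ℚ, ∀ x, μ (act s x) = s (μ x))
    (hμA : ∀ x, μ x ∈ A) (a : Fin n → Qb) (ha : ∀ x, μ x = ∑ i, a i * f i x) :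
    ∑ x, c x * μ x ∈ A := by
  have haA := claimC_fun A hℓ hA act f hone hmul hf hindep hmax μ hμI hμA a ha
  have e : ∑ x, c x * μ x = ∑ i, a i * ∑ x, c x * f i x := by
    simp only [ha, Finset.mul_sum]
    rw [Finset.sum_comm]
    exact Finset.sum_congr rfl (fun i _ => Finset.sum_congr rfl (fun x _ => by ring))
  rw [e]
  exact sum_mem (fun i _ => mul_mem (haA i) (hc i))

end Coord

end Main

end Fermat.Agent.S19.Red.ClaimCAlt
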