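/-
S19 (Program FG), layer (RED) (helper116): the LITERALS of the three bricks of TAIL Y between
(DESC) and the exit `RedStatement` (statement-only file; proofs in `Red/Closure.lean`,
`Red/Sat.lean`, assembly in `Red/Main.lean`).

* `ClosureStatement` : (CLOS) STEP 0.  The coordinate family `τ` of `RedStatement`, closed under
                       the twists by the decomposition group `D` of `A`, is a finite set `T` of
                       inertia-equivariant functions, and `R := A[T]` is `A`-valued, `D`-stable,
                       has a conductor `ℓ ^ c • (G → A) ⊆ R` and satisfies `Δ R ⊆ R ⊗_A R`.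
* `SatStatement`     : (SAT) saturation.  A `Gal`-equivariant function in the `A`-span of a
                       finitely generated `ℤ_(ℓ)`-module `M` of `Gal`-equivariant functions
                       lies in `M`.
* `IntStatement`     : (INT) an element of `ℚ̄` all of whose conjugates lie in `A` is integral
                       over `ℤ_(ℓ)`.
-/
import Mathlib
import Fermat.Agent.S19.Red.Contract

set_option autoImplicit false

noncomputable section

namespace Fermat.Agent.S19.Red

open Fermat.Agent.S19.HopfOrder GaloisRep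

/-- **(CLOS), STEP 0.** Same data as in `RedStatement`.  There is a FINITE set `T ⊇ range τ` of
inertia-equivariant functions (`T = {twist act δ (τ j)}`, `δ` in the decomposition group of `A`)
such that `Algebra.adjoin A T` consists of `A`-valued functions, is stable under the twists by the
decomposition group, contains `ℓ ^ c • φ` for every `A`-valued `φ`, and is closed under
`r ↦ ((x, y) ↦ r (x + y))` up to finite sums of products over `A`. -/
def ClosureStatement : Prop :=
  ∀ (ℓ : ℕ) [Fact ℓ.Prime] {G : Type} [AddCommGroup G] [Finite G] (act : Gal → G → G),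
    (∀ x, act 1 x = x) → (∀ σ τ x, act (σ * τ) x = act σ (act τ x)) →
    (∀ σ x y, act σ (x + y) = act σ x + act σ y) →
    ∀ (L : IntermediateField ℚ Qb) [FiniteDimensional ℚ L],
      (∀ σ ∈ L.fixingSubgroup, ∀ x, act σ x = x) →
      ∀ (A : ValuationSubring Qb), A.LiesOverPrime ℓ →
        ∀ {ι : Type} [Finite ι] (τ : ι → G → Qb), (∀ j x, τ j x ∈ A) →
          (∀ σ ∈ A.inertiaSubgroupIn ℚ, ∀ j x, τ j (act σ x) = σ (τ j x)) →
          (∀ x y, x ≠ y → ∃ j, τ j x ≠ τ j y) →
          (∀ j, (fun p : G × G => τ j (p.1 + p.2)) ∈ Submodule.span A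
            {F : G × G → Qb | ∃ a ∈ Algebra.adjoin A (Set.range τ),
              ∃ b ∈ Algebra.adjoin A (Set.range τ), F = fun p => a p.1 * b p.2}) →
          ∃ T : Set (G → Qb), T.Finite ∧ Set.range τ ⊆ T ∧
            (∀ t ∈ T, ∀ σ ∈ A.inertiaSubgroupIn ℚ, ∀ x, t (act σ x) = σ (t x)) ∧
            (∀ r ∈ Algebra.adjoin A T, ∀ x, r x ∈ A) ∧
            (∀ δ ∈ A.decompositionSubgroup ℚ, ∀ r ∈ Algebra.adjoin A T,
              twist act δ r ∈ Algebra.adjoin A T) ∧
            (∃ c : ℕ, ∀ φ : G → Qb, (∀ x, φ x ∈ A) →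
              (fun x => (ℓ : Qb) ^ c * φ x) ∈ Algebra.adjoin A T) ∧
            ∀ r ∈ Algebra.adjoin A T, (fun p : G × G => r (p.1 + p.2)) ∈ Submodule.span A
              {F : G × G → Qb | ∃ a ∈ Algebra.adjoin A T, ∃ b ∈ Algebra.adjoin A T,
                F = fun p => a p.1 * b p.2}

/-- **(SAT), saturation.** `X` a set with an action of `Gal` by surjections, `M` a finitely
generated `ℤ_(ℓ)`-module of `Gal`-equivariant functions `X → ℚ̄`.  A `Gal`-equivariant function in
the `A`-span of `M` lies in `M`. -/
def SatStatement : Prop :=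
  ∀ (ℓ : ℕ) [Fact ℓ.Prime] (A : ValuationSubring Qb), A.LiesOverPrime ℓ →
    ∀ {X : Type} (act : Gal → X → X), (∀ σ, Function.Surjective (act σ)) →
      ∀ M : Submodule (Zl ℓ) (X → Qb), M.FG →
        (∀ m ∈ M, ∀ (σ : Gal) (x : X), m (act σ x) = σ (m x)) →
        ∀ F : X → Qb, (∀ (σ : Gal) (x : X), F (act σ x) = σ (F x)) →
          F ∈ Submodule.span A (M : Set (X → Qb)) → F ∈ M

/-- **(INT).** An element of `ℚ̄` all of whose `Gal`-conjugates lie in the valuation subring `A`
over `ℓ` is integral over `ℤ_(ℓ)`. -/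
def IntStatement : Prop :=
  ∀ (ℓ : ℕ) [Fact ℓ.Prime] (A : ValuationSubring Qb), A.LiesOverPrime ℓ →
    ∀ y : Qb, (∀ σ : Gal, σ y ∈ A) → IsIntegral (Zl ℓ) y

end Fermat.Agent.S19.Red
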