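import Mathlib
import Fermat.Prelude.Def_FLTPrelim_Ramification
import Fermat.Prelude.Def_EllipticCurve_FrobeniusTrace
import Fermat.Agent.Lib.InertiaBridge

/-!
# S19, brick (RED): CLAIM C, abstract core

`Qb = AlgebraicClosure ℚ`, `A` a valuation subring of `Qb` over the prime `ℓ`, `I` its inertia
group (`A.inertiaSubgroupIn ℚ`), `inertiaField A` the field of `I`-fixed algebraic numbers.

The two inputs from ramification theory are hypotheses here:
* `hU1` : an `I`-fixed non-unit of `A` is divisible by `ℓ` (the inertia field is unramified);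
* `hφ`  : a Frobenius element `φ` of `A`.

* `indep_mod_of` (the LEMMA): let `a j : G → Qb` be finitely many `φ`-equivariant `A`-valued maps
  such that an integer combination `∑ u j • a j` with all values in `ℓ A` has all `u j` divisible
  by `ℓ`.  Then an `A`-combination `∑ c j • a j` with `I`-fixed coefficients and all values in
  `ℓ A` has all coefficients in `ℓ A`.
* `coeff_mem_of` (THEOREM C): if `∑ c j • a j` is `A`-valued with `I`-fixed coefficients
  `c j ∈ Qb`, then all `c j ∈ A`.

Proof of the LEMMA: take a counterexample with the fewest unit entries, scale one unit entry to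
`1`, subtract the Frobenius transform (one unit entry fewer, so no unit entry at all by
minimality): every entry is congruent to its `ℓ`-th power, hence to an integer, modulo the maximal
ideal, hence modulo `ℓ` by `hU1`; the integer vector then contradicts the hypothesis on integer
combinations.  The file `ClaimC.lean` discharges `hU1` and `hφ` from main.
-/

set_option autoImplicit false

open scoped Pointwise

namespace Fermat.Agent.S19.Red.ClaimC

local notation "Qb" => AlgebraicClosure ℚ
local notation "Gq" => (AlgebraicClosure ℚ ≃ₐ[ℚ] AlgebraicClosure ℚ)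

variable (A : ValuationSubring Qb)

/-- The inertia field of `A`: the algebraic numbers fixed by the inertia group of `A`. -/
noncomputable def inertiaField : IntermediateField ℚ Qb :=
  IntermediateField.fixedField (A.inertiaSubgroupIn ℚ)

theorem mem_inertiaField_iff (y : Qb) :
    y ∈ inertiaField A ↔ ∀ τ ∈ A.inertiaSubgroupIn ℚ, τ y = y := by
  unfold inertiaField
  rw [IntermediateField.mem_fixedField_iff]

/-! ### Elements of the decomposition group -/

section Decomp

variable {A}
variable {φ : Gq} (hφ : φ ∈ A.decompositionSubgroup ℚ)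

include hφ

theorem map_mem_iff (y : Qb) : φ y ∈ A ↔ y ∈ A := by
  have h : φ • A = A := MulAction.mem_stabilizer_iff.mp hφ
  have h1 : φ y ∈ φ • A ↔ y ∈ A := by
    rw [ValuationSubring.mem_pointwise_smul_iff_inv_smul_mem]
    have e : φ⁻¹ • φ y = y := by
      change φ⁻¹ (φ y) = y
      exact AlgEquiv.symm_apply_apply φ y
    rw [e]
  rw [h] at h1
  exact h1

theorem valuation_map_le_iff (x z : Qb) :
    A.valuation (φ x) ≤ A.valuation (φ z) ↔ A.valuation x ≤ A.valuation z := by
  by_cases hz : z = 0
  · subst hz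
    simp
  · have hφz : φ z ≠ 0 := by
      rwa [Ne, EmbeddingLike.map_eq_zero_iff]
    have h0 : 0 < A.valuation z := by
      rw [zero_lt_iff, Ne, map_eq_zero]
      exact hz
    have h0' : 0 < A.valuation (φ z) := by
      rw [zero_lt_iff, Ne, map_eq_zero]
      exact hφz
    have e1 : A.valuation x ≤ A.valuation z ↔ x / z ∈ A := by
      rw [← A.valuation_le_one_iff, map_div₀, div_le_one₀ h0]
    have e2 : A.valuation (φ x) ≤ A.valuation (φ z) ↔ φ x / φ z ∈ A := by
      rw [← A.valuation_le_one_iff, map_div₀, div_le_one₀ h0']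
    rw [e1, e2, ← map_div₀, map_mem_iff hφ]

theorem valuation_map_lt_one_iff (y : Qb) : A.valuation (φ y) < 1 ↔ A.valuation y < 1 := by
  have h := valuation_map_le_iff hφ 1 y
  rw [map_one, map_one] at h
  rw [← not_le, ← not_le, h]

theorem valuation_map_le_natCast_iff (n : ℕ) (y : Qb) :
    A.valuation (φ y) ≤ A.valuation (n : Qb) ↔ A.valuation y ≤ A.valuation (n : Qb) := by
  have h := valuation_map_le_iff hφ y (n : Qb)
  rwa [map_natCast] at h

theorem inv_mem_decomp : φ⁻¹ ∈ A.decompositionSubgroup ℚ :=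
  (A.decompositionSubgroup ℚ).inv_mem hφ

/-- The decomposition group normalises the inertia group: it preserves the inertia field. -/
theorem map_mem_inertiaField {y : Qb} (hy : y ∈ inertiaField A) : φ y ∈ inertiaField A := by
  rw [mem_inertiaField_iff] at hy ⊢
  intro τ hτ
  have hτ' : φ⁻¹ * τ * φ ∈ A.inertiaSubgroupIn ℚ := by
    rw [Fermat.Agent.Lib.InertiaBridge.mem_inertiaSubgroupIn_iff]
    intro x hx
    have hφx : φ x ∈ A := (map_mem_iff hφ x).mpr hx
    have h1 := (Fermat.Agent.Lib.InertiaBridge.mem_inertiaSubgroupIn_iff A τ).mp hτ (φ x) hφx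
    have e : (φ⁻¹ * τ * φ) x - x = φ⁻¹ (τ (φ x) - φ x) := by
      rw [map_sub]
      change φ⁻¹ (τ (φ x)) - x = φ⁻¹ (τ (φ x)) - φ⁻¹ (φ x)
      congr 1
      exact (AlgEquiv.symm_apply_apply φ x).symm
    rw [e, A.mem_nonunits_iff, valuation_map_lt_one_iff (inv_mem_decomp hφ), ← A.mem_nonunits_iff]
    exact h1
  have h2 := hy _ hτ'
  have h3 : φ⁻¹ (τ (φ y)) = y := h2
  have h4 := congrArg φ h3
  rwa [show φ (φ⁻¹ (τ (φ y))) = τ (φ y) from AlgEquiv.apply_symm_apply φ _] at h4

end Decomp

/-- A Frobenius element is congruent to the `ℓ`-th power map modulo the maximal ideal. -/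
theorem frob_sub_pow_lt {A : ValuationSubring Qb} {φ : Gq} {ℓ : ℕ} (h : A.IsFrobeniusAt φ ℓ)
    {y : Qb} (hy : y ∈ A) : A.valuation (φ y - y ^ ℓ) < 1 := by
  obtain ⟨hs, hfrob⟩ := h
  have h1 := hfrob (IsLocalRing.residue A ⟨y, hy⟩)
  rw [← IsLocalRing.ResidueField.residue_smul, ← map_pow, ← sub_eq_zero, ← map_sub,
    IsLocalRing.residue_eq_zero_iff, ValuationSubring.valuation_lt_one_iff] at h1
  exact h1

/-- An element of `A` congruent to its `ℓ`-th power modulo the maximal ideal is congruent to an
integer. -/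
theorem exists_int_sub_lt {ℓ : ℕ} (hℓ : ℓ.Prime) (hA : A.LiesOverPrime ℓ) {y : Qb} (hy : y ∈ A)
    (h : A.valuation (y ^ ℓ - y) < 1) : ∃ n : ℤ, A.valuation (y - (n : Qb)) < 1 := by
  have : Fact ℓ.Prime := ⟨hℓ⟩
  have hℓA : (ℓ : Qb) ∈ A := A.nonunits_le hA
  have hres : ((ℓ : ℕ) : IsLocalRing.ResidueField A) = 0 := by
    have h1 : IsLocalRing.residue A ⟨(ℓ : Qb), hℓA⟩ = 0 := by
      rw [IsLocalRing.residue_eq_zero_iff, ValuationSubring.valuation_lt_one_iff]
      exact A.mem_nonunits_iff.mp hA
    have h2 : (⟨(ℓ : Qb), hℓA⟩ : A) = ((ℓ : ℕ) : A) := by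
      apply Subtype.ext
      simp
    rw [h2, map_natCast] at h1
    exact h1
  have : CharP (IsLocalRing.ResidueField A) ℓ := (CharP.charP_iff_prime_eq_zero hℓ).mpr hres
  have hr : (IsLocalRing.residue A ⟨y, hy⟩) ^ ℓ = IsLocalRing.residue A ⟨y, hy⟩ := by
    rw [← map_pow, ← sub_eq_zero, ← map_sub, IsLocalRing.residue_eq_zero_iff,
      ValuationSubring.valuation_lt_one_iff]
    exact h
  have hbot := (Subfield.mem_bot_iff_pow_eq_self (IsLocalRing.ResidueField A) ℓ).mpr hr
  obtain ⟨n, hn⟩ := (mem_bot_iff_intCast ℓ (IsLocalRing.ResidueField A)).mp hbot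
  refine ⟨n, ?_⟩
  have h3 : IsLocalRing.residue A (⟨y, hy⟩ - ((n : ℤ) : A)) = 0 := by
    rw [map_sub, map_intCast, hn, sub_self]
  rw [IsLocalRing.residue_eq_zero_iff, ValuationSubring.valuation_lt_one_iff] at h3
  simpa using h3

/-! ### The lemma: independence modulo `ℓ` over the inertia field -/

section Core

variable {A}
variable {ℓ : ℕ} {G : Type*} {ι : Type*} [Fintype ι]

/-- Core induction: under the hypotheses of `indep_mod`, a coefficient vector has no unit
entry.  The induction is on the number of unit entries. -/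
theorem no_unit_entry (hℓ : ℓ.Prime) (hA : A.LiesOverPrime ℓ)
    (hU1 : ∀ y ∈ inertiaField A, A.valuation y < 1 → A.valuation y ≤ A.valuation (ℓ : Qb))
    {φ : Gq} (hφ : A.IsFrobeniusAt φ ℓ)
    (act : Gq → G → G) (hsurj : Function.Surjective (act φ))
    (a : ι → G → Qb) (ha : ∀ j x, a j (act φ x) = φ (a j x)) (haA : ∀ j x, a j x ∈ A)
    (hstar : ∀ u : ι → ℤ,
      (∀ x, A.valuation (∑ j, (u j : Qb) * a j x) ≤ A.valuation (ℓ : Qb)) → ∀ j, (ℓ : ℤ) ∣ u j) :
    ∀ (n : ℕ) (c : ι → Qb),
      (Finset.univ.filter (fun j => A.valuation (c j) = 1)).card = n →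
      (∀ j, c j ∈ A) → (∀ j, c j ∈ inertiaField A) →
      (∀ x, A.valuation (∑ j, c j * a j x) ≤ A.valuation (ℓ : Qb)) →
      ∀ j, A.valuation (c j) < 1 := by
  classical
  intro n
  induction n using Nat.strong_induction_on with
  | _ n ih =>
    intro c hn hcA hcI hc
    by_contra hcon
    obtain ⟨j0, hj0n⟩ := not_forall.mp hcon
    have hj0 : 1 ≤ A.valuation (c j0) := not_lt.mp hj0n
    have hj0' : A.valuation (c j0) = 1 :=
      le_antisymm ((A.valuation_le_one_iff _).mpr (hcA j0)) hj0
    have hc0 : c j0 ≠ 0 := by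
      intro h
      rw [h, map_zero] at hj0'
      exact zero_ne_one hj0'
    -- normalise the entry `j0` to `1`
    set c' : ι → Qb := fun j => c j / c j0 with hc'def
    have hv' : ∀ j, A.valuation (c' j) = A.valuation (c j) := by
      intro j
      simp only [hc'def, map_div₀, hj0', div_one]
    have hc'A : ∀ j, c' j ∈ A := fun j => by
      rw [← A.valuation_le_one_iff, hv']
      exact (A.valuation_le_one_iff _).mpr (hcA j)
    have hc'I : ∀ j, c' j ∈ inertiaField A := fun j => (inertiaField A).div_mem (hcI j) (hcI j0)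
    have hc'sum : ∀ x, A.valuation (∑ j, c' j * a j x) ≤ A.valuation (ℓ : Qb) := by
      intro x
      have e : ∑ j, c' j * a j x = (∑ j, c j * a j x) / c j0 := by
        rw [Finset.sum_div]
        refine Finset.sum_congr rfl fun j _ => ?_
        simp only [hc'def]
        ring
      rw [e, map_div₀, hj0', div_one]
      exact hc x
    have hc'j0 : c' j0 = 1 := div_self hc0
    -- the difference with the Frobenius transform
    have hφD := hφ.mem_decompositionSubgroup
    set e : ι → Qb := fun j => c' j - φ (c' j) with hedef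
    have heA : ∀ j, e j ∈ A := fun j =>
      A.sub_mem (hc'A j) ((map_mem_iff hφD _).mpr (hc'A j))
    have heI : ∀ j, e j ∈ inertiaField A := fun j =>
      (inertiaField A).sub_mem (hc'I j) (map_mem_inertiaField hφD (hc'I j))
    have hesum : ∀ x, A.valuation (∑ j, e j * a j x) ≤ A.valuation (ℓ : Qb) := by
      intro x
      obtain ⟨y, rfl⟩ := hsurj x
      have e1 : ∑ j, e j * a j (act φ y) =
          (∑ j, c' j * a j (act φ y)) - φ (∑ j, c' j * a j y) := by
        rw [map_sum, ← Finset.sum_sub_distrib]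
        refine Finset.sum_congr rfl fun j _ => ?_
        rw [map_mul, ← ha j y]
        simp only [hedef]
        ring
      rw [e1]
      refine le_trans (A.valuation.map_sub _ _) (max_le (hc'sum _) ?_)
      exact (valuation_map_le_natCast_iff hφD ℓ _).mpr (hc'sum y)
    -- the unit entries of `e` form a strictly smaller set
    have hsub : Finset.univ.filter (fun j => A.valuation (e j) = 1) ⊂
        Finset.univ.filter (fun j => A.valuation (c j) = 1) := by
      rw [Finset.ssubset_iff_of_subset]
      · refine ⟨j0, by simp [hj0'], ?_⟩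
        simp only [Finset.mem_filter, Finset.mem_univ, true_and, hedef, hc'j0, map_one, sub_self,
          map_zero]
        exact zero_ne_one
      · intro j hj
        simp only [Finset.mem_filter, Finset.mem_univ, true_and] at hj ⊢
        by_contra hne
        have hlt : A.valuation (c' j) < 1 := by
          rw [hv']
          exact lt_of_le_of_ne ((A.valuation_le_one_iff _).mpr (hcA j)) hne
        have hlt2 : A.valuation (φ (c' j)) < 1 := (valuation_map_lt_one_iff hφD _).mpr hlt
        have hlt3 : A.valuation (e j) < 1 := A.valuation.map_sub_lt hlt hlt2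
        exact absurd hj (ne_of_lt hlt3)
    have hcard := Finset.card_lt_card hsub
    rw [hn] at hcard
    have he1 := ih _ hcard e rfl heA heI hesum
    -- every entry of `c'` is congruent to an integer
    have hint : ∀ j, ∃ u : ℤ, A.valuation (c' j - (u : Qb)) < 1 := by
      intro j
      apply exists_int_sub_lt A hℓ hA (hc'A j)
      have e2 : c' j ^ ℓ - c' j = -((φ (c' j) - c' j ^ ℓ) + (c' j - φ (c' j))) := by ring
      rw [e2, Valuation.map_neg]
      exact A.valuation.map_add_lt (frob_sub_pow_lt hφ (hc'A j)) (he1 j)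
    choose u hu using hint
    have hu' : ∀ j, A.valuation (c' j - (u j : Qb)) ≤ A.valuation (ℓ : Qb) := fun j =>
      hU1 _ ((inertiaField A).sub_mem (hc'I j) (intCast_mem _ _)) (hu j)
    have hdiv := hstar u (by
      intro x
      have e3 : ∑ j, (u j : Qb) * a j x =
          (∑ j, c' j * a j x) - ∑ j, (c' j - (u j : Qb)) * a j x := by
        rw [← Finset.sum_sub_distrib]
        refine Finset.sum_congr rfl fun j _ => ?_
        ring
      rw [e3]
      refine le_trans (A.valuation.map_sub _ _) (max_le (hc'sum x) ?_)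
      refine A.valuation.map_sum_le fun j _ => ?_
      rw [map_mul]
      calc A.valuation (c' j - (u j : Qb)) * A.valuation (a j x)
          ≤ A.valuation (ℓ : Qb) * 1 :=
            mul_le_mul' (hu' j) ((A.valuation_le_one_iff _).mpr (haA j x))
        _ = A.valuation (ℓ : Qb) := mul_one _)
    -- contradiction at `j0`
    obtain ⟨w, hw⟩ := hdiv j0
    have hltℓ : A.valuation (ℓ : Qb) < 1 := A.mem_nonunits_iff.mp hA
    have h1 : A.valuation ((u j0 : ℤ) : Qb) < 1 := by
      rw [hw]
      push_cast
      rw [map_mul]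
      calc A.valuation (ℓ : Qb) * A.valuation (w : Qb)
          ≤ A.valuation (ℓ : Qb) * 1 :=
            mul_le_mul' le_rfl ((A.valuation_le_one_iff _).mpr (intCast_mem _ _))
        _ < 1 := by rwa [mul_one]
    have h2 : A.valuation (c' j0) < 1 := by
      have e4 : c' j0 = (c' j0 - (u j0 : Qb)) + (u j0 : Qb) := by ring
      rw [e4]
      exact A.valuation.map_add_lt (hu j0) h1
    rw [hc'j0, map_one] at h2
    exact lt_irrefl _ h2

/-- **The LEMMA, abstract form.** -/
theorem indep_mod_of (hℓ : ℓ.Prime) (hA : A.LiesOverPrime ℓ)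
    (hU1 : ∀ y ∈ inertiaField A, A.valuation y < 1 → A.valuation y ≤ A.valuation (ℓ : Qb))
    {φ : Gq} (hφ : A.IsFrobeniusAt φ ℓ)
    (act : Gq → G → G) (hsurj : Function.Surjective (act φ))
    (a : ι → G → Qb) (ha : ∀ j x, a j (act φ x) = φ (a j x)) (haA : ∀ j x, a j x ∈ A)
    (hstar : ∀ u : ι → ℤ,
      (∀ x, A.valuation (∑ j, (u j : Qb) * a j x) ≤ A.valuation (ℓ : Qb)) → ∀ j, (ℓ : ℤ) ∣ u j)
    (c : ι → Qb) (hcA : ∀ j, c j ∈ A) (hcI : ∀ j, c j ∈ inertiaField A)
    (hc : ∀ x, A.valuation (∑ j, c j * a j x) ≤ A.valuation (ℓ : Qb)) :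
    ∀ j, A.valuation (c j) ≤ A.valuation (ℓ : Qb) := fun j =>
  hU1 _ (hcI j)
    (no_unit_entry hℓ hA hU1 hφ act hsurj a ha haA hstar _ c rfl hcA hcI hc j)

/-- **THEOREM C, abstract form.** An `A`-valued combination of the `a j` with inertia-fixed
coefficients has its coefficients in `A`. -/
theorem coeff_mem_of (hℓ : ℓ.Prime) (hA : A.LiesOverPrime ℓ)
    (hU1 : ∀ y ∈ inertiaField A, A.valuation y < 1 → A.valuation y ≤ A.valuation (ℓ : Qb))
    {φ : Gq} (hφ : A.IsFrobeniusAt φ ℓ)
    (act : Gq → G → G) (hsurj : Function.Surjective (act φ))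
    (a : ι → G → Qb) (ha : ∀ j x, a j (act φ x) = φ (a j x)) (haA : ∀ j x, a j x ∈ A)
    (hstar : ∀ u : ι → ℤ,
      (∀ x, A.valuation (∑ j, (u j : Qb) * a j x) ≤ A.valuation (ℓ : Qb)) → ∀ j, (ℓ : ℤ) ∣ u j)
    (c : ι → Qb) (hcI : ∀ j, c j ∈ inertiaField A)
    (hc : ∀ x, (∑ j, c j * a j x) ∈ A) :
    ∀ j, c j ∈ A := by
  classical
  by_contra hcon
  obtain ⟨j2, hj2⟩ := not_forall.mp hcon
  obtain ⟨j1, -, hmax⟩ := Finset.exists_max_image Finset.univ (fun j => A.valuation (c j))
    ⟨j2, Finset.mem_univ _⟩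
  have hgt : 1 < A.valuation (c j1) := by
    have h1 : 1 < A.valuation (c j2) := by
      rw [← not_le, A.valuation_le_one_iff]
      exact hj2
    exact lt_of_lt_of_le h1 (hmax j2 (Finset.mem_univ _))
  have hc1 : c j1 ≠ 0 := by
    intro h
    rw [h, map_zero] at hgt
    exact not_lt_of_ge zero_le_one hgt
  have hpos : 0 < A.valuation (c j1) := lt_trans zero_lt_one hgt
  set y : Qb := (c j1)⁻¹ with hy
  have hyI : y ∈ inertiaField A := (inertiaField A).inv_mem (hcI j1)
  have hyv : A.valuation y < 1 := by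
    rw [hy, map_inv₀]
    exact inv_lt_one_of_one_lt₀ hgt
  have hyℓ : A.valuation y ≤ A.valuation (ℓ : Qb) := hU1 y hyI hyv
  set c' : ι → Qb := fun j => c j * y with hc'def
  have hc'A : ∀ j, c' j ∈ A := by
    intro j
    rw [← A.valuation_le_one_iff]
    simp only [hc'def, hy, map_mul, map_inv₀]
    rw [← div_eq_mul_inv, div_le_one₀ hpos]
    exact hmax j (Finset.mem_univ _)
  have hc'I : ∀ j, c' j ∈ inertiaField A := fun j => (inertiaField A).mul_mem (hcI j) hyI
  have hc'sum : ∀ x, A.valuation (∑ j, c' j * a j x) ≤ A.valuation (ℓ : Qb) := by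
    intro x
    have e : ∑ j, c' j * a j x = (∑ j, c j * a j x) * y := by
      rw [Finset.sum_mul]
      refine Finset.sum_congr rfl fun j _ => ?_
      simp only [hc'def]
      ring
    rw [e, map_mul]
    calc A.valuation (∑ j, c j * a j x) * A.valuation y ≤ 1 * A.valuation (ℓ : Qb) :=
          mul_le_mul' ((A.valuation_le_one_iff _).mpr (hc x)) hyℓ
      _ = A.valuation (ℓ : Qb) := one_mul _
  have h := no_unit_entry hℓ hA hU1 hφ act hsurj a ha haA hstar _ c' rfl hc'A hc'I hc'sum j1
  have e1 : c' j1 = 1 := by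
    simp only [hc'def, hy]
    exact mul_inv_cancel₀ hc1
  rw [e1, map_one] at h
  exact lt_irrefl _ h

end Core

end Fermat.Agent.S19.Red.ClaimC
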