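import Mathlib
import Fermat.Agent.S19.Red.ClaimCCore
import Fermat.Agent.S36.UnramBase
import Fermat.Agent.Lib.Frobenius

/-!
# S19, brick (RED): CLAIM C (inertia-equivariant integral maps)

`Qb = AlgebraicClosure ℚ`, `A` a valuation subring of `Qb` over the prime `ℓ`, `I` its inertia
group (`A.inertiaSubgroupIn ℚ`).

* `indep_mod` (the LEMMA): let `a j : G → Qb` be finitely many Galois-equivariant `A`-valued maps
  such that an integer combination `∑ u j • a j` with all values in `ℓ A` has all `u j` divisible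
  by `ℓ` (hypothesis `hstar`).  Then an `A`-combination `∑ c j • a j` with `I`-fixed coefficients
  and all values in `ℓ A` has all coefficients in `ℓ A`.
* `coeff_mem` (THEOREM C): if `∑ c j • a j` is `A`-valued with `I`-fixed coefficients `c j ∈ Qb`,
  then all `c j ∈ A`.
* `coeff_mem_of_equivariant`: for `Qb`-linearly independent `a j`, the coefficients of an
  `A`-valued `I`-equivariant map `μ = ∑ c j • a j` are `I`-fixed elements of `A`.
* `hstar_of_span`: `hstar` holds when the `a j` are `Qb`-linearly independent and span the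
  Galois-equivariant `A`-valued maps over `ℤ_(ℓ)` (a `ℤ_(ℓ)`-basis of the maximal order).

Inputs from main: `S36.UnramBase.valuation_le_natCast` (an `I`-fixed non-unit of `A` is divisible
by `ℓ`) and `Lib.Frobenius.exists_isFrobeniusAt` (a Frobenius element in the decomposition group).
-/

set_option autoImplicit false

open scoped Pointwise

namespace Fermat.Agent.S19.Red.ClaimC

local notation "Qb" => AlgebraicClosure ℚ
local notation "Gq" => (AlgebraicClosure ℚ ≃ₐ[ℚ] AlgebraicClosure ℚ)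

variable (A : ValuationSubring Qb)

/-- **(U1)** An inertia-fixed non-unit of `A` is divisible by `ℓ` in `A`. -/
theorem valuation_le_of_mem_inertiaField {ℓ : ℕ} (hℓ : ℓ.Prime) (hA : A.LiesOverPrime ℓ)
    {y : Qb} (hy : y ∈ inertiaField A) (hv : A.valuation y < 1) :
    A.valuation y ≤ A.valuation (ℓ : Qb) := by
  obtain ⟨K, hfd, hK, hS⟩ := Fermat.Agent.S36.UnramBase.exists_field A {y}
    (fun s hs τ hτ => by
      rw [Finset.mem_singleton] at hs
      subst hs
      exact (mem_inertiaField_iff A _).mp hy τ hτ)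
  have := hfd
  exact Fermat.Agent.S36.UnramBase.valuation_le_natCast A hℓ hA K hK y
    (hS y (Finset.mem_singleton_self y)) hv

/-! ### The statements with the inputs from main discharged -/

section Final

variable {ℓ : ℕ} {G : Type*} {ι : Type*} [Fintype ι]

/-- **The LEMMA (independence modulo `ℓ` over the inertia field).**  Let `a j : G → Qb` be
Galois-equivariant `A`-valued maps such that every integer combination with all values in `ℓ A`
has all coefficients divisible by `ℓ`.  Then every combination with inertia-fixed coefficients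
in `A` and all values in `ℓ A` has all coefficients in `ℓ A`. -/
theorem indep_mod (hℓ : ℓ.Prime) (hA : A.LiesOverPrime ℓ)
    (act : Gq → G → G) (hsurj : ∀ σ, Function.Surjective (act σ))
    (a : ι → G → Qb) (ha : ∀ j (σ : Gq) x, a j (act σ x) = σ (a j x)) (haA : ∀ j x, a j x ∈ A)
    (hstar : ∀ u : ι → ℤ,
      (∀ x, A.valuation (∑ j, (u j : Qb) * a j x) ≤ A.valuation (ℓ : Qb)) → ∀ j, (ℓ : ℤ) ∣ u j)
    (c : ι → Qb) (hcA : ∀ j, c j ∈ A)
    (hcI : ∀ j, ∀ τ ∈ A.inertiaSubgroupIn ℚ, τ (c j) = c j)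
    (hc : ∀ x, A.valuation (∑ j, c j * a j x) ≤ A.valuation (ℓ : Qb)) :
    ∀ j, A.valuation (c j) ≤ A.valuation (ℓ : Qb) := by
  obtain ⟨φ, hφ⟩ := Fermat.Agent.Lib.Frobenius.exists_isFrobeniusAt A hℓ hA
  exact indep_mod_of hℓ hA (fun y hy hv => valuation_le_of_mem_inertiaField A hℓ hA hy hv) hφ act
    (hsurj φ) a (fun j x => ha j φ x) haA hstar c hcA
    (fun j => (mem_inertiaField_iff A _).mpr (hcI j)) hc

/-- **THEOREM C.**  With `a j` as in `indep_mod`: if a combination `∑ c j • a j` with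
inertia-fixed coefficients `c j ∈ Qb` is `A`-valued, then all `c j` lie in `A`. -/
theorem coeff_mem (hℓ : ℓ.Prime) (hA : A.LiesOverPrime ℓ)
    (act : Gq → G → G) (hsurj : ∀ σ, Function.Surjective (act σ))
    (a : ι → G → Qb) (ha : ∀ j (σ : Gq) x, a j (act σ x) = σ (a j x)) (haA : ∀ j x, a j x ∈ A)
    (hstar : ∀ u : ι → ℤ,
      (∀ x, A.valuation (∑ j, (u j : Qb) * a j x) ≤ A.valuation (ℓ : Qb)) → ∀ j, (ℓ : ℤ) ∣ u j)
    (c : ι → Qb) (hcI : ∀ j, ∀ τ ∈ A.inertiaSubgroupIn ℚ, τ (c j) = c j)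
    (hc : ∀ x, (∑ j, c j * a j x) ∈ A) :
    ∀ j, c j ∈ A := by
  obtain ⟨φ, hφ⟩ := Fermat.Agent.Lib.Frobenius.exists_isFrobeniusAt A hℓ hA
  exact coeff_mem_of hℓ hA (fun y hy hv => valuation_le_of_mem_inertiaField A hℓ hA hy hv) hφ act
    (hsurj φ) a (fun j x => ha j φ x) haA hstar c
    (fun j => (mem_inertiaField_iff A _).mpr (hcI j)) hc

/-- **THEOREM C, equivariant form.**  If moreover the `a j` are linearly independent over `Qb`,
then the coefficients of an `A`-valued inertia-equivariant map `μ = ∑ c j • a j` are inertia-fixed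
elements of `A`. -/
theorem coeff_mem_of_equivariant (hℓ : ℓ.Prime) (hA : A.LiesOverPrime ℓ)
    (act : Gq → G → G) (hsurj : ∀ σ, Function.Surjective (act σ))
    (a : ι → G → Qb) (ha : ∀ j (σ : Gq) x, a j (act σ x) = σ (a j x)) (haA : ∀ j x, a j x ∈ A)
    (hstar : ∀ u : ι → ℤ,
      (∀ x, A.valuation (∑ j, (u j : Qb) * a j x) ≤ A.valuation (ℓ : Qb)) → ∀ j, (ℓ : ℤ) ∣ u j)
    (hli : LinearIndependent Qb a)
    (μ : G → Qb) (hμA : ∀ x, μ x ∈ A)
    (hμI : ∀ τ ∈ A.inertiaSubgroupIn ℚ, ∀ x, μ (act τ x) = τ (μ x))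
    (c : ι → Qb) (hμ : ∀ x, μ x = ∑ j, c j * a j x) :
    (∀ j, c j ∈ A) ∧ ∀ j, ∀ τ ∈ A.inertiaSubgroupIn ℚ, τ (c j) = c j := by
  have hfix : ∀ j, ∀ τ ∈ A.inertiaSubgroupIn ℚ, τ (c j) = c j := by
    intro j τ hτ
    have h0 : ∑ i, (τ (c i) - c i) • a i = 0 := by
      funext x
      obtain ⟨y, rfl⟩ := hsurj τ x
      have h1 : τ (μ y) = ∑ i, τ (c i) * a i (act τ y) := by
        rw [hμ y, map_sum]
        refine Finset.sum_congr rfl fun i _ => ?_
        rw [map_mul, ha i τ y]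
      have h2 : μ (act τ y) = ∑ i, c i * a i (act τ y) := hμ _
      rw [hμI τ hτ y, h1] at h2
      simp only [Finset.sum_apply, Pi.smul_apply, smul_eq_mul, Pi.zero_apply, sub_mul,
        Finset.sum_sub_distrib]
      rw [h2, sub_self]
    have h3 := Fintype.linearIndependent_iff.mp hli _ h0 j
    exact sub_eq_zero.mp h3
  refine ⟨coeff_mem A hℓ hA act hsurj a ha haA hstar c hfix (fun x => ?_), hfix⟩
  rw [← hμ x]
  exact hμA x

/-- The hypothesis `hstar` of `indep_mod` / `coeff_mem` holds when the `a j` are linearly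
independent over `Qb` and every Galois-equivariant `A`-valued map is a combination of the `a j`
with coefficients in `ℤ_(ℓ)` (i.e. the `a j` form a `ℤ_(ℓ)`-basis of the maximal order). -/
theorem hstar_of_span (hℓ : ℓ.Prime)
    (act : Gq → G → G)
    (a : ι → G → Qb) (ha : ∀ j (σ : Gq) x, a j (act σ x) = σ (a j x))
    (hli : LinearIndependent Qb a)
    (hspan : ∀ b : G → Qb, (∀ (σ : Gq) x, b (act σ x) = σ (b x)) → (∀ x, b x ∈ A) →
      ∃ w : ι → ℚ, (∀ j, (w j).den.Coprime ℓ) ∧ ∀ x, b x = ∑ j, (w j : Qb) * a j x)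
    (u : ι → ℤ)
    (hu : ∀ x, A.valuation (∑ j, (u j : Qb) * a j x) ≤ A.valuation (ℓ : Qb)) :
    ∀ j, (ℓ : ℤ) ∣ u j := by
  have hℓ0 : (ℓ : Qb) ≠ 0 := Nat.cast_ne_zero.mpr hℓ.ne_zero
  have hvℓ : 0 < A.valuation (ℓ : Qb) := by
    rw [zero_lt_iff, Ne, map_eq_zero]
    exact hℓ0
  obtain ⟨w, hw, hb⟩ := hspan (fun x => (∑ j, (u j : Qb) * a j x) / (ℓ : Qb))
    (fun σ x => by
      rw [map_div₀, map_natCast, map_sum]
      congr 1
      refine Finset.sum_congr rfl fun j _ => ?_
      rw [map_mul, map_intCast, ha j σ x])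
    (fun x => by
      rw [← A.valuation_le_one_iff, map_div₀, div_le_one₀ hvℓ]
      exact hu x)
  have h0 : ∑ j, ((u j : Qb) - (ℓ : Qb) * (w j : Qb)) • a j = 0 := by
    funext x
    have h1 := hb x
    rw [div_eq_iff hℓ0] at h1
    simp only [Finset.sum_apply, Pi.smul_apply, smul_eq_mul, Pi.zero_apply, sub_mul,
      Finset.sum_sub_distrib]
    rw [h1, Finset.sum_mul, sub_eq_zero]
    refine Finset.sum_congr rfl fun j _ => ?_
    ring
  intro j
  have h2 := sub_eq_zero.mp (Fintype.linearIndependent_iff.mp hli _ h0 j)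
  have h3 : ((u j : ℤ) : ℚ) = (ℓ : ℚ) * w j := by
    have h4 : (((u j : ℤ) : ℚ) : Qb) = (((ℓ : ℚ) * w j : ℚ) : Qb) := by
      push_cast
      exact h2
    exact_mod_cast (algebraMap ℚ Qb).injective h4
  -- `u j * den = ℓ * num`, with `den` prime to `ℓ`
  have h5 : (u j : ℚ) * ((w j).den : ℚ) = (ℓ : ℚ) * ((w j).num : ℚ) := by
    rw [h3, mul_assoc, Rat.mul_den_eq_num]
  have h6 : u j * ((w j).den : ℤ) = (ℓ : ℤ) * (w j).num := by
    exact_mod_cast h5
  have h7 : (ℓ : ℤ) ∣ u j * ((w j).den : ℤ) := ⟨_, h6⟩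
  have hcop : IsCoprime (ℓ : ℤ) ((w j).den : ℤ) := by
    rw [Int.isCoprime_iff_gcd_eq_one, Int.gcd_natCast_natCast]
    exact (Nat.coprime_comm.mp (hw j))
  exact hcop.dvd_of_dvd_mul_right h7

end Final

end Fermat.Agent.S19.Red.ClaimC
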