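/-
S19 (Program FG), layer (RED), STEP 0 = (Y-CLOS) (helper113): closing the coordinate family
under the decomposition group.

Setting of `Red.RedStatement` (`Red/Contract.lean`): `G` a finite abelian group with an additive
action `act` of `Gal = Gal(ℚ̄/ℚ)`, `A` a valuation subring of `ℚ̄` over `ℓ`, `τ : ι → G → ℚ̄` a finite
family of `A`-valued functions, equivariant for the inertia group of `A`, separating the points of
`G`, with `τ j (x + y)` in the `A`-span of the products `a x * b y`, `a, b ∈ A[τ]`.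

* `famT act A τ`  : the family `{twist act δ (τ j) : δ ∈ D, j}` (`D` the decomposition group of `A`);
* `ringR act A τ` : the `A`-subalgebra `A[famT]` of `G → ℚ̄`.

Exits:
* `famT_finite`        (K1) the family is finite (its members take values among the conjugates of
                            the finitely many `τ j x`; no continuity hypothesis);
* `range_subset_famT`  (K2) `τ j ∈ famT`, hence `famT_sep`;
* `famT_inertia`       (K3) the members of `famT` are inertia-equivariant (`I` is normal in `D`);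
* `mem_of_mem_ringR`   (K4) the elements of `ringR` are `A`-valued;
* `twist_mem_ringR`    (K5) `ringR` is stable under the twists by `D`;
* `exists_conductor`   (K6) `ℓ ^ c • (G → A) ⊆ ringR` for some `c` (Lagrange interpolation);
* `comul_mem_ringR`    (K7) `f (x + y)` is in the `A`-span of the products `a x * b y`, `a, b ∈ ringR`,
                            for every `f ∈ ringR`;
* `span_prod_eq`       (K8) that span is (the underlying module of) a subalgebra of `G × G → ℚ̄`.

Final exit, in the namespace `Fermat.Agent.S19.Red`: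
* `closure : ClosureStatement`  (the literal of `Red/Bricks.lean`, with `T := famT act A τ`).
-/
import Mathlib
import Fermat.Agent.S19.Red.Bricks
import Fermat.Agent.Lib.ValAut

set_option autoImplicit false

noncomputable section

namespace Fermat.Agent.S19.Red.Closure

open Fermat.Agent.S19.HopfOrder Fermat.Agent.S19.Red Fermat.Agent.Lib

/-! ### The twist -/

section Twist

variable {G : Type} (act : Gal → G → G)

theorem twist_apply (σ : Gal) (f : G → Qb) (x : G) : twist act σ f x = σ (f (act σ⁻¹ x)) := rfl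

theorem twist_one (hone : ∀ x, act 1 x = x) (f : G → Qb) : twist act 1 f = f := by
  funext x
  rw [twist_apply, inv_one, hone]
  rfl

theorem twist_mul (hmul : ∀ σ τ x, act (σ * τ) x = act σ (act τ x)) (σ τ : Gal) (f : G → Qb) :
    twist act (σ * τ) f = twist act σ (twist act τ f) := by
  funext x
  rw [twist_apply, twist_apply, twist_apply, mul_inv_rev, hmul]
  rfl

theorem twist_add (σ : Gal) (f g : G → Qb) :
    twist act σ (f + g) = twist act σ f + twist act σ g := by
  funext x
  simp only [twist_apply, Pi.add_apply, map_add]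

theorem twist_mul_fun (σ : Gal) (f g : G → Qb) :
    twist act σ (f * g) = twist act σ f * twist act σ g := by
  funext x
  simp only [twist_apply, Pi.mul_apply, map_mul]

end Twist

/-! ### Elementary facts on a valuation subring of `ℚ̄` -/

section Val

variable (A : ValuationSubring Qb)

theorem mem_of_isIntegral_int {x : Qb} (hx : IsIntegral ℤ x) : x ∈ A := by
  have h1 : IsIntegral A x := hx.tower_top
  obtain ⟨y, hy⟩ := IsIntegrallyClosed.algebraMap_eq_of_integral h1
  rw [← hy]
  exact y.2

/-- A natural number prime to `ℓ` is a unit of `A`. -/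
theorem valuation_natCast_eq_one {ℓ : ℕ} (hℓ : ℓ.Prime) (hA : A.LiesOverPrime ℓ) {u : ℕ}
    (hu : ¬ ℓ ∣ u) : A.valuation (u : Qb) = 1 := by
  have hcop : IsCoprime (u : ℤ) (ℓ : ℤ) :=
    Nat.isCoprime_iff_coprime.mpr ((Nat.Prime.coprime_iff_not_dvd hℓ).mpr hu).symm
  obtain ⟨a, b, hab⟩ := hcop
  have hab' : (a : Qb) * (u : Qb) + (b : Qb) * (ℓ : Qb) = 1 := by exact_mod_cast congrArg (Int.cast : ℤ → Qb) hab
  have hule : A.valuation (u : Qb) ≤ 1 := (A.valuation_le_one_iff _).mpr (natCast_mem A u)
  have hale : A.valuation (a : Qb) ≤ 1 := (A.valuation_le_one_iff _).mpr (intCast_mem A a)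
  have hble : A.valuation (b : Qb) ≤ 1 := (A.valuation_le_one_iff _).mpr (intCast_mem A b)
  have hl : A.valuation (ℓ : Qb) < 1 := A.mem_nonunits_iff.mp hA
  by_contra hne
  have hlt : A.valuation (u : Qb) < 1 := lt_of_le_of_ne hule hne
  have h1 : A.valuation ((a : Qb) * (u : Qb)) < 1 := by
    rw [map_mul]
    exact lt_of_le_of_lt (mul_le_of_le_one_left' hale) hlt
  have h2 : A.valuation ((b : Qb) * (ℓ : Qb)) < 1 := by
    rw [map_mul]
    exact lt_of_le_of_lt (mul_le_of_le_one_left' hble) hl
  have h3 := A.valuation.map_add_lt h1 h2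
  rw [hab', map_one] at h3
  exact lt_irrefl _ h3

/-- Every nonzero algebraic number divides a power of `ℓ` in `A`. -/
theorem exists_pow_mul_inv_mem {ℓ : ℕ} (hℓ : ℓ.Prime) (hA : A.LiesOverPrime ℓ) (c : Qb) :
    ∃ n : ℕ, (ℓ : Qb) ^ n * c⁻¹ ∈ A := by
  have halg : IsAlgebraic ℤ c⁻¹ :=
    (IsFractionRing.isAlgebraic_iff ℤ ℚ Qb).mpr
      ((AlgebraicClosure.isAlgebraic ℚ).isAlgebraic c⁻¹)
  obtain ⟨d, hd0, hd⟩ := halg.exists_integral_multiple
  have hdx : (d : Qb) * c⁻¹ ∈ A := by
    have := mem_of_isIntegral_int A hd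
    rwa [zsmul_eq_mul] at this
  have hd0' : d.natAbs ≠ 0 := Int.natAbs_ne_zero.mpr hd0
  obtain ⟨e, u, hu, hdu⟩ := Nat.exists_eq_pow_mul_and_not_dvd hd0' ℓ hℓ.ne_one
  refine ⟨e, ?_⟩
  have hvu : A.valuation (u : Qb) = 1 := valuation_natCast_eq_one A hℓ hA hu
  have hvd : A.valuation ((d : Qb) * c⁻¹) ≤ 1 := (A.valuation_le_one_iff _).mpr hdx
  have habs : A.valuation (d : Qb) = A.valuation ((ℓ : Qb) ^ e) := by
    have h1 : A.valuation (d : Qb) = A.valuation ((d.natAbs : ℕ) : Qb) := by
      rcases Int.natAbs_eq d with h | h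
      · conv_lhs => rw [h]
        simp
      · conv_lhs => rw [h]
        simp
    rw [h1, hdu]
    push_cast
    rw [map_mul, hvu, mul_one]
  rw [← A.valuation_le_one_iff, map_mul, ← habs, ← map_mul]
  exact hvd

/-- The inertia group is normal in the decomposition group. -/
theorem conj_mem_inertia {δ s : Gal} (hδ : δ ∈ A.decompositionSubgroup ℚ)
    (hs : s ∈ A.inertiaSubgroupIn ℚ) : δ⁻¹ * s * δ ∈ A.inertiaSubgroupIn ℚ := by
  obtain ⟨s₀, hs₀, rfl⟩ := hs
  have hn : (A.inertiaSubgroup ℚ).Normal := by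
    unfold ValuationSubring.inertiaSubgroup
    infer_instance
  have h1 := hn.conj_mem s₀ hs₀ (⟨δ, hδ⟩ : A.decompositionSubgroup ℚ)⁻¹
  exact ⟨(⟨δ, hδ⟩ : A.decompositionSubgroup ℚ)⁻¹ * s₀ * (⟨δ, hδ⟩ : A.decompositionSubgroup ℚ)⁻¹⁻¹,
    h1, by simp⟩

end Val

/-! ### The closed family and its ring -/

section Family

variable {G : Type} (act : Gal → G → G) (A : ValuationSubring Qb) {ι : Type} (τ : ι → G → Qb)

/-- The coordinate family closed under the decomposition group of `A`. -/
def famT : Set (G → Qb) :=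
  {t | ∃ δ ∈ A.decompositionSubgroup ℚ, ∃ j, t = twist act δ (τ j)}

/-- The `A`-algebra generated by the closed family. -/
def ringR : Subalgebra A (G → Qb) := Algebra.adjoin A (famT act A τ)

theorem subset_ringR : famT act A τ ⊆ (ringR act A τ : Set (G → Qb)) := Algebra.subset_adjoin

/-- (K1) The closed family is finite. -/
theorem famT_finite [Finite G] [Finite ι] : (famT act A τ).Finite := by
  classical
  let V : Set Qb := ⋃ j, ⋃ x, (minpoly ℚ (τ j x)).rootSet Qb
  have hV : V.Finite :=
    Set.finite_iUnion fun j => Set.finite_iUnion fun x => Polynomial.rootSet_finite _ _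
  have hsub : famT act A τ ⊆ Set.pi Set.univ (fun _ : G => V) := by
    rintro t ⟨δ, -, j, rfl⟩ x -
    refine Set.mem_iUnion.mpr ⟨j, Set.mem_iUnion.mpr ⟨act δ⁻¹ x, ?_⟩⟩
    have hint : IsIntegral ℚ (τ j (act δ⁻¹ x)) :=
      ((AlgebraicClosure.isAlgebraic ℚ).isAlgebraic _).isIntegral
    rw [Polynomial.mem_rootSet]
    refine ⟨minpoly.ne_zero hint, ?_⟩
    have h := Polynomial.aeval_algHom_apply (δ : Qb →ₐ[ℚ] Qb) (τ j (act δ⁻¹ x))
      (minpoly ℚ (τ j (act δ⁻¹ x)))
    rw [minpoly.aeval, map_zero] at h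
    exact h
  exact (Set.Finite.pi fun _ => hV).subset hsub

/-- (K2) The original coordinates belong to the closed family. -/
theorem range_subset_famT (hone : ∀ x, act 1 x = x) : Set.range τ ⊆ famT act A τ := by
  rintro _ ⟨j, rfl⟩
  exact ⟨1, one_mem _, j, (twist_one act hone (τ j)).symm⟩

/-- The closed family separates the points as soon as the original one does. -/
theorem famT_sep (hone : ∀ x, act 1 x = x) (hsep : ∀ x y, x ≠ y → ∃ j, τ j x ≠ τ j y)
    (x y : G) (hxy : x ≠ y) : ∃ t ∈ famT act A τ, t x ≠ t y := by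
  obtain ⟨j, hj⟩ := hsep x y hxy
  exact ⟨τ j, range_subset_famT act A τ hone ⟨j, rfl⟩, hj⟩

/-- (K3) The members of the closed family are equivariant for the inertia group. -/
theorem famT_inertia (hmul : ∀ σ τ x, act (σ * τ) x = act σ (act τ x))
    (hτI : ∀ σ ∈ A.inertiaSubgroupIn ℚ, ∀ j x, τ j (act σ x) = σ (τ j x)) :
    ∀ t ∈ famT act A τ, ∀ s ∈ A.inertiaSubgroupIn ℚ, ∀ x, t (act s x) = s (t x) := by
  rintro t ⟨δ, hδ, j, rfl⟩ s hs x
  have hs' := conj_mem_inertia A hδ hs
  have h1 : act δ⁻¹ (act s x) = act (δ⁻¹ * s * δ) (act δ⁻¹ x) := by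
    rw [← hmul, ← hmul]
    congr 1
    group
  rw [twist_apply, twist_apply, h1, hτI _ hs']
  have h2 : δ * (δ⁻¹ * s * δ) = s * δ := by group
  have h3 := congrArg (fun g : Gal => g (τ j (act δ⁻¹ x))) h2
  exact h3

/-- (K4) The elements of `ringR` are `A`-valued. -/
theorem mem_of_mem_ringR (hτA : ∀ j x, τ j x ∈ A) :
    ∀ f ∈ ringR act A τ, ∀ x, f x ∈ A := by
  intro f hf
  induction hf using Algebra.adjoin_induction with
  | mem t ht =>
    obtain ⟨δ, hδ, j, rfl⟩ := ht
    intro x
    exact ValAut.mem_of_mem_decomposition ℚ A δ hδ _ (hτA j _)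
  | algebraMap r =>
    intro x
    exact r.2
  | add f g _ _ hf hg =>
    intro x
    exact A.add_mem _ _ (hf x) (hg x)
  | mul f g _ _ hf hg =>
    intro x
    exact A.mul_mem _ _ (hf x) (hg x)

/-- (K5) `ringR` is stable under the twists by the decomposition group. -/
theorem twist_mem_ringR (hmul : ∀ σ τ x, act (σ * τ) x = act σ (act τ x)) {σ : Gal}
    (hσ : σ ∈ A.decompositionSubgroup ℚ) :
    ∀ f ∈ ringR act A τ, twist act σ f ∈ ringR act A τ := by
  intro f hf
  induction hf using Algebra.adjoin_induction with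
  | mem t ht =>
    obtain ⟨δ, hδ, j, rfl⟩ := ht
    rw [← twist_mul act hmul]
    exact Algebra.subset_adjoin ⟨σ * δ, mul_mem hσ hδ, j, rfl⟩
  | algebraMap r =>
    have h : twist act σ (algebraMap A (G → Qb) r) =
        algebraMap A (G → Qb) ⟨σ (r : Qb), ValAut.mem_of_mem_decomposition ℚ A σ hσ _ r.2⟩ := by
      funext x
      rfl
    rw [h]
    exact Subalgebra.algebraMap_mem _ _
  | add f g _ _ hf hg =>
    rw [twist_add]
    exact add_mem hf hg
  | mul f g _ _ hf hg =>
    rw [twist_mul_fun]
    exact mul_mem hf hg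

/-- Constant functions with value in `A` belong to `ringR`. -/
theorem const_mem_ringR {c : Qb} (hc : c ∈ A) : (fun _ : G => c) ∈ ringR act A τ := by
  have h : (fun _ : G => c) = algebraMap A (G → Qb) ⟨c, hc⟩ := by
    funext x
    rfl
  rw [h]
  exact Subalgebra.algebraMap_mem _ _

/-- (K6) The conductor: `ℓ ^ c • (G → A) ⊆ ringR`. -/
theorem exists_conductor [Finite G] {ℓ : ℕ} (hℓ : ℓ.Prime) (hA : A.LiesOverPrime ℓ)
    (hone : ∀ x, act 1 x = x) (hτA : ∀ j x, τ j x ∈ A)
    (hsep : ∀ x y, x ≠ y → ∃ j, τ j x ≠ τ j y) :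
    ∃ c : ℕ, ∀ φ : G → Qb, (∀ x, φ x ∈ A) →
      (fun x => (ℓ : Qb) ^ c * φ x) ∈ ringR act A τ := by
  classical
  cases nonempty_fintype G
  -- the Lagrange factors
  let g : G → G → (G → Qb) := fun x y =>
    if h : x ≠ y then τ (Classical.choose (hsep x y h)) -
      (fun _ => τ (Classical.choose (hsep x y h)) y) else 1
  have hgR : ∀ x y, g x y ∈ ringR act A τ := by
    intro x y
    by_cases h : x ≠ y
    · simp only [g, dif_pos h]
      exact sub_mem (subset_ringR act A τ (range_subset_famT act A τ hone ⟨_, rfl⟩))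
        (const_mem_ringR act A τ (hτA _ _))
    · simp only [g, dif_neg h]
      exact one_mem _
  have hg_self : ∀ x y, x ≠ y → g x y y = 0 := by
    intro x y h
    simp only [g, dif_pos h, Pi.sub_apply, sub_self]
  have hg_ne : ∀ x y, x ≠ y → g x y x ≠ 0 := by
    intro x y h
    simp only [g, dif_pos h, Pi.sub_apply]
    exact sub_ne_zero.mpr (Classical.choose_spec (hsep x y h))
  let e : G → (G → Qb) := fun x => ∏ y ∈ Finset.univ.erase x, g x y
  have heR : ∀ x, e x ∈ ringR act A τ := fun x => prod_mem fun y _ => hgR x y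
  have he_off : ∀ x z, z ≠ x → e x z = 0 := by
    intro x z hz
    simp only [e, Finset.prod_apply]
    exact Finset.prod_eq_zero (Finset.mem_erase.mpr ⟨hz, Finset.mem_univ z⟩)
      (hg_self x z (Ne.symm hz))
  have he_diag : ∀ x, e x x ≠ 0 := by
    intro x
    simp only [e, Finset.prod_apply]
    exact Finset.prod_ne_zero_iff.mpr fun y hy => hg_ne x y (Ne.symm (Finset.mem_erase.mp hy).1)
  have he_mem : ∀ x, e x x ∈ A := fun x => mem_of_mem_ringR act A τ hτA _ (heR x) x
  -- exponents
  choose n hn using fun x : G => exists_pow_mul_inv_mem A hℓ hA (e x x)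
  obtain ⟨c, hc⟩ : ∃ c : ℕ, ∀ x, n x ≤ c :=
    ⟨∑ x, n x, fun x =>
      Finset.single_le_sum (f := n) (fun _ _ => Nat.zero_le _) (Finset.mem_univ x)⟩
  refine ⟨c, fun φ hφ => ?_⟩
  have hcoef : ∀ x, (ℓ : Qb) ^ c * (e x x)⁻¹ * φ x ∈ A := by
    intro x
    obtain ⟨k, hk⟩ := Nat.exists_eq_add_of_le (hc x)
    have h1 : (ℓ : Qb) ^ c * (e x x)⁻¹ * φ x =
        (ℓ : Qb) ^ k * ((ℓ : Qb) ^ n x * (e x x)⁻¹) * φ x := by
      rw [hk, pow_add]
      ring
    rw [h1]
    exact A.mul_mem _ _ (A.mul_mem _ _ (pow_mem (natCast_mem A ℓ) _) (hn x)) (hφ x)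
  have hsum : (fun x => (ℓ : Qb) ^ c * φ x) =
      ∑ x, (⟨_, hcoef x⟩ : A) • e x := by
    funext z
    rw [Finset.sum_apply, Finset.sum_eq_single z]
    · rw [Pi.smul_apply, Algebra.smul_def]
      change _ = (ℓ : Qb) ^ c * (e z z)⁻¹ * φ z * e z z
      field_simp [he_diag z]
    · intro x _ hx
      rw [Pi.smul_apply, he_off x z (Ne.symm hx), smul_zero]
    · intro h
      exact absurd (Finset.mem_univ z) h
  rw [hsum]
  exact sum_mem fun x _ => Subalgebra.smul_mem _ (heR x) _

end Family

/-! ### The comultiplication -/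

section Comul

variable {G : Type} (act : Gal → G → G) (A : ValuationSubring Qb) {ι : Type}
  (τ : ι → G → Qb)

/-- The products `a x * b y` with `a, b ∈ ringR`. -/
def prodSet : Set (G × G → Qb) :=
  {F | ∃ a ∈ ringR act A τ, ∃ b ∈ ringR act A τ, F = fun p => a p.1 * b p.2}

/-- The products form a submonoid. -/
def prodMonoid : Submonoid (G × G → Qb) where
  carrier := prodSet act A τ
  one_mem' := ⟨1, one_mem _, 1, one_mem _, by funext p; simp⟩
  mul_mem' := by
    rintro _ _ ⟨a, ha, b, hb, rfl⟩ ⟨a', ha', b', hb', rfl⟩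
    refine ⟨a * a', mul_mem ha ha', b * b', mul_mem hb hb', ?_⟩
    funext p
    simp only [Pi.mul_apply]
    ring

/-- (K8) The `A`-span of the products is a subalgebra. -/
theorem span_prod_eq :
    Submodule.span A (prodSet act A τ) =
      Subalgebra.toSubmodule (Algebra.adjoin A (prodSet act A τ)) := by
  rw [Algebra.adjoin_eq_span]
  have h : Submonoid.closure (prodSet act A τ) = prodMonoid act A τ :=
    Submonoid.closure_eq (prodMonoid act A τ)
  rw [h]
  rfl

/-- The second twist, on functions of two variables. -/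
def twist₂ (σ : Gal) (F : G × G → Qb) : G × G → Qb :=
  fun p => σ (F (act σ⁻¹ p.1, act σ⁻¹ p.2))

theorem twist₂_mem (hmul : ∀ σ τ x, act (σ * τ) x = act σ (act τ x)) {δ : Gal}
    (hδ : δ ∈ A.decompositionSubgroup ℚ) (hone : ∀ x, act 1 x = x) :
    ∀ F ∈ Submodule.span A
      {F : G × G → Qb | ∃ a ∈ Algebra.adjoin A (Set.range τ),
        ∃ b ∈ Algebra.adjoin A (Set.range τ), F = fun p => a p.1 * b p.2},
      twist₂ act δ F ∈ Submodule.span A (prodSet act A τ) := by
  have hle : Algebra.adjoin A (Set.range τ) ≤ ringR act A τ :=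
    Algebra.adjoin_mono (range_subset_famT act A τ hone)
  intro F hF
  induction hF using Submodule.span_induction with
  | mem F hF =>
    obtain ⟨a, ha, b, hb, rfl⟩ := hF
    refine Submodule.subset_span ⟨twist act δ a, twist_mem_ringR act A τ hmul hδ a (hle ha),
      twist act δ b, twist_mem_ringR act A τ hmul hδ b (hle hb), ?_⟩
    funext p
    simp only [twist₂, twist_apply, map_mul]
  | zero =>
    have h : twist₂ act δ (0 : G × G → Qb) = 0 := by
      funext p
      simp only [twist₂, Pi.zero_apply, map_zero]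
    rw [h]
    exact zero_mem _
  | add F F' _ _ hF hF' =>
    have h : twist₂ act δ (F + F') = twist₂ act δ F + twist₂ act δ F' := by
      funext p
      simp only [twist₂, Pi.add_apply, map_add]
    rw [h]
    exact add_mem hF hF'
  | smul r F _ hF =>
    have h : twist₂ act δ (r • F) =
        (⟨δ (r : Qb), ValAut.mem_of_mem_decomposition ℚ A δ hδ _ r.2⟩ : A) • twist₂ act δ F := by
      funext p
      simp only [twist₂, Pi.smul_apply, Algebra.smul_def, map_mul]
      rfl
    rw [h]
    exact Submodule.smul_mem _ _ hF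

/-- (K7) `ringR` is closed under the comultiplication. -/
theorem comul_mem_ringR [AddCommGroup G] (hone : ∀ x, act 1 x = x)
    (hmul : ∀ σ τ x, act (σ * τ) x = act σ (act τ x))
    (hadd : ∀ σ x y, act σ (x + y) = act σ x + act σ y)
    (hΔ : ∀ j, (fun p : G × G => τ j (p.1 + p.2)) ∈ Submodule.span A
      {F : G × G → Qb | ∃ a ∈ Algebra.adjoin A (Set.range τ),
        ∃ b ∈ Algebra.adjoin A (Set.range τ), F = fun p => a p.1 * b p.2}) :
    ∀ f ∈ ringR act A τ, (fun p : G × G => f (p.1 + p.2)) ∈
      Submodule.span A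
        {F : G × G → Qb | ∃ a ∈ ringR act A τ, ∃ b ∈ ringR act A τ, F = fun p => a p.1 * b p.2} := by
  intro f hf
  change (fun p : G × G => f (p.1 + p.2)) ∈ Submodule.span A (prodSet act A τ)
  rw [span_prod_eq, Subalgebra.mem_toSubmodule]
  induction hf using Algebra.adjoin_induction with
  | mem t ht =>
    obtain ⟨δ, hδ, j, rfl⟩ := ht
    have h : (fun p : G × G => twist act δ (τ j) (p.1 + p.2)) =
        twist₂ act δ (fun p : G × G => τ j (p.1 + p.2)) := by
      funext p
      simp only [twist₂, twist_apply, hadd]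
    rw [h, ← Subalgebra.mem_toSubmodule, ← span_prod_eq]
    exact twist₂_mem act A τ hmul hδ hone _ (hΔ j)
  | algebraMap r =>
    exact Subalgebra.algebraMap_mem _ r
  | add f g _ _ hf hg =>
    exact add_mem hf hg
  | mul f g _ _ hf hg =>
    exact mul_mem hf hg

end Comul

end Fermat.Agent.S19.Red.Closure

namespace Fermat.Agent.S19.Red

open Fermat.Agent.S19.HopfOrder

/-- **(CLOS), STEP 0 of (RED)**: the literal `ClosureStatement` of `Red/Bricks.lean`, with
`T := Closure.famT act A τ`. -/
theorem closure : ClosureStatement := by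
  intro ℓ _ G _ _ act hone hmul hadd L _ _ A hA ι _ τ hτA hτI hsep hΔ
  exact ⟨Closure.famT act A τ, Closure.famT_finite act A τ,
    Closure.range_subset_famT act A τ hone,
    Closure.famT_inertia act A τ hmul hτI,
    Closure.mem_of_mem_ringR act A τ hτA,
    fun δ hδ r hr => Closure.twist_mem_ringR act A τ hmul hδ r hr,
    Closure.exists_conductor act A τ Fact.out hA hone hτA hsep,
    Closure.comul_mem_ringR act A τ hone hmul hadd hΔ⟩

end Fermat.Agent.S19.Red
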