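/-
S19 (Program FG), layer (RED) (helper116): `UnramGenStatement → DescStatement`.

(DESC): an inertia-equivariant element `f` of a decomposition-stable `A`-module `N` of functions
`G → ℚ̄` (with a conductor) is an `A`-combination of `Gal`-equivariant elements of `N`.

Proof: ONE exact formula.  Let `θ` be the unramified generator of (U+), `C` its `Gal`-orbit,
`s c θ = c`, `T c := twist (s c) f` (independent of the choice of `s c`).  With the Lagrange
polynomial `X * Q`, `Q := θ⁻¹ ∏_{c ≠ θ} (X - c) / (θ - c)` (coefficients `q i ∈ A`) and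
`ν i := ∑_{c ∈ C} c ^ (i + 1) • T c`:  `f = ∑ i, q i • ν i`, every `ν i` is `Gal`-equivariant and
lies in `N` (a term with `s c` in the decomposition group modulo the level is a twist of `f` by
the decomposition group; every other term is divisible by the conductor because `i + 1 ≥ 1`).
-/
import Mathlib
import Fermat.Agent.S19.Red.Contract
import Fermat.Agent.Lib.DecompLift
import Fermat.Agent.Lib.ValFrac

set_option autoImplicit false

noncomputable section

namespace Fermat.Agent.S19.Red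

open Fermat.Agent.S19.HopfOrder Polynomial

variable {G : Type}

local instance isAlgebraic_Qb_red : Algebra.IsAlgebraic ℚ Qb := AlgebraicClosure.isAlgebraic ℚ

local instance isAlgClosure_Qb_red : IsAlgClosure ℚ Qb := ⟨inferInstance, inferInstance⟩

local instance normal_Qb_red : Normal ℚ Qb := IsAlgClosure.normal ℚ Qb

theorem twist_apply (act : Gal → G → G) (σ : Gal) (f : G → Qb) (x : G) :
    twist act σ f x = σ (f (act σ⁻¹ x)) := rfl

theorem twist_one (act : Gal → G → G) (h1 : ∀ x, act 1 x = x) (f : G → Qb) :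
    twist act 1 f = f := by
  funext x
  rw [twist_apply, inv_one, h1]
  rfl

theorem twist_mul (act : Gal → G → G) (hmul : ∀ σ τ x, act (σ * τ) x = act σ (act τ x))
    (σ τ : Gal) (f : G → Qb) : twist act (σ * τ) f = twist act σ (twist act τ f) := by
  funext x
  rw [twist_apply, twist_apply, twist_apply, mul_inv_rev, hmul]
  rfl

/-- Two automorphisms that agree on a level `M` containing the values of `f` give the same
twist of `f`. -/
theorem twist_eq_of_agree (act : Gal → G → G) (h1 : ∀ x, act 1 x = x)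
    (hmul : ∀ σ τ x, act (σ * τ) x = act σ (act τ x)) (M : IntermediateField ℚ Qb)
    (hM : ∀ σ ∈ M.fixingSubgroup, ∀ x, act σ x = x) (f : G → Qb) (hfM : ∀ x, f x ∈ M)
    {σ δ : Gal} (h : ∀ x ∈ M, σ x = δ x) : twist act σ f = twist act δ f := by
  funext x
  have hfix : σ⁻¹ * δ ∈ M.fixingSubgroup := by
    rw [IntermediateField.mem_fixingSubgroup_iff]
    intro m hm
    rw [AlgEquiv.mul_apply, ← h m hm]
    exact σ.symm_apply_apply m
  have hact : act σ⁻¹ x = act δ⁻¹ x := by
    have h2 := hM _ hfix (act δ⁻¹ x)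
    rw [hmul, ← hmul δ δ⁻¹, mul_inv_cancel, h1] at h2
    exact h2
  rw [twist_apply, twist_apply, hact]
  exact h _ (hfM _)

/-- An equivariant function is fixed by the twist. -/
theorem twist_eq_self (act : Gal → G → G) (h1 : ∀ x, act 1 x = x)
    (hmul : ∀ σ τ x, act (σ * τ) x = act σ (act τ x)) (f : G → Qb) {ι : Gal}
    (hι : ∀ x, f (act ι x) = ι (f x)) : twist act ι f = f := by
  funext x
  rw [twist_apply, ← hι, ← hmul, mul_inv_cancel, h1]

/-- Bounded denominators, uniformly in the conjugates. -/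
theorem exists_pow_mul_conj_mem (A : ValuationSubring Qb) {ℓ : ℕ} (hℓ : ℓ.Prime)
    (hA : A.LiesOverPrime ℓ) (x : Qb) : ∃ t : ℕ, ∀ σ : Gal, (ℓ : Qb) ^ t * σ x ∈ A := by
  obtain ⟨d, hd0, hd⟩ := (Fermat.Agent.Lib.DecompLift.isAlgebraic_int x).exists_integral_multiple
  have hfin : FiniteMultiplicity (ℓ : ℤ) d := by
    rw [Int.finiteMultiplicity_iff]
    refine ⟨?_, hd0⟩
    rw [Int.natAbs_natCast]
    exact hℓ.ne_one
  obtain ⟨d', hd', hdd⟩ := hfin.exists_eq_pow_mul_and_not_dvd
  refine ⟨multiplicity (ℓ : ℤ) d, fun σ => ?_⟩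
  have h1 : A.valuation ((d' : ℤ) : Qb) = 1 :=
    Fermat.Agent.Lib.ValFrac.valuation_intCast_eq_one A ℓ hℓ hA d' hdd
  have hint : IsIntegral ℤ (d • σ x) := by
    have h3 := map_isIntegral_int σ hd
    rwa [map_zsmul] at h3
  have h2 : A.valuation (d • σ x) ≤ 1 :=
    (A.valuation_le_one_iff _).mpr (Fermat.Agent.Lib.DecompLift.mem_of_isIntegral A hint)
  rw [← A.valuation_le_one_iff]
  rw [zsmul_eq_mul, hd'] at h2
  push_cast at h2
  rw [map_mul, map_mul, h1, mul_one] at h2
  rw [map_mul]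
  exact h2

/-- The orbit of an algebraic number under `Gal` is finite. -/
theorem finite_orbit (θ : Qb) : (Set.range fun σ : Gal => σ θ).Finite := by
  have hint : IsIntegral ℚ θ := Algebra.IsIntegral.isIntegral θ
  refine ((minpoly ℚ θ).rootSet_finite Qb).subset ?_
  rintro _ ⟨σ, rfl⟩
  rw [Polynomial.mem_rootSet]
  refine ⟨minpoly.ne_zero hint, ?_⟩
  show Polynomial.aeval (σ θ) (minpoly ℚ θ) = 0
  rw [Polynomial.aeval_algHom_apply σ θ (minpoly ℚ θ), minpoly.aeval, map_zero]

/-- **(DESC) from (U+).** -/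
theorem desc_of_unramGen (hU : UnramGenStatement) : DescStatement := by
  classical
  intro ℓ hℓF A hA G _ act h1 hmul L _ hL N hND hNc f hfN hfI
  have hℓ : ℓ.Prime := hℓF.out
  obtain ⟨c0, hc0⟩ := hNc
  cases nonempty_fintype G
  have hℓA : (ℓ : Qb) ∈ A := natCast_mem A ℓ
  -- the level `M₂`
  let M₀ : IntermediateField ℚ Qb := L ⊔ IntermediateField.adjoin ℚ (Set.range f)
  have hadjfin : FiniteDimensional ℚ (IntermediateField.adjoin ℚ (Set.range f)) :=
    IntermediateField.finiteDimensional_adjoin fun x _ => Algebra.IsIntegral.isIntegral x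
  have hM₀fin : FiniteDimensional ℚ M₀ := IntermediateField.finiteDimensional_sup _ _
  let M₂ : IntermediateField ℚ Qb := IntermediateField.normalClosure ℚ M₀ Qb
  have hM₂n : Normal ℚ M₂ := normalClosure.normal ℚ M₀ Qb
  have hM₂f : FiniteDimensional ℚ M₂ := normalClosure.is_finiteDimensional ℚ M₀ Qb
  have hM₀M₂ : M₀ ≤ M₂ := IntermediateField.le_normalClosure M₀
  have hLM₂ : L ≤ M₂ := le_sup_left.trans hM₀M₂
  have hfM₂ : ∀ x, f x ∈ M₂ := fun x =>
    hM₀M₂ ((le_sup_right : IntermediateField.adjoin ℚ (Set.range f) ≤ M₀)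
      (IntermediateField.subset_adjoin ℚ _ ⟨x, rfl⟩))
  -- bounded denominators, uniformly in the conjugates
  obtain ⟨k, hk⟩ : ∃ k : ℕ, ∀ (σ : Gal) (y : G), (ℓ : Qb) ^ k * σ (f y) ∈ A := by
    choose t ht using fun y : G => exists_pow_mul_conj_mem A hℓ hA (f y)
    refine ⟨Finset.univ.sup t, fun σ y => ?_⟩
    have hle : t y ≤ Finset.univ.sup t := Finset.le_sup (Finset.mem_univ y)
    obtain ⟨e, he⟩ := Nat.exists_eq_add_of_le hle
    rw [he, pow_add, mul_right_comm]
    exact A.mul_mem _ _ (ht y σ) (pow_mem hℓA e)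
  -- the unramified generator
  obtain ⟨M, θ, hM₂M, hMf, hMn, hθM, hθint, hθunit, hθI, hθlift, hθsmall⟩ :=
    hU A ℓ hℓ hA M₂ (c0 + k)
  have hMlevel : ∀ σ ∈ M.fixingSubgroup, ∀ x, act σ x = x := by
    intro σ hσ x
    refine hL σ ?_ x
    rw [IntermediateField.mem_fixingSubgroup_iff] at hσ ⊢
    exact fun y hy => hσ y (hM₂M (hLM₂ hy))
  have hfM : ∀ x, f x ∈ M := fun x => hM₂M (hfM₂ x)
  have hθA : θ ∈ A := Fermat.Agent.Lib.DecompLift.mem_of_isIntegral A hθint
  have hθv : A.valuation θ = 1 :=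
    le_antisymm ((A.valuation_le_one_iff θ).mpr hθA)
      (not_lt.mp fun h => hθunit (A.mem_nonunits_iff.mpr h))
  have hθ0 : θ ≠ 0 := by
    intro h
    rw [h, map_zero] at hθv
    exact zero_ne_one hθv
  -- the orbit of `θ`
  let Orb : Finset Qb := (finite_orbit θ).toFinset
  have hCmem : ∀ c, c ∈ Orb ↔ ∃ σ : Gal, σ θ = c := by
    intro c
    rw [Set.Finite.mem_toFinset, Set.mem_range]
  have hθC : θ ∈ Orb := (hCmem θ).mpr ⟨1, rfl⟩
  have hCA : ∀ c ∈ Orb, c ∈ A := by
    intro c hc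
    obtain ⟨σ, rfl⟩ := (hCmem c).mp hc
    exact Fermat.Agent.Lib.DecompLift.mem_of_isIntegral A (map_isIntegral_int σ hθint)
  let s : Qb → Gal := fun c => if h : ∃ σ : Gal, σ θ = c then h.choose else 1
  have hs : ∀ c ∈ Orb, s c θ = c := by
    intro c hc
    have h := (hCmem c).mp hc
    simp only [s, dif_pos h]
    exact h.choose_spec
  -- the twists only depend on the image of `θ`
  have hWD : ∀ σ σ' : Gal, σ θ = σ' θ → twist act σ f = twist act σ' f := by
    intro σ σ' h
    have hρ : (σ⁻¹ * σ') θ - θ ∈ A.nonunits := by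
      have h2 : (σ⁻¹ * σ') θ = θ := by
        rw [AlgEquiv.mul_apply, ← h]
        exact σ.symm_apply_apply θ
      rw [h2, sub_self, A.mem_nonunits_iff, map_zero]
      exact zero_lt_one
    obtain ⟨ι, hι, hιM⟩ := hθlift _ hρ
    have e1 : twist act (σ⁻¹ * σ') f = twist act ι f :=
      twist_eq_of_agree act h1 hmul M hMlevel f hfM hιM
    have e2 : twist act ι f = f := twist_eq_self act h1 hmul f (hfI ι hι)
    calc twist act σ f = twist act σ (twist act (σ⁻¹ * σ') f) := by rw [e1, e2]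
      _ = twist act (σ * (σ⁻¹ * σ')) f := (twist_mul act hmul _ _ f).symm
      _ = twist act σ' f := by rw [mul_inv_cancel_left]
  -- the differences `θ - c` are units of `A`
  have hunit : ∀ c ∈ Orb, c ≠ θ → A.valuation (θ - c) = 1 := by
    intro c hc hne
    have hcA := hCA c hc
    obtain ⟨σ, rfl⟩ := (hCmem c).mp hc
    refine le_antisymm ((A.valuation_le_one_iff _).mpr (sub_mem hθA hcA))
      (not_lt.mp fun hlt => hne ?_)
    have h' : σ θ - θ ∈ A.nonunits := by
      rw [A.mem_nonunits_iff, ← neg_sub, Valuation.map_neg]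
      exact hlt
    obtain ⟨ι, hι, hιM⟩ := hθlift σ h'
    rw [hιM θ hθM, hθI ι hι]
  -- the Lagrange polynomial
  let Q : Qb[X] := C θ⁻¹ * ∏ c ∈ Orb.erase θ, (C (θ - c)⁻¹ * (X - C c))
  have hQA : ∀ n, Q.coeff n ∈ A := by
    have hQl : Q ∈ Polynomial.lifts A.subtype := by
      refine mul_mem ?_ (prod_mem fun c hc => mul_mem ?_ ?_)
      · have hinv : θ⁻¹ ∈ A := by
          rw [← A.valuation_le_one_iff, map_inv₀, hθv, inv_one]
        exact Polynomial.C_mem_lifts A.subtype ⟨θ⁻¹, hinv⟩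
      · have hinv : (θ - c)⁻¹ ∈ A := by
          rw [← A.valuation_le_one_iff, map_inv₀,
            hunit c (Finset.mem_of_mem_erase hc) (Finset.ne_of_mem_erase hc), inv_one]
        exact Polynomial.C_mem_lifts A.subtype ⟨(θ - c)⁻¹, hinv⟩
      · have hcA : c ∈ A := hCA c (Finset.mem_of_mem_erase hc)
        have h2 : (X - C c : Qb[X]) = X + C (A.subtype ⟨-c, A.neg_mem _ hcA⟩) := by
          simp [sub_eq_add_neg]
        rw [h2]
        exact add_mem (Polynomial.X_mem_lifts _) (Polynomial.C_mem_lifts A.subtype _)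
    intro n
    obtain ⟨a, ha⟩ := (Polynomial.lifts_iff_coeff_lifts Q).mp hQl n
    rw [← ha]
    exact a.2
  have hQeval : ∀ c ∈ Orb, c * Q.eval c = if c = θ then 1 else 0 := by
    intro c hc
    have hev : Q.eval c = θ⁻¹ * ∏ c' ∈ Orb.erase θ, ((θ - c')⁻¹ * (c - c')) := by
      simp only [Q, eval_mul, eval_C, eval_prod, eval_sub, eval_X]
    rw [hev]
    split_ifs with hcθ
    · subst hcθ
      have hprod : ∏ c' ∈ Orb.erase c, ((c - c')⁻¹ * (c - c')) = 1 := by
        refine Finset.prod_eq_one fun c' hc' => ?_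
        have hne : c - c' ≠ 0 := sub_ne_zero.mpr (Finset.ne_of_mem_erase hc').symm
        exact inv_mul_cancel₀ hne
      rw [hprod, mul_one, mul_inv_cancel₀ hθ0]
    · have hprod : ∏ c' ∈ Orb.erase θ, ((θ - c')⁻¹ * (c - c')) = 0 :=
        Finset.prod_eq_zero (Finset.mem_erase.mpr ⟨hcθ, hc⟩) (by rw [sub_self, mul_zero])
      rw [hprod, mul_zero, mul_zero]
  -- the equivariant functions
  let T : Qb → G → Qb := fun c => twist act (s c) f
  let ν : ℕ → G → Qb := fun i x => ∑ c ∈ Orb, c ^ (i + 1) * T c x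
  have hCstab : ∀ (ρ : Gal), ∀ c ∈ Orb, ρ c ∈ Orb := by
    intro ρ c hc
    obtain ⟨σ, rfl⟩ := (hCmem c).mp hc
    exact (hCmem _).mpr ⟨ρ * σ, rfl⟩
  have hTρ : ∀ (ρ : Gal) (c : Qb), c ∈ Orb → ∀ x, ρ (T c x) = T (ρ c) (act ρ x) := by
    intro ρ c hc x
    have h2 : twist act (ρ * s c) f = twist act (s (ρ c)) f := by
      apply hWD
      rw [AlgEquiv.mul_apply, hs c hc, hs (ρ c) (hCstab ρ c hc)]
    show ρ (twist act (s c) f x) = twist act (s (ρ c)) f (act ρ x)
    rw [← h2, twist_apply, twist_apply, mul_inv_rev, hmul, ← hmul ρ⁻¹ ρ, inv_mul_cancel, h1]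
    rfl
  have hνeq : ∀ (i : ℕ) (ρ : Gal) (x : G), ν i (act ρ x) = ρ (ν i x) := by
    intro i ρ x
    show ∑ c ∈ Orb, c ^ (i + 1) * T c (act ρ x) = ρ (∑ c ∈ Orb, c ^ (i + 1) * T c x)
    rw [map_sum]
    symm
    refine Finset.sum_nbij' (fun c => ρ c) (fun c => ρ⁻¹ c) (hCstab ρ) (hCstab ρ⁻¹) ?_ ?_ ?_
    · intro c _
      exact ρ.symm_apply_apply c
    · intro c _
      exact ρ.apply_symm_apply c
    · intro c hc
      rw [map_mul, map_pow, hTρ ρ c hc x]
  have hνN : ∀ i : ℕ, ν i ∈ N := by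
    intro i
    have hνsum : ν i = ∑ c ∈ Orb, fun x => c ^ (i + 1) * T c x := by
      funext x
      rw [Finset.sum_apply]
    rw [hνsum]
    refine Submodule.sum_mem _ fun c hc => ?_
    have hcA := hCA c hc
    by_cases hδ : ∃ δ ∈ A.decompositionSubgroup ℚ, ∀ x ∈ M, s c x = δ x
    · obtain ⟨δ, hδD, hδM⟩ := hδ
      have hT : T c = twist act δ f := twist_eq_of_agree act h1 hmul M hMlevel f hfM hδM
      have hmem : twist act δ f ∈ N := hND δ hδD f hfN
      have h3 : (fun x => c ^ (i + 1) * T c x) =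
          (⟨c ^ (i + 1), pow_mem hcA _⟩ : A) • twist act δ f := by
        funext x
        rw [hT]
        rfl
      rw [h3]
      exact N.smul_mem _ hmem
    · have hδ' : ∀ δ ∈ A.decompositionSubgroup ℚ, ∃ x ∈ M, s c x ≠ δ x := by
        intro δ hδD
        by_contra hcon
        push Not at hcon
        exact hδ ⟨δ, hδD, hcon⟩
      obtain ⟨r, hrA, hr⟩ := hθsmall (s c) hδ'
      rw [hs c hc] at hr
      have h3 : (fun x => c ^ (i + 1) * T c x) = fun x => (ℓ : Qb) ^ c0 *
          (r * c ^ i * ((ℓ : Qb) ^ k * s c (f (act (s c)⁻¹ x)))) := by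
        funext x
        show c ^ (i + 1) * s c (f (act (s c)⁻¹ x)) = _
        rw [pow_succ]
        nth_rewrite 2 [hr]
        rw [pow_add]
        ring
      rw [h3]
      refine hc0 _ fun x => ?_
      exact A.mul_mem _ _ (A.mul_mem _ _ hrA (pow_mem hcA i)) (hk (s c) _)
  -- the formula
  have hfsum : f = ∑ i ∈ Finset.range (Q.natDegree + 1), (⟨Q.coeff i, hQA i⟩ : A) • ν i := by
    funext x
    rw [Finset.sum_apply]
    have h4 : ∀ i ∈ Finset.range (Q.natDegree + 1),
        ((⟨Q.coeff i, hQA i⟩ : A) • ν i) x = ∑ c ∈ Orb, (c * (Q.coeff i * c ^ i)) * T c x := by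
      intro i _
      show Q.coeff i * ∑ c ∈ Orb, c ^ (i + 1) * T c x = _
      rw [Finset.mul_sum]
      refine Finset.sum_congr rfl fun c _ => ?_
      rw [pow_succ]
      ring
    rw [Finset.sum_congr rfl h4, Finset.sum_comm]
    have h5 : ∀ c ∈ Orb, ∑ i ∈ Finset.range (Q.natDegree + 1), (c * (Q.coeff i * c ^ i)) * T c x =
        (if c = θ then 1 else 0) * T c x := by
      intro c hc
      rw [← Finset.sum_mul, ← Finset.mul_sum, ← Polynomial.eval_eq_sum_range, hQeval c hc]
    rw [Finset.sum_congr rfl h5]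
    simp only [ite_mul, one_mul, zero_mul]
    rw [Finset.sum_ite_eq' Orb θ, if_pos hθC]
    have h6 : T θ = f := by
      have h7 : twist act (s θ) f = twist act 1 f := hWD _ _ (by rw [hs θ hθC]; rfl)
      show twist act (s θ) f = f
      rw [h7, twist_one act h1]
    rw [h6]
  rw [hfsum]
  exact Submodule.sum_mem _ fun i _ =>
    Submodule.smul_mem _ _ (Submodule.subset_span ⟨hνN i, hνeq i⟩)

end Fermat.Agent.S19.Red
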