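/-
S19 (Program FG), layer (RED) (helper116): the assembly of TAIL Y,

  `red_of_bricks : DescStatement → ClosureStatement → SatStatement → IntStatement → RedStatement`.

(CLOS) gives the decomposition-stable algebra `R = A[T]`; (DESC) on the generators `t ∈ T` gives a
finite set `S ⊆ R` of `Gal`-equivariant functions with `T ⊆ span_A S`; `H := ℤ_(ℓ)[S]` is
finitely generated ((INT): equivariant + `A`-valued ⇒ integral values), equivariant, separating,
and `Δ H ⊆ H ⊗ H` by (SAT) applied on `G × G` to the `ℤ_(ℓ)`-module spanned by the products of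
a finite spanning set of `H`.
-/
import Mathlib
import Fermat.Agent.S19.Red.Bricks
import Fermat.Agent.S19.HopfGen
import Fermat.Agent.Lib.ValFrac

set_option autoImplicit false

noncomputable section

namespace Fermat.Agent.S19.Red

open Fermat.Agent.S19.HopfOrder Fermat.Agent.S19.HopfGen GaloisRep

variable {G : Type}

/-- `ℤ_(ℓ) ⊆ A`. -/
theorem algebraMap_Zl_mem (A : ValuationSubring Qb) {ℓ : ℕ} (hℓ : ℓ.Prime)
    (hA : A.LiesOverPrime ℓ) (z : Zl ℓ) : algebraMap (Zl ℓ) Qb z ∈ A := by
  have hz : (z : ℚ).den.Coprime ℓ := z.2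
  have hden : A.valuation ((((z : ℚ).den : ℕ) : ℤ) : Qb) = 1 := by
    refine Fermat.Agent.Lib.ValFrac.valuation_intCast_eq_one A ℓ hℓ hA _ ?_
    intro hdvd
    have h2 : ℓ ∣ (z : ℚ).den := Int.natCast_dvd_natCast.mp hdvd
    exact hℓ.one_lt.ne' (Nat.Coprime.eq_one_of_dvd hz.symm h2)
  rw [algebraMap_Zl_Qb, ← A.valuation_le_one_iff]
  have hq : algebraMap ℚ Qb (z : ℚ) =
      (((z : ℚ).num : ℤ) : Qb) / ((((z : ℚ).den : ℕ) : ℤ) : Qb) := by
    conv_lhs => rw [← Rat.num_div_den (z : ℚ)]
    simp
  rw [hq, map_div₀, hden, div_one]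
  exact (A.valuation_le_one_iff _).mpr (intCast_mem A _)

/-- Products of elements of the `A`-span of `B` are in the `A`-span of the products. -/
theorem prod_mem_span_image2 (A : ValuationSubring Qb) (B : Set (G → Qb)) {b c : G → Qb}
    (hb : b ∈ Submodule.span A B) (hc : c ∈ Submodule.span A B) :
    (fun p : G × G => b p.1 * c p.2) ∈ Submodule.span A
      (Set.image2 (fun β γ : G → Qb => fun p : G × G => β p.1 * γ p.2) B B) := by
  induction hb using Submodule.span_induction with
  | mem β hβ =>
    induction hc using Submodule.span_induction with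
    | mem γ hγ => exact Submodule.subset_span ⟨β, hβ, γ, hγ, rfl⟩
    | zero =>
      have h0 : (fun p : G × G => β p.1 * (0 : G → Qb) p.2) = 0 := by
        funext p
        simp
      rw [h0]
      exact Submodule.zero_mem _
    | add γ γ' _ _ h1 h2 =>
      have h0 : (fun p : G × G => β p.1 * (γ + γ') p.2) =
          (fun p : G × G => β p.1 * γ p.2) + fun p : G × G => β p.1 * γ' p.2 := by
        funext p
        simp [mul_add]
      rw [h0]
      exact Submodule.add_mem _ h1 h2
    | smul r γ _ h1 =>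
      have h0 : (fun p : G × G => β p.1 * (r • γ) p.2) =
          r • fun p : G × G => β p.1 * γ p.2 := by
        funext p
        show β p.1 * ((r : Qb) * γ p.2) = (r : Qb) * (β p.1 * γ p.2)
        ring
      rw [h0]
      exact Submodule.smul_mem _ _ h1
  | zero =>
    have h0 : (fun p : G × G => (0 : G → Qb) p.1 * c p.2) = 0 := by
      funext p
      simp
    rw [h0]
    exact Submodule.zero_mem _
  | add β β' _ _ h1 h2 =>
    have h0 : (fun p : G × G => (β + β') p.1 * c p.2) =
        (fun p : G × G => β p.1 * c p.2) + fun p : G × G => β' p.1 * c p.2 := by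
      funext p
      simp [add_mul]
    rw [h0]
    exact Submodule.add_mem _ h1 h2
  | smul r β _ h1 =>
    have h0 : (fun p : G × G => (r • β) p.1 * c p.2) = r • fun p : G × G => β p.1 * c p.2 := by
      funext p
      show ((r : Qb) * β p.1) * c p.2 = (r : Qb) * (β p.1 * c p.2)
      ring
    rw [h0]
    exact Submodule.smul_mem _ _ h1

/-- **The assembly of TAIL Y.** -/
theorem red_of_bricks (hD : DescStatement) (hC : ClosureStatement) (hS : SatStatement)
    (hI : IntStatement) : RedStatement := by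
  classical
  intro ℓ hℓF G _ _ act h1 hmul hadd L _ hL A hA ι _ τ hτA hτI hsep hΔ
  have hℓ : ℓ.Prime := hℓF.out
  obtain ⟨T, hTfin, hτT, hTI, hRA, hRD, hRc, hRΔ⟩ :=
    hC ℓ act h1 hmul hadd L hL A hA τ hτA hτI hsep hΔ
  -- (DESC) on the generators
  have hdesc : ∀ t ∈ T, t ∈ Submodule.span A
      {ν : G → Qb | ν ∈ Subalgebra.toSubmodule (Algebra.adjoin A T) ∧
        ∀ (σ : Gal) (x : G), ν (act σ x) = σ (ν x)} :=
    fun t ht => hD ℓ A hA act h1 hmul L hL (Subalgebra.toSubmodule (Algebra.adjoin A T))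
      (fun σ hσ f hf => hRD σ hσ f hf) hRc t (Algebra.subset_adjoin ht) (hTI t ht)
  choose! St hSt using fun t (ht : t ∈ T) => Submodule.mem_span_finite_of_mem_span (hdesc t ht)
  let S : Finset (G → Qb) := hTfin.toFinset.biUnion St
  have hSmem : ∀ a ∈ S, a ∈ Algebra.adjoin A T ∧ ∀ (σ : Gal) (x : G), a (act σ x) = σ (a x) := by
    intro a ha
    obtain ⟨t, ht, hat⟩ := Finset.mem_biUnion.mp ha
    exact (hSt t (hTfin.mem_toFinset.mp ht)).1 hat
  have hTS : ∀ t ∈ T, t ∈ Submodule.span A (S : Set (G → Qb)) := by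
    intro t ht
    refine Submodule.span_mono ?_ (hSt t ht).2
    intro a ha
    exact Finset.mem_biUnion.mpr ⟨t, hTfin.mem_toFinset.mpr ht, ha⟩
  let H : Subalgebra (Zl ℓ) (G → Qb) := Algebra.adjoin (Zl ℓ) (S : Set (G → Qb))
  have hSH : ∀ a ∈ S, a ∈ H := fun a ha => Algebra.subset_adjoin ha
  -- finite generation
  have hint : ∀ a ∈ (S : Set (G → Qb)), IsIntegral (Zl ℓ) a := by
    intro a ha
    refine isIntegral_fun_of_forall fun x => hI ℓ A hA (a x) fun σ => ?_
    rw [← (hSmem a ha).2 σ x]
    exact hRA a (hSmem a ha).1 _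
  have hfg : (Subalgebra.toSubmodule H).FG := fg_adjoin_of_finite (Finset.finite_toSet S) hint
  -- equivariance
  have heq : ∀ h ∈ H, ∀ (σ : Gal) (x : G), h (act σ x) = σ (h x) :=
    equivariant_adjoin act (S : Set (G → Qb)) fun a ha => (hSmem a ha).2
  -- separation
  have hsepS : ∀ x y : G, x ≠ y → ∃ a ∈ S, a x ≠ a y := by
    intro x y hxy
    by_contra hcon
    have hcon' : ∀ a ∈ S, a x = a y := fun a ha => by_contra fun h => hcon ⟨a, ha, h⟩
    obtain ⟨j, hj⟩ := hsep x y hxy
    have key : ∀ a ∈ Submodule.span A (S : Set (G → Qb)), a x = a y := by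
      intro a ha
      induction ha using Submodule.span_induction with
      | mem b hb => exact hcon' b hb
      | zero => rfl
      | add b c _ _ hb hc =>
        show b x + c x = b y + c y
        rw [hb, hc]
      | smul r b _ hb =>
        show r • b x = r • b y
        rw [hb]
    exact hj (key _ (hTS _ (hτT ⟨j, rfl⟩)))
  -- a finite spanning set of `H`
  obtain ⟨B, hB⟩ := id hfg
  have hBH : ∀ β ∈ B, β ∈ H := by
    intro β hβ
    have h2 : β ∈ Submodule.span (Zl ℓ) (B : Set (G → Qb)) := Submodule.subset_span hβ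
    rw [hB] at h2
    exact h2
  -- `R ⊆ span_A B`
  have hHB' : ∀ h ∈ Submodule.span (Zl ℓ) (B : Set (G → Qb)),
      h ∈ Submodule.span A (B : Set (G → Qb)) := by
    intro h h2
    induction h2 using Submodule.span_induction with
    | mem b hb => exact Submodule.subset_span hb
    | zero => exact Submodule.zero_mem _
    | add b c _ _ hb hc => exact Submodule.add_mem _ hb hc
    | smul z b _ hb =>
      have h3 : z • b = (⟨algebraMap (Zl ℓ) Qb z, algebraMap_Zl_mem A hℓ hA z⟩ : A) • b := by
        funext x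
        rw [Pi.smul_apply, Pi.smul_apply, Algebra.smul_def]
        rfl
      rw [h3]
      exact Submodule.smul_mem _ _ hb
  have hHB : ∀ h ∈ H, h ∈ Submodule.span A (B : Set (G → Qb)) := by
    intro h hh
    refine hHB' h ?_
    rw [hB]
    exact hh
  have hRB : ∀ r ∈ Algebra.adjoin A T, r ∈ Submodule.span A (B : Set (G → Qb)) := by
    have hspan : Subalgebra.toSubmodule (Algebra.adjoin A (H : Set (G → Qb))) ≤
        Submodule.span A (B : Set (G → Qb)) := by
      rw [Algebra.adjoin_eq_span]
      have hcl : Submonoid.closure (H : Set (G → Qb)) = H.toSubmonoid :=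
        Submonoid.closure_eq H.toSubmonoid
      rw [hcl]
      exact Submodule.span_le.mpr fun h hh => hHB h hh
    have hT' : T ⊆ (Algebra.adjoin A (H : Set (G → Qb)) : Set (G → Qb)) := by
      intro t ht
      have h2 : Submodule.span A (S : Set (G → Qb)) ≤
          Subalgebra.toSubmodule (Algebra.adjoin A (H : Set (G → Qb))) :=
        Submodule.span_le.mpr fun a ha => Algebra.subset_adjoin (hSH a ha)
      exact h2 (hTS t ht)
    intro r hr
    exact hspan (Algebra.adjoin_le hT' hr)
  -- the action on `G × G`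
  let act2 : Gal → G × G → G × G := fun σ p => (act σ p.1, act σ p.2)
  have hact2 : ∀ σ, Function.Surjective (act2 σ) := by
    intro σ p
    refine ⟨(act σ⁻¹ p.1, act σ⁻¹ p.2), ?_⟩
    show (act σ (act σ⁻¹ p.1), act σ (act σ⁻¹ p.2)) = p
    rw [← hmul, ← hmul, mul_inv_cancel, h1, h1]
  let Pset : Set (G × G → Qb) :=
    Set.image2 (fun β γ : G → Qb => fun p : G × G => β p.1 * γ p.2) (B : Set (G → Qb))
      (B : Set (G → Qb))
  let M' : Submodule (Zl ℓ) (G × G → Qb) := Submodule.span (Zl ℓ) Pset
  have hM'fg : M'.FG :=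
    Submodule.fg_span (Set.Finite.image2 _ (Finset.finite_toSet B) (Finset.finite_toSet B))
  have hM'eq : ∀ m ∈ M', ∀ (σ : Gal) (p : G × G), m (act2 σ p) = σ (m p) := by
    intro m hm σ p
    induction hm using Submodule.span_induction with
    | mem b hb =>
      obtain ⟨β, hβ, γ, hγ, rfl⟩ := hb
      show β (act σ p.1) * γ (act σ p.2) = σ (β p.1 * γ p.2)
      rw [heq β (hBH β hβ), heq γ (hBH γ hγ), map_mul]
    | zero => exact (map_zero σ).symm
    | add b c _ _ hb hc =>
      show b (act2 σ p) + c (act2 σ p) = σ (b p + c p)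
      rw [hb, hc, map_add]
    | smul z b _ hb =>
      rw [Pi.smul_apply, Pi.smul_apply, Algebra.smul_def, Algebra.smul_def, hb, map_mul,
        algebraMap_Zl_Qb, AlgEquiv.commutes]
  have hPsub : Pset ⊆ prodSet H := by
    rintro _ ⟨β, hβ, γ, hγ, rfl⟩
    exact ⟨β, hBH β hβ, γ, hBH γ hγ, rfl⟩
  -- `Δ` on the generators
  have hgen : ∀ a ∈ (S : Set (G → Qb)), (fun p : G × G => a (p.1 + p.2)) ∈
      Submodule.span (Zl ℓ) (prodSet H) := by
    intro a ha
    have hFeq : ∀ (σ : Gal) (p : G × G),
        (fun p : G × G => a (p.1 + p.2)) (act2 σ p) = σ ((fun p : G × G => a (p.1 + p.2)) p) := by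
      intro σ p
      show a (act σ p.1 + act σ p.2) = σ (a (p.1 + p.2))
      rw [← hadd, (hSmem a ha).2]
    have hFspan : (fun p : G × G => a (p.1 + p.2)) ∈
        Submodule.span A ((M' : Submodule (Zl ℓ) (G × G → Qb)) : Set (G × G → Qb)) := by
      have h2 := hRΔ a (hSmem a ha).1
      have hle : Submodule.span A
          {F : G × G → Qb | ∃ b ∈ Algebra.adjoin A T, ∃ c ∈ Algebra.adjoin A T,
            F = fun p => b p.1 * c p.2} ≤
          Submodule.span A ((M' : Submodule (Zl ℓ) (G × G → Qb)) : Set (G × G → Qb)) := by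
        refine Submodule.span_le.mpr ?_
        rintro _ ⟨b, hb, c, hc, rfl⟩
        have h3 := prod_mem_span_image2 A (B : Set (G → Qb)) (hRB b hb) (hRB c hc)
        exact Submodule.span_mono (fun F hF => Submodule.subset_span hF) h3
      exact hle h2
    have h4 : (fun p : G × G => a (p.1 + p.2)) ∈ M' :=
      hS ℓ A hA act2 hact2 M' hM'fg hM'eq _ hFeq hFspan
    exact Submodule.span_mono hPsub h4
  have hle : H ≤ (prodAlg H).comap (addPull ℓ G) := by
    refine Algebra.adjoin_le ?_
    intro a ha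
    have h2 := hgen a ha
    rw [span_prodSet] at h2
    exact h2
  refine ⟨H, hfg, heq, ?_, ?_⟩
  · intro x y hxy
    obtain ⟨a, ha, hne⟩ := hsepS x y hxy
    exact ⟨a, hSH a ha, hne⟩
  · intro h hh
    have h2 : addPull ℓ G h ∈ prodAlg H := hle hh
    show (fun p : G × G => h (p.1 + p.2)) ∈ Submodule.span (Zl ℓ) (prodSet H)
    rw [span_prodSet]
    exact h2

end Fermat.Agent.S19.Red
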