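/-
S19 (Program FG), layer (RED), bricks (SAT) and (INT) of TAIL Y (helper152).

`Qb = AlgebraicClosure ℚ`, `Gal = Qb ≃ₐ[ℚ] Qb`, `Zl ℓ = ↥(GaloisRep.ratLocalizedAt ℓ)`,
`A` a valuation subring of `ℚ̄` over the prime `ℓ`.

Exits (the literals of `Red/Bricks.lean`):
* `Fermat.Agent.S19.Red.sat : SatStatement`
* `Fermat.Agent.S19.Red.int : IntStatement`

Lemmas (namespace `Fermat.Agent.S19.Red.Sat`):
* `rat_mem_iff`                  : `A ∩ ℚ = ℤ_(ℓ)`;
* `isIntegral_of_forall_conj_mem` : an element of `ℚ̄` all of whose conjugates lie in `A` is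
                                   integral over `ℤ_(ℓ)`;
* `isIntegral_of_equivariant`    : the values of a `Gal`-equivariant `A`-valued function are
                                   integral over `ℤ_(ℓ)`;
* `mem_of_mem_span`              : (SAT) a `Gal`-equivariant function in the `A`-span of a
                                   finitely generated `ℤ_(ℓ)`-module `M` of `Gal`-equivariant
                                   functions lies in `M`.
-/
import Mathlib
import Fermat.Agent.Lib.ValFrac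
import Fermat.Agent.S19.HopfOrder.Indep
import Fermat.Agent.S19.Red.Bricks

set_option autoImplicit false

noncomputable section

namespace Fermat.Agent.S19.Red.Sat

open Fermat.Agent.S19.HopfOrder GaloisRep Polynomial

variable {ℓ : ℕ}

/-- **`A ∩ ℚ = ℤ_(ℓ)`.** -/
theorem rat_mem_iff (A : ValuationSubring Qb) (hℓ : ℓ.Prime) (hA : A.LiesOverPrime ℓ) (q : ℚ) :
    algebraMap ℚ Qb q ∈ A ↔ q ∈ ratLocalizedAt ℓ := by
  have hmul : ((q.num : ℤ) : Qb) = algebraMap ℚ Qb q * ((q.den : ℤ) : Qb) := by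
    have h := congrArg (algebraMap ℚ Qb) (Rat.mul_den_eq_num q)
    rw [map_mul, map_natCast, map_intCast] at h
    rw [← h]
    push_cast
    ring
  have hval : A.valuation ((q.num : ℤ) : Qb) =
      A.valuation (algebraMap ℚ Qb q) * A.valuation ((q.den : ℤ) : Qb) := by
    rw [hmul, map_mul]
  constructor
  · intro h
    show q.den.Coprime ℓ
    by_contra hcop
    have hdvd : ℓ ∣ q.den := (hℓ.dvd_iff_not_coprime).mpr fun h' => hcop h'.symm
    have hnum : ¬ (ℓ : ℤ) ∣ q.num := by
      intro h1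
      have h2 : ℓ ∣ q.num.natAbs := Int.natCast_dvd.mp h1
      have h3 : ℓ ∣ Nat.gcd q.num.natAbs q.den := Nat.dvd_gcd h2 hdvd
      rw [q.reduced] at h3
      exact hℓ.one_lt.ne' (Nat.dvd_one.mp h3)
    have h1 : A.valuation ((q.num : ℤ) : Qb) = 1 :=
      Fermat.Agent.Lib.ValFrac.valuation_intCast_eq_one A ℓ hℓ hA q.num hnum
    have h2 : A.valuation ((q.den : ℤ) : Qb) < 1 := by
      obtain ⟨m, hm⟩ := hdvd
      have : ((q.den : ℤ) : Qb) = (ℓ : Qb) * (m : Qb) := by
        rw [hm]; push_cast; ring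
      rw [this, map_mul]
      calc A.valuation (ℓ : Qb) * A.valuation (m : Qb) ≤ A.valuation (ℓ : Qb) * 1 := by
            gcongr
            exact (A.valuation_le_one_iff _).mpr (natCast_mem A m)
        _ < 1 := by rw [mul_one]; exact A.mem_nonunits_iff.mp hA
    have h3 : A.valuation (algebraMap ℚ Qb q) ≤ 1 := (A.valuation_le_one_iff _).mpr h
    have h4 : A.valuation ((q.num : ℤ) : Qb) < 1 := by
      rw [hval]
      calc A.valuation (algebraMap ℚ Qb q) * A.valuation ((q.den : ℤ) : Qb)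
          ≤ 1 * A.valuation ((q.den : ℤ) : Qb) := by gcongr
        _ < 1 := by rw [one_mul]; exact h2
    rw [h1] at h4
    exact lt_irrefl _ h4
  · intro h
    have hden : ¬ (ℓ : ℤ) ∣ (q.den : ℤ) := by
      intro h1
      have h2 : ℓ ∣ q.den := Int.natCast_dvd_natCast.mp h1
      have h3 : q.den.Coprime ℓ := h
      have h4 : ℓ ∣ Nat.gcd q.den ℓ := Nat.dvd_gcd h2 dvd_rfl
      rw [h3] at h4
      exact hℓ.one_lt.ne' (Nat.dvd_one.mp h4)
    have h1 : A.valuation ((q.den : ℤ) : Qb) = 1 :=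
      Fermat.Agent.Lib.ValFrac.valuation_intCast_eq_one A ℓ hℓ hA _ hden
    rw [h1, mul_one] at hval
    rw [← A.valuation_le_one_iff, ← hval]
    exact (A.valuation_le_one_iff _).mpr (intCast_mem A q.num)

/-- The coefficients of `∏ (X - r)` lie in a subring containing the `r`. -/
theorem coeff_prod_X_sub_C_mem {R : Type*} [CommRing R] (S : Subring R) (s : Multiset R)
    (hs : ∀ r ∈ s, r ∈ S) (n : ℕ) : ((s.map fun t => X - C t).prod).coeff n ∈ S := by
  have key : (s.map fun t => X - C t).prod ∈ (Polynomial.mapRingHom S.subtype).range := by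
    refine Subring.multiset_prod_mem _ _ ?_
    intro p hp
    obtain ⟨r, hr, rfl⟩ := Multiset.mem_map.mp hp
    exact ⟨X - C ⟨r, hs r hr⟩, by simp⟩
  obtain ⟨q, hq⟩ := key
  rw [← hq]
  simp

/-- **Conjugates in `A` ⟹ integral over `ℤ_(ℓ)`.** -/
theorem isIntegral_of_forall_conj_mem (A : ValuationSubring Qb) (hℓ : ℓ.Prime)
    (hA : A.LiesOverPrime ℓ) (z : Qb) (h : ∀ σ : Gal, σ z ∈ A) : IsIntegral (Zl ℓ) z := by
  have hclos : IsAlgClosure ℚ Qb := AlgebraicClosure.instIsAlgClosure ℚ
  have hgal : IsGalois ℚ Qb := IsAlgClosure.isGalois ℚ Qb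
  have halg : IsAlgebraic ℚ z := Algebra.IsAlgebraic.isAlgebraic z
  have hint : IsIntegral ℚ z := halg.isIntegral
  have hmonic : (minpoly ℚ z).Monic := minpoly.monic hint
  have hsplit : ((minpoly ℚ z).map (algebraMap ℚ Qb)).Splits := IsAlgClosed.splits _
  have hprod := hsplit.eq_prod_roots_of_monic (hmonic.map _)
  have hroots : ∀ r ∈ ((minpoly ℚ z).map (algebraMap ℚ Qb)).roots, r ∈ A.toSubring := by
    intro r hr
    have hr0 : Polynomial.aeval r (minpoly ℚ z) = 0 := by
      have h1 := (Polynomial.mem_roots (hmonic.map (algebraMap ℚ Qb)).ne_zero).mp hr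
      rwa [Polynomial.IsRoot.def, Polynomial.eval_map_algebraMap] at h1
    obtain ⟨σ, hσ⟩ := minpoly.exists_algEquiv_of_root' halg hr0
    rw [← hσ]
    exact h σ
  have hcoef : ∀ n, algebraMap ℚ Qb ((minpoly ℚ z).coeff n) ∈ A := by
    intro n
    have h1 := coeff_prod_X_sub_C_mem A.toSubring _ hroots n
    rw [← hprod, Polynomial.coeff_map] at h1
    exact h1
  have hlifts : minpoly ℚ z ∈ Polynomial.lifts (algebraMap (Zl ℓ) ℚ) := by
    rw [Polynomial.lifts_iff_coeff_lifts]
    intro n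
    exact ⟨⟨(minpoly ℚ z).coeff n, (rat_mem_iff A hℓ hA _).mp (hcoef n)⟩, rfl⟩
  obtain ⟨g, hg, -, hgm⟩ := Polynomial.lifts_and_natDegree_eq_and_monic hlifts hmonic
  refine ⟨g, hgm, ?_⟩
  have h1 : Polynomial.aeval z (g.map (algebraMap (Zl ℓ) ℚ)) = 0 := by
    rw [hg]
    exact minpoly.aeval ℚ z
  rwa [Polynomial.aeval_map_algebraMap] at h1

/-- The values of a `Gal`-equivariant `A`-valued function are integral over `ℤ_(ℓ)`. -/
theorem isIntegral_of_equivariant (A : ValuationSubring Qb) (hℓ : ℓ.Prime)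
    (hA : A.LiesOverPrime ℓ) {X : Type*} (act : Gal → X → X) (ν : X → Qb)
    (hν : ∀ (σ : Gal) (x : X), ν (act σ x) = σ (ν x)) (hνA : ∀ x, ν x ∈ A) (x : X) :
    IsIntegral (Zl ℓ) (ν x) :=
  isIntegral_of_forall_conj_mem A hℓ hA _ fun σ => by
    rw [← hν]
    exact hνA _

/-- **(SAT).** A `Gal`-equivariant function in the `A`-span of a finitely generated
`ℤ_(ℓ)`-module `M` of `Gal`-equivariant functions lies in `M`. -/
theorem mem_of_mem_span (A : ValuationSubring Qb) (hℓ : ℓ.Prime) (hA : A.LiesOverPrime ℓ)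
    {X : Type*}
    (act : Gal → X → X) (hsurj : ∀ σ, Function.Surjective (act σ))
    (M : Submodule (Zl ℓ) (X → Qb)) (hfg : M.FG)
    (hM : ∀ m ∈ M, ∀ (σ : Gal) (x : X), m (act σ x) = σ (m x))
    (F : X → Qb) (hF : ∀ (σ : Gal) (x : X), F (act σ x) = σ (F x))
    (hFM : F ∈ Submodule.span A (M : Set (X → Qb))) : F ∈ M := by
  classical
  have hclos : IsAlgClosure ℚ Qb := AlgebraicClosure.instIsAlgClosure ℚ
  have hgal : IsGalois ℚ Qb := IsAlgClosure.isGalois ℚ Qb
  have : Module.Finite (Zl ℓ) M := Module.Finite.iff_fg.mpr hfg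
  have : Module.IsTorsionFree (Zl ℓ) (X → Qb) := by
    have hinj : Function.Injective (algebraMap (Zl ℓ) Qb) := algebraMap_Zl_injective ℓ
    infer_instance
  have : Module.IsTorsionFree (Zl ℓ) M := inferInstance
  have : Module.Free (Zl ℓ) M := Module.free_of_finite_type_torsion_free'
  let b := Module.finBasis (Zl ℓ) M
  set v : Fin (Module.finrank (Zl ℓ) M) → X → Qb := fun i => ((b i : M) : X → Qb) with hvdef
  have hvM : ∀ i, v i ∈ M := fun i => (b i).2
  have hvZ : LinearIndependent (Zl ℓ) v :=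
    b.linearIndependent.map' M.subtype (Submodule.ker_subtype M)
  have hvQ : LinearIndependent ℚ v := (LinearIndependent.iff_fractionRing (Zl ℓ) ℚ).mp hvZ
  have hvQb : LinearIndependent Qb v :=
    linearIndependent_of_equivariant act hsurj v (fun i σ x => hM _ (hvM i) σ x) hvQ
  -- `F` is an `A`-combination of the `v i`
  have hspan : Submodule.span A (M : Set (X → Qb)) ≤ Submodule.span A (Set.range v) := by
    refine Submodule.span_le.mpr fun m hm => ?_
    have h1 := b.sum_repr ⟨m, hm⟩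
    have h2 : m = ∑ i, (b.repr ⟨m, hm⟩ i) • v i :=
      calc m = ((∑ i, (b.repr ⟨m, hm⟩ i) • b i : M) : X → Qb) := (congrArg Subtype.val h1).symm
        _ = ∑ i, (b.repr ⟨m, hm⟩ i) • v i := by
          rw [Submodule.coe_sum]
          rfl
    rw [h2]
    refine Submodule.sum_mem _ fun i _ => ?_
    have hrA : algebraMap ℚ Qb ((b.repr ⟨m, hm⟩ i : Zl ℓ) : ℚ) ∈ A :=
      (rat_mem_iff A hℓ hA _).mpr (b.repr ⟨m, hm⟩ i).2
    have h3 : (b.repr ⟨m, hm⟩ i) • v i = (⟨_, hrA⟩ : A) • v i := by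
      funext x
      show (b.repr ⟨m, hm⟩ i) • v i x = (⟨_, hrA⟩ : A) • v i x
      rw [Algebra.smul_def, Algebra.smul_def]
      rfl
    rw [h3]
    exact Submodule.smul_mem _ _ (Submodule.subset_span ⟨i, rfl⟩)
  obtain ⟨a, ha⟩ := (Submodule.mem_span_range_iff_exists_fun A).mp (hspan hFM)
  have hFx : ∀ x, F x = ∑ i, (a i : Qb) * v i x := by
    intro x
    rw [← ha, Finset.sum_apply]
    rfl
  -- the coefficients are fixed by `Gal`
  have hfix : ∀ (σ : Gal) i, σ (a i : Qb) = (a i : Qb) := by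
    intro σ
    have hzero : ∑ i, (σ (a i : Qb) - (a i : Qb)) • v i = 0 := by
      funext y
      obtain ⟨x, rfl⟩ := hsurj σ y
      have h1 : σ (F x) = ∑ i, σ (a i : Qb) * v i (act σ x) := by
        rw [hFx, map_sum]
        refine Finset.sum_congr rfl fun i _ => ?_
        rw [map_mul, hM _ (hvM i)]
      have h2 := hFx (act σ x)
      rw [hF, h1] at h2
      rw [Finset.sum_apply]
      simp only [Pi.smul_apply, smul_eq_mul, sub_mul, Finset.sum_sub_distrib, Pi.zero_apply]
      rw [h2, sub_self]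
    intro i
    exact sub_eq_zero.mp (Fintype.linearIndependent_iff.mp hvQb _ hzero i)
  -- hence they are in `ℤ_(ℓ)`
  have hrat : ∀ i, ∃ r : Zl ℓ, algebraMap (Zl ℓ) Qb r = (a i : Qb) := by
    intro i
    obtain ⟨q, hq⟩ := (InfiniteGalois.mem_range_algebraMap_iff_fixed (k := ℚ) (K := Qb)
      (a i : Qb)).mpr (fun σ => hfix σ i)
    have hqA : algebraMap ℚ Qb q ∈ A := by
      rw [hq]
      exact (a i).2
    exact ⟨⟨q, (rat_mem_iff A hℓ hA q).mp hqA⟩, hq⟩
  choose r hr using hrat
  have hFr : F = ∑ i, r i • v i := by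
    funext x
    rw [hFx, Finset.sum_apply]
    refine Finset.sum_congr rfl fun i _ => ?_
    rw [Pi.smul_apply, Algebra.smul_def, hr]
  rw [hFr]
  exact Submodule.sum_mem _ fun i _ => M.smul_mem _ (hvM i)

end Fermat.Agent.S19.Red.Sat

namespace Fermat.Agent.S19.Red

open Fermat.Agent.S19.HopfOrder GaloisRep

/-- **(SAT)**, the literal of `Red/Bricks.lean`. -/
theorem sat : SatStatement := by
  intro ℓ hℓ A hA X act hsurj M hfg hM F hF hFM
  exact Sat.mem_of_mem_span A hℓ.out hA act hsurj M hfg hM F hF hFM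

/-- **(INT)**, the literal of `Red/Bricks.lean`. -/
theorem int : IntStatement := by
  intro ℓ hℓ A hA y hy
  exact Sat.isIntegral_of_forall_conj_mem A hℓ.out hA y hy

end Fermat.Agent.S19.Red
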