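/-
S19 (Program FG), layer (RED), CLAIM C, step (U): an unramified generator.

`A` a valuation subring of `ℚ̄` over the prime `ℓ`, `I = A.inertiaSubgroupIn ℚ`.  For every finite
normal `M₂ ⊆ ℚ̄` there are a finite normal `M ⊇ M₂` and an algebraic integer `θ ∈ M`, fixed by `I`,
such that every `σ ∈ G_ℚ` with `σ θ ≡ θ` modulo the maximal ideal of `A` agrees on `M` with an
element of `I`.  (Hence two distinct conjugates of `θ` differ by a unit of `A`, and the stabiliser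
of `θ` is contained in `I · Gal(ℚ̄/M)`.)

Construction: `φ` a Frobenius on integers, `N = #Gal(M₂/ℚ)`, `n = ℓ^N - 1`, `ζ` a primitive `n`-th
root of unity, `M = M₂(μ_n)`; then `x^(n+1) ≡ x` for every integral `x ∈ M`, and `θ = e ζ` with `e`
an `I`-fixed integer of `M`, `e ≡ 1`, lying in every other prime of `M` above `ℓ`.

Version with a precision (`exists_unram_gen_pow`): moreover `θ` is a unit of `A`, and for every `K`
one can arrange that `σ θ ∈ ℓ ^ K • A` for every `σ` that agrees on `M` with no element of the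
decomposition group of `A` (`e` is taken divisible by `ℓ ^ K` at the other primes of `M`).
-/
import Mathlib
import Fermat.Agent.Lib.DecompLift
import Fermat.Agent.Lib.CycloChar
import Fermat.Agent.CFT.Global.HP.DenseHensel

set_option autoImplicit false

namespace Fermat.Agent.S19.Red.UnramGen

local notation "Qb" => AlgebraicClosure ℚ
local notation "Gq" => (AlgebraicClosure ℚ ≃ₐ[ℚ] AlgebraicClosure ℚ)

local instance isAlgebraicQbar_ug : Algebra.IsAlgebraic ℚ (AlgebraicClosure ℚ) :=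
  AlgebraicClosure.isAlgebraic ℚ
local instance isAlgClosureQbar_ug : IsAlgClosure ℚ (AlgebraicClosure ℚ) :=
  ⟨inferInstance, inferInstance⟩
local instance normalQbar_ug : Normal ℚ (AlgebraicClosure ℚ) :=
  IsAlgClosure.normal ℚ (AlgebraicClosure ℚ)

/-! ### Valuation-subring bookkeeping -/

section Basic

variable (A : ValuationSubring Qb)

theorem mem_of_int {x : Qb} (hx : IsIntegral ℤ x) : x ∈ A :=
  Fermat.Agent.Lib.DecompLift.mem_of_isIntegral A hx

theorem nu_zero : (0 : Qb) ∈ A.nonunits := Fermat.Agent.Lib.CycloChar.nonunits_zero A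

theorem nu_add {x y : Qb} (hx : x ∈ A.nonunits) (hy : y ∈ A.nonunits) : x + y ∈ A.nonunits :=
  Fermat.Agent.Lib.CycloChar.nonunits_add A hx hy

theorem nu_mul {x y : Qb} (hx : x ∈ A) (hy : y ∈ A.nonunits) : x * y ∈ A.nonunits :=
  Fermat.Agent.Lib.CycloChar.nonunits_mul A hx hy

theorem nu_sub {x y : Qb} (hx : x ∈ A.nonunits) (hy : y ∈ A.nonunits) :
    x - y ∈ A.nonunits := by
  rw [A.mem_nonunits_iff] at hx hy ⊢
  exact A.valuation.map_sub_lt hx hy

theorem nu_neg {x : Qb} (hx : x ∈ A.nonunits) : -x ∈ A.nonunits := by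
  rw [A.mem_nonunits_iff] at hx ⊢
  rwa [Valuation.map_neg]

theorem one_notMem_nu : (1 : Qb) ∉ A.nonunits := by
  rw [A.mem_nonunits_iff, map_one]
  exact lt_irrefl _

theorem val_eq_one {x : Qb} (hx : x ∈ A) (hx' : x ∉ A.nonunits) : A.valuation x = 1 := by
  rw [A.mem_nonunits_iff, not_lt] at hx'
  exact le_antisymm ((A.valuation_le_one_iff x).mpr hx) hx'

/-- The maximal ideal is prime. -/
theorem nu_of_mul {x y : Qb} (hx : x ∈ A) (hy : y ∈ A) (h : x * y ∈ A.nonunits) :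
    x ∈ A.nonunits ∨ y ∈ A.nonunits := by
  by_contra hcon
  rw [not_or] at hcon
  rw [A.mem_nonunits_iff, map_mul, val_eq_one A hx hcon.1, val_eq_one A hy hcon.2, mul_one] at h
  exact lt_irrefl _ h

theorem exists_nu_of_prod {ι : Type*} (s : Finset ι) (f : ι → Qb) (hf : ∀ i ∈ s, f i ∈ A)
    (h : ∏ i ∈ s, f i ∈ A.nonunits) : ∃ i ∈ s, f i ∈ A.nonunits := by
  classical
  induction s using Finset.induction_on with
  | empty =>
    rw [Finset.prod_empty] at h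
    exact absurd h (one_notMem_nu A)
  | insert a s ha ih =>
    rw [Finset.prod_insert ha] at h
    have hfa : f a ∈ A := hf a (Finset.mem_insert_self a s)
    have hfs : ∀ i ∈ s, f i ∈ A := fun i hi => hf i (Finset.mem_insert_of_mem hi)
    rcases nu_of_mul A hfa (prod_mem hfs) h with h1 | h1
    · exact ⟨a, Finset.mem_insert_self a s, h1⟩
    · obtain ⟨i, hi, hi'⟩ := ih hfs h1
      exact ⟨i, Finset.mem_insert_of_mem hi, hi'⟩

theorem prod_mem_nu {ι : Type*} (s : Finset ι) (f : ι → Qb) (hf : ∀ i ∈ s, f i ∈ A)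
    {i₀ : ι} (hi₀ : i₀ ∈ s) (h : f i₀ ∈ A.nonunits) : ∏ i ∈ s, f i ∈ A.nonunits := by
  classical
  rw [← Finset.mul_prod_erase s f hi₀, mul_comm]
  exact nu_mul A (prod_mem fun i hi => hf i (Finset.mem_of_mem_erase hi)) h

theorem prod_sub_one_mem_nu {ι : Type*} (s : Finset ι) (f : ι → Qb)
    (hf : ∀ i ∈ s, f i ∈ A) (h : ∀ i ∈ s, f i - 1 ∈ A.nonunits) :
    ∏ i ∈ s, f i - 1 ∈ A.nonunits := by
  classical
  induction s using Finset.induction_on with
  | empty =>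
    rw [Finset.prod_empty, sub_self]
    exact nu_zero A
  | insert a s ha ih =>
    rw [Finset.prod_insert ha]
    have hfa : f a ∈ A := hf a (Finset.mem_insert_self a s)
    have e : f a * ∏ i ∈ s, f i - 1 = f a * (∏ i ∈ s, f i - 1) + (f a - 1) := by ring
    rw [e]
    exact nu_add A
      (nu_mul A hfa
        (ih (fun i hi => hf i (Finset.mem_insert_of_mem hi))
          (fun i hi => h i (Finset.mem_insert_of_mem hi))))
      (h a (Finset.mem_insert_self a s))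

theorem val_mul_le {x y : Qb} (hx : x ∈ A) {c : A.ValueGroup} (h : A.valuation y ≤ c) :
    A.valuation (x * y) ≤ c := by
  rw [map_mul]
  calc A.valuation x * A.valuation y ≤ 1 * c :=
        mul_le_mul' ((A.valuation_le_one_iff x).mpr hx) h
    _ = c := one_mul c

theorem val_prod_le {ι : Type*} (s : Finset ι) (f : ι → Qb) (hf : ∀ i ∈ s, f i ∈ A)
    {i₀ : ι} (hi₀ : i₀ ∈ s) {c : A.ValueGroup} (h : A.valuation (f i₀) ≤ c) :
    A.valuation (∏ i ∈ s, f i) ≤ c := by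
  classical
  rw [← Finset.mul_prod_erase s f hi₀, mul_comm]
  exact val_mul_le A (prod_mem fun i hi => hf i (Finset.mem_of_mem_erase hi)) h

theorem nu_of_val_le {x : Qb} {c : A.ValueGroup} (h : A.valuation x ≤ c) (hc : c < 1) :
    x ∈ A.nonunits := by
  rw [A.mem_nonunits_iff]
  exact lt_of_le_of_lt h hc

end Basic

/-! ### Frobenius on integers and roots of unity -/

section Frob

variable (A : ValuationSubring Qb) {ℓ : ℕ} {φ : Gq}

theorem frob_nu (hℓ : 0 < ℓ) (hφ : ∀ x : Qb, IsIntegral ℤ x → φ x - x ^ ℓ ∈ A.nonunits)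
    {z : Qb} (hz : IsIntegral ℤ z) (hzn : z ∈ A.nonunits) : φ z ∈ A.nonunits := by
  have h1 := hφ z hz
  have h2 : z ^ ℓ ∈ A.nonunits := by
    have e : z ^ ℓ = z ^ (ℓ - 1) * z := by
      rw [← pow_succ, Nat.sub_add_cancel hℓ]
    rw [e]
    exact nu_mul A (pow_mem (mem_of_int A hz) _) hzn
  have e : φ z = (φ z - z ^ ℓ) + z ^ ℓ := by ring
  rw [e]
  exact nu_add A h1 h2

theorem frob_pow_sub (hℓ : 0 < ℓ) (hφ : ∀ x : Qb, IsIntegral ℤ x → φ x - x ^ ℓ ∈ A.nonunits)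
    (j : ℕ) {x : Qb} (hx : IsIntegral ℤ x) : (φ ^ j) x - x ^ (ℓ ^ j) ∈ A.nonunits := by
  induction j with
  | zero =>
    have : (φ ^ 0) x - x ^ (ℓ ^ 0) = 0 := by simp
    rw [this]
    exact nu_zero A
  | succ j ih =>
    have h1 : (φ ^ (j + 1)) x - x ^ (ℓ ^ (j + 1)) =
        φ ((φ ^ j) x - x ^ (ℓ ^ j)) + (φ (x ^ (ℓ ^ j)) - (x ^ (ℓ ^ j)) ^ ℓ) := by
      rw [pow_succ', AlgEquiv.mul_apply, map_sub, pow_succ, pow_mul]
      ring
    rw [h1]
    refine nu_add A (frob_nu A hℓ hφ ?_ ih) (hφ _ (hx.pow _))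
    exact (map_isIntegral_int (φ ^ j) hx).sub (hx.pow _)

theorem isIntegral_of_pow_eq_one {μ : Qb} {m : ℕ} (hm : 0 < m) (hμ : μ ^ m = 1) :
    IsIntegral ℤ μ := by
  refine IsIntegral.of_pow hm ?_
  rw [hμ]
  exact isIntegral_one

theorem frob_root (hA : A.LiesOverPrime ℓ)
    (hφ : ∀ x : Qb, IsIntegral ℤ x → φ x - x ^ ℓ ∈ A.nonunits) {m : ℕ} (hm : Nat.Coprime m ℓ)
    {μ : Qb} (hμ : μ ^ m = 1) : φ μ = μ ^ ℓ := by
  have hmA := Fermat.Agent.Lib.CycloChar.natCast_not_mem_nonunits_of_coprime A hA hm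
  have hm0 : m ≠ 0 := by
    rintro rfl
    apply hmA
    rw [Nat.cast_zero]
    exact nu_zero A
  have hμ0 : μ ≠ 0 := by
    rintro rfl
    rw [zero_pow hm0] at hμ
    exact zero_ne_one hμ
  have h1 := hφ μ (isIntegral_of_pow_eq_one (Nat.pos_of_ne_zero hm0) hμ)
  have hpow : (μ ^ ℓ) ^ m = 1 := by
    rw [← pow_mul, mul_comm, pow_mul, hμ, one_pow]
  have hinv : (μ ^ ℓ)⁻¹ ∈ A := by
    have : ((μ ^ ℓ)⁻¹) ^ m = 1 := by
      rw [inv_pow, hpow, inv_one]
    exact Fermat.Agent.Lib.CycloChar.mem_of_pow_eq_one A hm0 this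
  have hz : (φ μ * (μ ^ ℓ)⁻¹) ^ m = 1 := by
    rw [mul_pow, ← map_pow, hμ, map_one, inv_pow, hpow, inv_one, one_mul]
  have hz1 : φ μ * (μ ^ ℓ)⁻¹ - 1 ∈ A.nonunits := by
    have : φ μ * (μ ^ ℓ)⁻¹ - 1 = (μ ^ ℓ)⁻¹ * (φ μ - μ ^ ℓ) := by
      field_simp
    rw [this]
    exact nu_mul A hinv h1
  have := Fermat.Agent.Lib.CycloChar.eq_one_of_pow_eq_one_of_sub_mem A hz hmA hz1
  field_simp at this
  exact this

theorem frob_pow_root (hA : A.LiesOverPrime ℓ)
    (hφ : ∀ x : Qb, IsIntegral ℤ x → φ x - x ^ ℓ ∈ A.nonunits) {m : ℕ} (hm : Nat.Coprime m ℓ)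
    (j : ℕ) {μ : Qb} (hμ : μ ^ m = 1) : (φ ^ j) μ = μ ^ (ℓ ^ j) := by
  induction j generalizing μ with
  | zero => simp
  | succ j ih =>
    have h1 : (μ ^ ℓ) ^ m = 1 := by rw [← pow_mul, mul_comm, pow_mul, hμ, one_pow]
    rw [pow_succ, AlgEquiv.mul_apply, frob_root A hA hφ hm hμ, ih h1, ← pow_mul, pow_succ']

/-- An integer `x ∉ 𝔪_A` with `x ^ (n + 1) ≡ x` is congruent to an `n`-th root of unity. -/
theorem exists_pow_sub_mem {n : ℕ} (hn : 0 < n) {ζ : Qb} (hζ : IsPrimitiveRoot ζ n) {x : Qb}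
    (hx : IsIntegral ℤ x) (hxn : x ∉ A.nonunits) (h : x ^ (n + 1) - x ∈ A.nonunits) :
    ∃ k : ℕ, x - ζ ^ k ∈ A.nonunits := by
  have hxA : x ∈ A := mem_of_int A hx
  have h1 : x ^ (n + 1) - x = x * (x ^ n - 1) := by ring
  rw [h1] at h
  have h2 : x ^ n - 1 ∈ A.nonunits := by
    rcases nu_of_mul A hxA (A.sub_mem (pow_mem hxA n) A.one_mem) h with h3 | h3
    · exact absurd h3 hxn
    · exact h3
  have h4 : x ^ n - 1 = ∏ ρ ∈ Polynomial.nthRootsFinset n (1 : Qb), (x - ρ) := by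
    have := congrArg (Polynomial.eval x) (Polynomial.X_pow_sub_one_eq_prod hn hζ)
    simpa [Polynomial.eval_prod] using this
  rw [h4] at h2
  have hroot : ∀ ρ ∈ Polynomial.nthRootsFinset n (1 : Qb), ρ ^ n = 1 := fun ρ hρ =>
    (Polynomial.mem_nthRootsFinset hn (1 : Qb)).mp hρ
  have hmem : ∀ ρ ∈ Polynomial.nthRootsFinset n (1 : Qb), x - ρ ∈ A := fun ρ hρ =>
    A.sub_mem hxA (Fermat.Agent.Lib.CycloChar.mem_of_pow_eq_one A hn.ne' (hroot ρ hρ))
  obtain ⟨ρ, hρ, hρ'⟩ := exists_nu_of_prod A _ (fun ρ => x - ρ) hmem h2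
  have : NeZero n := ⟨hn.ne'⟩
  obtain ⟨i, -, rfl⟩ := hζ.eq_pow_of_pow_eq_one (hroot ρ hρ)
  exact ⟨i, hρ'⟩

end Frob

/-! ### The cyclotomic fields -/

/-- `ℚ(μ_n)` inside `ℚ̄`. -/
noncomputable def cyc (n : ℕ) : IntermediateField ℚ Qb :=
  IntermediateField.adjoin ℚ {x : Qb | x ^ n = 1}

theorem normal_cyc (n : ℕ) : Normal ℚ (cyc n) := by
  refine (IntermediateField.normal_iff_forall_map_le' (K := cyc n)).2 ?_
  intro σ
  unfold cyc
  rw [IntermediateField.adjoin_map]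
  apply IntermediateField.adjoin.mono
  rintro _ ⟨x, hx, rfl⟩
  have hx' : x ^ n = 1 := hx
  show (σ x) ^ n = 1
  rw [← map_pow, hx', map_one]

theorem finiteDimensional_cyc {n : ℕ} (hn : n ≠ 0) : FiniteDimensional ℚ (cyc n) := by
  have hfin : ({x : Qb | x ^ n = 1} : Set Qb).Finite := by
    have h1 : {x : Qb | x ^ n = 1} ⊆
        ((Polynomial.nthRootsFinset n (1 : Qb) : Finset Qb) : Set Qb) := by
      intro x hx
      rw [Finset.mem_coe, Polynomial.mem_nthRootsFinset (Nat.pos_of_ne_zero hn)]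
      exact hx
    exact (Finset.finite_toSet _).subset h1
  have : Finite ({x : Qb | x ^ n = 1} : Set Qb) := hfin
  exact IntermediateField.finiteDimensional_adjoin (fun x _ => Algebra.IsIntegral.isIntegral x)

/-- An automorphism fixing a set of generators fixes the field they generate. -/
theorem fix_adjoin (g : Gq) (T : Set Qb) (h : ∀ t ∈ T, g t = t) :
    ∀ x ∈ IntermediateField.adjoin ℚ T, g x = x := by
  intro x hx
  induction hx using IntermediateField.adjoin_induction with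
  | mem x hx => exact h x hx
  | algebraMap x => exact g.commutes x
  | add x y _ _ hx hy => rw [map_add, hx, hy]
  | inv x _ hx => rw [map_inv₀, hx]
  | mul x y _ _ hx hy => rw [map_mul, hx, hy]

theorem coprime_pow_sub_one {v : ℕ} (hv : 0 < v) (N : ℕ) (hN : N ≠ 0) :
    Nat.Coprime (v ^ N - 1) v := by
  have h1 : 1 ≤ v ^ N := Nat.one_le_pow _ _ hv
  have h2 : Nat.Coprime (v ^ N - 1) (v ^ N) := by
    have h3 : v ^ N = 1 + (v ^ N - 1) := by omega
    rw [h3, Nat.add_sub_cancel_left]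
    exact Nat.coprime_add_self_right.2 (Nat.coprime_one_right _)
  exact Nat.Coprime.coprime_dvd_right (dvd_pow_self v hN) h2

/-! ### Restriction to a finite normal field -/

section Core

variable (A : ValuationSubring Qb)
  (M : IntermediateField ℚ Qb) [FiniteDimensional ℚ M] [Normal ℚ M]

omit [FiniteDimensional ℚ M] in
theorem coe_res (σ : Gq) (x : M) :
    (((AlgEquiv.restrictNormalHom M σ) x : M) : Qb) = σ (x : Qb) :=
  AlgEquiv.restrictNormal_commutes σ M x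

omit [FiniteDimensional ℚ M] in
theorem map_mem (σ : Gq) {x : Qb} (hx : x ∈ M) : σ x ∈ M := by
  have h := coe_res M σ ⟨x, hx⟩
  rw [← h]
  exact ((AlgEquiv.restrictNormalHom M σ) ⟨x, hx⟩).2

/-- `σ` preserves the prime of the integers of `M` cut out by `A`. -/
def Stab (σ : Gq) : Prop :=
  ∀ x ∈ M, IsIntegral ℤ x → (x ∈ A.nonunits ↔ σ x ∈ A.nonunits)

/-- If `σ` does not preserve the prime of `M` under `A`, some integer of `M` outside the prime is
mapped into it (no incomparability lemma: `σ` has finite order on `M`). -/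
theorem exists_witness_of_not_stab {σ : Gq} (hσ : ¬ Stab A M σ) :
    ∃ x ∈ M, IsIntegral ℤ x ∧ x ∉ A.nonunits ∧ σ x ∈ A.nonunits := by
  by_contra H
  push Not at H
  apply hσ
  intro x hxM hxi
  have hback : ∀ y ∈ M, IsIntegral ℤ y → σ y ∈ A.nonunits → y ∈ A.nonunits := by
    intro y hyM hyi hσy
    by_contra hy
    exact H y hyM hyi hy hσy
  refine ⟨fun hxn => ?_, hback x hxM hxi⟩
  set d := Nat.card (M ≃ₐ[ℚ] M) with hd
  have hdpos : 0 < d := Nat.card_pos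
  have hpow : ∀ j : ℕ, (σ ^ j) x ∈ M ∧ IsIntegral ℤ ((σ ^ j) x) := fun j =>
    ⟨map_mem M (σ ^ j) hxM, map_isIntegral_int (σ ^ j) hxi⟩
  have hPd : (σ ^ d) x ∈ A.nonunits := by
    have h1 := coe_res M (σ ^ d) ⟨x, hxM⟩
    rw [map_pow, hd, pow_card_eq_one'] at h1
    rw [← h1]
    exact hxn
  have hstep : ∀ j, (σ ^ (j + 1)) x ∈ A.nonunits → (σ ^ j) x ∈ A.nonunits := by
    intro j hj
    refine hback _ (hpow j).1 (hpow j).2 ?_
    rw [pow_succ', AlgEquiv.mul_apply] at hj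
    exact hj
  have hall : ∀ k, k ≤ d → (σ ^ (d - k)) x ∈ A.nonunits := by
    intro k
    induction k with
    | zero =>
      intro _
      simpa using hPd
    | succ k ih =>
      intro hk
      have h2 := ih (by omega)
      have e : d - k = (d - (k + 1)) + 1 := by omega
      rw [e] at h2
      exact hstep _ h2
  have h3 := hall (d - 1) (by omega)
  have e : d - (d - 1) = 1 := by omega
  rw [e, pow_one] at h3
  exact h3

variable {ℓ : ℕ} (hℓ : ℓ.Prime) (hA : A.LiesOverPrime ℓ)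

include hℓ hA in
/-- Core of step (U): if `M` contains a primitive `n`-th root of unity, `n` prime to `ℓ`, and every
integer of `M` satisfies `x ^ (n + 1) ≡ x`, then `M` has an unramified generator. -/
theorem exists_gen_of_cong {n : ℕ} (hn : 0 < n) (hnℓ : Nat.Coprime n ℓ) {ζ : Qb}
    (hζ : IsPrimitiveRoot ζ n) (hζM : ζ ∈ M)
    (hcong : ∀ x ∈ M, IsIntegral ℤ x → x ^ (n + 1) - x ∈ A.nonunits) (K : ℕ) :
    ∃ θ : Qb, θ ∈ M ∧ IsIntegral ℤ θ ∧ θ ∉ A.nonunits ∧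
      (∀ ι ∈ A.inertiaSubgroupIn ℚ, ι θ = θ) ∧
      (∀ σ : Gq, σ θ - θ ∈ A.nonunits → ∃ ι ∈ A.inertiaSubgroupIn ℚ, ∀ x ∈ M, σ x = ι x) ∧
      ∀ σ : Gq, ¬ Stab A M σ → A.valuation (σ θ) ≤ A.valuation (ℓ : Qb) ^ K := by
  classical
  have : Fintype (M ≃ₐ[ℚ] M) := Fintype.ofFinite _
  have hvℓ : A.valuation (ℓ : Qb) < 1 := A.mem_nonunits_iff.mp hA
  have hvK1 : A.valuation (ℓ : Qb) ^ (K + 1) < 1 := pow_lt_one' hvℓ (Nat.succ_ne_zero K)
  have hζn : ζ ^ n = 1 := hζ.pow_eq_one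
  have hζi : IsIntegral ℤ ζ := isIntegral_of_pow_eq_one hn hζn
  -- witnesses for the primes of `M` other than the one under `A`
  have hx : ∀ γ : M ≃ₐ[ℚ] M, ∃ x : Qb, x ∈ M ∧ IsIntegral ℤ x ∧ x ∉ A.nonunits ∧
      ∀ σ : Gq, AlgEquiv.restrictNormalHom M σ = γ → ¬ Stab A M σ → σ x ∈ A.nonunits := by
    intro γ
    by_cases hb : ∃ σ : Gq, AlgEquiv.restrictNormalHom M σ = γ ∧ ¬ Stab A M σ
    · obtain ⟨σ, hσγ, hσ⟩ := hb
      obtain ⟨x, hxM, hxi, hxn, hσx⟩ := exists_witness_of_not_stab A M hσ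
      refine ⟨x, hxM, hxi, hxn, fun σ' hσ' _ => ?_⟩
      have e : σ' x = σ x := by
        have h1 := coe_res M σ' ⟨x, hxM⟩
        have h2 := coe_res M σ ⟨x, hxM⟩
        rw [hσ'] at h1
        rw [hσγ] at h2
        exact h1.symm.trans h2
      rw [e]
      exact hσx
    · exact ⟨1, one_mem M, isIntegral_one, one_notMem_nu A,
        fun σ hσ hσ' => absurd ⟨σ, hσ, hσ'⟩ hb⟩
  choose xg hxgM hxgi hxgn hxgbad using hx
  -- exponents making the witnesses divisible by `ℓ` at the bad classes (rank one)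
  have hk : ∀ γ : M ≃ₐ[ℚ] M, ∃ k : ℕ, ∀ σ : Gq, AlgEquiv.restrictNormalHom M σ = γ →
      ¬ Stab A M σ → A.valuation (σ (xg γ)) ^ k ≤ A.valuation (ℓ : Qb) := by
    intro γ
    by_cases hb : ∃ σ : Gq, AlgEquiv.restrictNormalHom M σ = γ ∧ ¬ Stab A M σ
    · obtain ⟨σ, hσγ, hσ⟩ := hb
      obtain ⟨k, -, hk⟩ := Fermat.Agent.CFT.Global.HP.DenseHensel.exists_pow_val_le A hℓ hA
        (σ (xg γ)) (map_isIntegral_int σ (hxgi γ)) (A.mem_nonunits_iff.mp (hxgbad γ σ hσγ hσ))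
      refine ⟨k, fun σ' hσ' _ => ?_⟩
      have e : σ' (xg γ) = σ (xg γ) := by
        have h1 := coe_res M σ' ⟨xg γ, hxgM γ⟩
        have h2 := coe_res M σ ⟨xg γ, hxgM γ⟩
        rw [hσ'] at h1
        rw [hσγ] at h2
        exact h1.symm.trans h2
      rw [e]
      exact hk
    · exact ⟨0, fun σ hσ hσ' => absurd ⟨σ, hσ, hσ'⟩ hb⟩
  choose kg hkg using hk
  set E₀ : ℕ := ∑ γ : M ≃ₐ[ℚ] M, kg γ with hE₀
  have hkgE : ∀ γ : M ≃ₐ[ℚ] M, kg γ ≤ E₀ := fun γ =>
    Finset.single_le_sum (f := kg) (fun _ _ => Nat.zero_le _) (Finset.mem_univ γ)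
  -- `t₀`: a unit at `A`, in every other prime
  set t₀ : Qb := ∏ γ : M ≃ₐ[ℚ] M, xg γ with ht₀
  have ht₀M : t₀ ∈ M := prod_mem (fun γ _ => hxgM γ)
  have ht₀i : IsIntegral ℤ t₀ := IsIntegral.prod _ (fun γ _ => hxgi γ)
  have ht₀A : t₀ ∈ A := mem_of_int A ht₀i
  have ht₀n : t₀ ∉ A.nonunits := by
    intro h
    obtain ⟨γ, -, hγ⟩ := exists_nu_of_prod A _ xg (fun γ _ => mem_of_int A (hxgi γ)) h
    exact hxgn γ hγ
  have ht₀bad : ∀ σ : Gq, ¬ Stab A M σ → A.valuation (σ t₀) ^ E₀ ≤ A.valuation (ℓ : Qb) := by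
    intro σ hσ
    have h1 : A.valuation (σ t₀) ≤ A.valuation (σ (xg (AlgEquiv.restrictNormalHom M σ))) := by
      rw [ht₀, map_prod]
      exact val_prod_le A _ (fun γ => σ (xg γ))
        (fun γ _ => mem_of_int A (map_isIntegral_int σ (hxgi γ)))
        (Finset.mem_univ (AlgEquiv.restrictNormalHom M σ)) le_rfl
    have h2 : A.valuation (σ (xg (AlgEquiv.restrictNormalHom M σ))) ≤ 1 :=
      (A.valuation_le_one_iff _).mpr (mem_of_int A (map_isIntegral_int σ (hxgi _)))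
    calc A.valuation (σ t₀) ^ E₀
        ≤ A.valuation (σ (xg (AlgEquiv.restrictNormalHom M σ))) ^ E₀ := pow_le_pow_left' h1 E₀
      _ ≤ A.valuation (σ (xg (AlgEquiv.restrictNormalHom M σ))) ^
            kg (AlgEquiv.restrictNormalHom M σ) := pow_le_pow_right_of_le_one' h2 (hkgE _)
      _ ≤ A.valuation (ℓ : Qb) := hkg _ σ rfl hσ
  -- `t' = t₀ ^ (E₀ (K + 1))`: a unit at `A`, divisible by `ℓ ^ (K + 1)` at every other prime
  set t' : Qb := t₀ ^ (E₀ * (K + 1)) with ht'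
  have ht'M : t' ∈ M := pow_mem ht₀M _
  have ht'i : IsIntegral ℤ t' := ht₀i.pow _
  have ht'A : t' ∈ A := mem_of_int A ht'i
  have ht'n : t' ∉ A.nonunits := by
    rw [A.mem_nonunits_iff, ht', map_pow, val_eq_one A ht₀A ht₀n, one_pow]
    exact lt_irrefl _
  have ht'small : ∀ σ : Gq, ¬ Stab A M σ →
      A.valuation (σ t') ≤ A.valuation (ℓ : Qb) ^ (K + 1) := by
    intro σ hσ
    rw [ht', map_pow, map_pow, pow_mul]
    exact pow_le_pow_left' (ht₀bad σ hσ) (K + 1)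
  -- `t = t' ^ n ≡ 1`
  set t : Qb := t' ^ n with ht
  have htM : t ∈ M := pow_mem ht'M n
  have hti : IsIntegral ℤ t := ht'i.pow n
  have ht1 : t - 1 ∈ A.nonunits := by
    have h1 := hcong t' ht'M ht'i
    have e : t' ^ (n + 1) - t' = t' * (t' ^ n - 1) := by ring
    rw [e] at h1
    rcases nu_of_mul A ht'A (A.sub_mem (pow_mem ht'A n) A.one_mem) h1 with h2 | h2
    · exact absurd h2 ht'n
    · exact h2
  have htsmall : ∀ σ : Gq, ¬ Stab A M σ →
      A.valuation (σ t) ≤ A.valuation (ℓ : Qb) ^ (K + 1) := by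
    intro σ hσ
    have e : σ t = (σ t') ^ (n - 1) * σ t' := by
      rw [ht, map_pow, ← pow_succ, Nat.sub_add_cancel hn]
    rw [e]
    exact val_mul_le A (pow_mem (mem_of_int A (map_isIntegral_int σ ht'i)) _) (ht'small σ hσ)
  -- `e`: the norm of `t` under the image of inertia
  let J : Subgroup (M ≃ₐ[ℚ] M) := (A.inertiaSubgroupIn ℚ).map (AlgEquiv.restrictNormalHom M)
  let tM : M := ⟨t, htM⟩
  set eM : M := ∏ γ : J, (γ : M ≃ₐ[ℚ] M) tM with heM
  have hecoe : (eM : Qb) = ∏ γ : J, (((γ : M ≃ₐ[ℚ] M) tM : M) : Qb) := by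
    rw [heM]
    exact map_prod (algebraMap M Qb) _ _
  have hfac : ∀ γ : J, ∃ ι ∈ A.inertiaSubgroupIn ℚ,
      (((γ : M ≃ₐ[ℚ] M) tM : M) : Qb) = ι t := by
    rintro ⟨γ, ι, hι, rfl⟩
    exact ⟨ι, hι, coe_res M ι tM⟩
  have hfaci : ∀ γ : J, IsIntegral ℤ (((γ : M ≃ₐ[ℚ] M) tM : M) : Qb) := by
    intro γ
    obtain ⟨ι, -, h⟩ := hfac γ
    rw [h]
    exact map_isIntegral_int ι hti
  have hei : IsIntegral ℤ (eM : Qb) := by
    rw [hecoe]
    exact IsIntegral.prod _ (fun γ _ => hfaci γ)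
  have heA : (eM : Qb) ∈ A := mem_of_int A hei
  have he1 : (eM : Qb) - 1 ∈ A.nonunits := by
    rw [hecoe]
    refine prod_sub_one_mem_nu A _ _ (fun γ _ => mem_of_int A (hfaci γ)) (fun γ _ => ?_)
    obtain ⟨ι, hι, h⟩ := hfac γ
    rw [h]
    have h1 := Fermat.Agent.Lib.CycloChar.sub_mem_nonunits_of_mem_inertia A ι hι
      (A.sub_mem (mem_of_int A hti) A.one_mem)
    have e2 : ι t - 1 = (ι (t - 1) - (t - 1)) + (t - 1) := by
      rw [map_sub, map_one]
      ring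
    rw [e2]
    exact nu_add A h1 ht1
  have heI : ∀ ι ∈ A.inertiaSubgroupIn ℚ, ι (eM : Qb) = (eM : Qb) := by
    intro ι hι
    have h1 := coe_res M ι eM
    have h2 : (AlgEquiv.restrictNormalHom M ι) eM = eM := by
      rw [heM, map_prod]
      let g : J := ⟨AlgEquiv.restrictNormalHom M ι, ι, hι, rfl⟩
      have h3 := Equiv.prod_comp (Equiv.mulLeft g) (fun γ : J => (γ : M ≃ₐ[ℚ] M) tM)
      rw [← h3]
      rfl
    rw [← h1, h2]
  have hesmall : ∀ σ : Gq, ¬ Stab A M σ →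
      A.valuation (σ (eM : Qb)) ≤ A.valuation (ℓ : Qb) ^ (K + 1) := by
    intro σ hσ
    rw [hecoe, map_prod]
    refine val_prod_le A _ _ (fun γ _ => mem_of_int A (map_isIntegral_int σ (hfaci γ)))
      (Finset.mem_univ (1 : J)) ?_
    exact htsmall σ hσ
  have hebad : ∀ σ : Gq, ¬ Stab A M σ → σ (eM : Qb) ∈ A.nonunits := fun σ hσ =>
    nu_of_val_le A (hesmall σ hσ) hvK1
  have hen : (eM : Qb) ∉ A.nonunits := by
    intro h
    have e : (1 : Qb) = (eM : Qb) - ((eM : Qb) - 1) := by ring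
    have h1 := nu_sub A h he1
    rw [← e] at h1
    exact one_notMem_nu A h1
  have hζA : ζ ∈ A := mem_of_int A hζi
  have hζinv : ζ ^ (n - 1) * ζ = 1 := by
    rw [← pow_succ, Nat.sub_add_cancel hn, hζn]
  have hθn : (eM : Qb) * ζ ∉ A.nonunits := by
    intro h2
    have e : (eM : Qb) = ζ ^ (n - 1) * ((eM : Qb) * ζ) := by
      linear_combination (-(eM : Qb)) * hζinv
    apply hen
    rw [e]
    exact nu_mul A (pow_mem hζA _) h2
  refine ⟨(eM : Qb) * ζ, M.mul_mem eM.2 hζM, hei.mul hζi, hθn, ?_, ?_, ?_⟩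
  · intro ι hι
    rw [map_mul, heI ι hι, Fermat.Agent.Lib.CycloChar.inertia_root A hA ι hι hnℓ hζn]
  rotate_left
  · intro σ hσ
    rw [map_mul, mul_comm]
    refine le_trans (val_mul_le A (mem_of_int A (map_isIntegral_int σ hζi)) (hesmall σ hσ)) ?_
    exact pow_le_pow_right_of_le_one' hvℓ.le (Nat.le_succ K)
  · intro σ hσθ
    -- (i) `σ` preserves the prime of `M`
    have hst : Stab A M σ := by
      by_contra hns
      have h1 : σ ((eM : Qb) * ζ) ∈ A.nonunits := by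
        rw [map_mul, mul_comm]
        exact nu_mul A (mem_of_int A (map_isIntegral_int σ hζi)) (hebad σ hns)
      have h2 : (eM : Qb) * ζ ∈ A.nonunits := by
        have e : (eM : Qb) * ζ = σ ((eM : Qb) * ζ) - (σ ((eM : Qb) * ζ) - (eM : Qb) * ζ) := by
          ring
        rw [e]
        exact nu_sub A h1 hσθ
      have h3 : (eM : Qb) ∈ A.nonunits := by
        have e : (eM : Qb) = ζ ^ (n - 1) * ((eM : Qb) * ζ) := by
          linear_combination (-(eM : Qb)) * hζinv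
        rw [e]
        exact nu_mul A (pow_mem hζA _) h2
      exact hen h3
    -- (ii) `σ ζ = ζ`
    have hσe : σ (eM : Qb) - 1 ∈ A.nonunits := by
      have h1 := (hst ((eM : Qb) - 1) (M.sub_mem eM.2 M.one_mem) (hei.sub isIntegral_one)).mp he1
      rwa [map_sub, map_one] at h1
    have hσζA : σ ζ ∈ A := mem_of_int A (map_isIntegral_int σ hζi)
    have hσζ : σ ζ - ζ ∈ A.nonunits := by
      have e1 : σ ζ - ζ = (σ ((eM : Qb) * ζ) - (eM : Qb) * ζ) - σ ζ * (σ (eM : Qb) - 1)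
          + ζ * ((eM : Qb) - 1) := by
        rw [map_mul]
        ring
      rw [e1]
      exact nu_add A (nu_sub A hσθ (nu_mul A hσζA hσe)) (nu_mul A hζA he1)
    have hσζeq : σ ζ = ζ := by
      have hz : (σ ζ * ζ ^ (n - 1)) ^ n = 1 := by
        rw [mul_pow, ← map_pow, hζn, map_one, one_mul, ← pow_mul, mul_comm, pow_mul, hζn,
          one_pow]
      have hz1 : σ ζ * ζ ^ (n - 1) - 1 ∈ A.nonunits := by
        have e : σ ζ * ζ ^ (n - 1) - 1 = ζ ^ (n - 1) * (σ ζ - ζ) := by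
          linear_combination hζinv
        rw [e]
        exact nu_mul A (pow_mem hζA _) hσζ
      have hmA := Fermat.Agent.Lib.CycloChar.natCast_not_mem_nonunits_of_coprime A hA hnℓ
      have h1 := Fermat.Agent.Lib.CycloChar.eq_one_of_pow_eq_one_of_sub_mem A hz hmA hz1
      calc σ ζ = σ ζ * (ζ ^ (n - 1) * ζ) := by rw [hζinv, mul_one]
        _ = (σ ζ * ζ ^ (n - 1)) * ζ := by ring
        _ = ζ := by rw [h1, one_mul]
    -- (iii) `σ` is the identity modulo the prime of `M`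
    have hall : ∀ x ∈ M, IsIntegral ℤ x → σ x - x ∈ A.nonunits := by
      intro x hxM hxi
      by_cases hxn : x ∈ A.nonunits
      · exact nu_sub A ((hst x hxM hxi).mp hxn) hxn
      · obtain ⟨k, hk⟩ := exists_pow_sub_mem A hn hζ hxi hxn (hcong x hxM hxi)
        have h1 := (hst (x - ζ ^ k) (M.sub_mem hxM (pow_mem hζM k))
          (hxi.sub (hζi.pow k))).mp hk
        rw [map_sub, map_pow, hσζeq] at h1
        have e1 : σ x - x = (σ x - ζ ^ k) - (x - ζ ^ k) := by ring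
        rw [e1]
        exact nu_sub A h1 hk
    obtain ⟨ι, hι, hιx⟩ := Fermat.Agent.Lib.DecompLift.exists_inertia_lift M A hℓ hA σ hall
    exact ⟨ι, hι, fun x hx => (hιx x hx).symm⟩

end Core

/-- **Step (U+): an unramified generator with a precision.**  Every finite normal `M₂ ⊆ ℚ̄` lies in
a finite normal `M` containing, for every `K`, an algebraic integer `θ`, a unit of `A`, fixed by the
inertia group `I` of `A`, such that
* every `σ` with `σ θ ≡ θ` modulo the maximal ideal of `A` agrees on `M` with an element of `I`;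
* every `σ` that agrees on `M` with no element of the decomposition group of `A` sends `θ` into
  `ℓ ^ K • A`. -/
theorem exists_unram_gen_pow (A : ValuationSubring Qb) {ℓ : ℕ} (hℓ : ℓ.Prime)
    (hA : A.LiesOverPrime ℓ) (M₂ : IntermediateField ℚ Qb) [FiniteDimensional ℚ M₂]
    [Normal ℚ M₂] (K : ℕ) :
    ∃ (M : IntermediateField ℚ Qb) (θ : Qb), M₂ ≤ M ∧ FiniteDimensional ℚ M ∧ Normal ℚ M ∧
      θ ∈ M ∧ IsIntegral ℤ θ ∧ θ ∉ A.nonunits ∧
      (∀ ι ∈ A.inertiaSubgroupIn ℚ, ι θ = θ) ∧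
      (∀ σ : Gq, σ θ - θ ∈ A.nonunits → ∃ ι ∈ A.inertiaSubgroupIn ℚ, ∀ x ∈ M, σ x = ι x) ∧
      (∀ σ : Gq, (∀ δ ∈ A.decompositionSubgroup ℚ, ∃ x ∈ M, σ x ≠ δ x) →
        ∃ r ∈ A, σ θ = (ℓ : Qb) ^ K * r) := by
  obtain ⟨φ, hφ⟩ := Fermat.Agent.Lib.FrobProfinite.exists_frob_on_integers ℓ hℓ A hA
  set N := Nat.card (M₂ ≃ₐ[ℚ] M₂) with hN
  have hNpos : 0 < N := Nat.card_pos
  have hℓN : 2 ≤ ℓ ^ N := by
    calc 2 ≤ ℓ := hℓ.two_le
      _ = ℓ ^ 1 := (pow_one ℓ).symm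
      _ ≤ ℓ ^ N := Nat.pow_le_pow_right hℓ.pos hNpos
  obtain ⟨n, hn1⟩ : ∃ n : ℕ, n + 1 = ℓ ^ N := ⟨ℓ ^ N - 1, by omega⟩
  have hnpos : 0 < n := by omega
  have hnℓ : Nat.Coprime n ℓ := by
    have h := coprime_pow_sub_one hℓ.pos N hNpos.ne'
    have e : ℓ ^ N - 1 = n := by omega
    rwa [e] at h
  have : NeZero ((n : ℕ) : Qb) := ⟨by exact_mod_cast hnpos.ne'⟩
  obtain ⟨ζ, hζ⟩ := HasEnoughRootsOfUnity.exists_primitiveRoot Qb n
  have hnc : Normal ℚ (cyc n) := normal_cyc n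
  have hfdc : FiniteDimensional ℚ (cyc n) := finiteDimensional_cyc hnpos.ne'
  have hMfd : FiniteDimensional ℚ (M₂ ⊔ cyc n : IntermediateField ℚ Qb) :=
    IntermediateField.finiteDimensional_sup M₂ (cyc n)
  have hMn : Normal ℚ (M₂ ⊔ cyc n : IntermediateField ℚ Qb) :=
    @IntermediateField.normal_sup ℚ Qb _ _ _ M₂ (cyc n) ‹Normal ℚ M₂› hnc
  have hζM : ζ ∈ (M₂ ⊔ cyc n : IntermediateField ℚ Qb) :=
    (le_sup_right : cyc n ≤ M₂ ⊔ cyc n) (IntermediateField.subset_adjoin ℚ _ hζ.pow_eq_one)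
  have hφN : ∀ x ∈ (M₂ ⊔ cyc n : IntermediateField ℚ Qb), (φ ^ N) x = x := by
    have h2 : ∀ x ∈ M₂, (φ ^ N) x = x := by
      intro x hx
      have h1 := coe_res M₂ (φ ^ N) ⟨x, hx⟩
      rw [map_pow, hN, pow_card_eq_one'] at h1
      exact h1.symm
    have hc : ∀ x ∈ cyc n, (φ ^ N) x = x := by
      apply fix_adjoin
      intro μ hμ
      have hμ' : μ ^ n = 1 := hμ
      rw [frob_pow_root A hA hφ hnℓ N hμ', ← hn1, pow_succ, hμ', one_mul]
    have hmem : (φ ^ N) ∈ (M₂ ⊔ cyc n : IntermediateField ℚ Qb).fixingSubgroup := by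
      rw [IntermediateField.fixingSubgroup_sup, Subgroup.mem_inf]
      exact ⟨(IntermediateField.mem_fixingSubgroup_iff _ _).mpr h2,
        (IntermediateField.mem_fixingSubgroup_iff _ _).mpr hc⟩
    intro x hx
    exact (IntermediateField.mem_fixingSubgroup_iff _ _).mp hmem x hx
  have hcong : ∀ x ∈ (M₂ ⊔ cyc n : IntermediateField ℚ Qb), IsIntegral ℤ x →
      x ^ (n + 1) - x ∈ A.nonunits := by
    intro x hxM hxi
    have h1 := frob_pow_sub A hℓ.pos hφ N hxi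
    rw [hφN x hxM, ← hn1] at h1
    have e : x ^ (n + 1) - x = -(x - x ^ (n + 1)) := by ring
    rw [e]
    exact nu_neg A h1
  obtain ⟨θ, hθM, hθi, hθn, hθI, hθ, hθK⟩ :=
    @exists_gen_of_cong A (M₂ ⊔ cyc n) hMfd hMn ℓ hℓ hA n hnpos hnℓ ζ hζ hζM hcong K
  refine ⟨M₂ ⊔ cyc n, θ, le_sup_left, hMfd, hMn, hθM, hθi, hθn, hθI, hθ, ?_⟩
  intro σ hσ
  have hns : ¬ Stab A (M₂ ⊔ cyc n) σ := by
    intro hst
    obtain ⟨δ, hδ, hδx⟩ :=
      Fermat.Agent.Lib.DecompLift.exists_decomp_lift (M₂ ⊔ cyc n) A hℓ hA σ hst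
    obtain ⟨x, hxM, hne⟩ := hσ δ hδ
    exact hne (hδx x hxM).symm
  have hv := hθK σ hns
  have hℓ0 : (ℓ : Qb) ^ K ≠ 0 := pow_ne_zero _ (Nat.cast_ne_zero.mpr hℓ.ne_zero)
  refine ⟨σ θ / (ℓ : Qb) ^ K, ?_, ?_⟩
  · rw [← A.valuation_le_one_iff, map_div₀, map_pow]
    exact div_le_one_of_le₀ hv zero_le
  · rw [mul_div_cancel₀ _ hℓ0]

/-- **Step (U) of CLAIM C: an unramified generator.**  Every finite normal `M₂ ⊆ ℚ̄` lies in a finite
normal `M` containing an algebraic integer `θ`, fixed by the inertia group `I` of `A`, such that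
every `σ` with `σ θ ≡ θ` modulo the maximal ideal of `A` agrees on `M` with an element of `I`. -/
theorem exists_unram_gen (A : ValuationSubring Qb) {ℓ : ℕ} (hℓ : ℓ.Prime)
    (hA : A.LiesOverPrime ℓ) (M₂ : IntermediateField ℚ Qb) [FiniteDimensional ℚ M₂]
    [Normal ℚ M₂] :
    ∃ (M : IntermediateField ℚ Qb) (θ : Qb), M₂ ≤ M ∧ FiniteDimensional ℚ M ∧ Normal ℚ M ∧
      θ ∈ M ∧ IsIntegral ℤ θ ∧ (∀ ι ∈ A.inertiaSubgroupIn ℚ, ι θ = θ) ∧
      ∀ σ : Gq, σ θ - θ ∈ A.nonunits → ∃ ι ∈ A.inertiaSubgroupIn ℚ, ∀ x ∈ M, σ x = ι x := by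
  obtain ⟨M, θ, h1, h2, h3, h4, h5, -, h6, h7, -⟩ := exists_unram_gen_pow A hℓ hA M₂ 0
  exact ⟨M, θ, h1, h2, h3, h4, h5, h6, h7⟩

end Fermat.Agent.S19.Red.UnramGen
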