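/-
S19 (Program FG), layer (RED), brick (U+): the number-theoretic input `UnramGenStatement` of the
contract `Fermat.Agent.S19.Red.Contract`, proved.

The proof is `UnramGen.exists_unram_gen_pow` (file `S19/Red/UnramGen.lean`): `θ = e ζ`, with `ζ` a
root of unity of order `ℓ ^ N - 1` and `e` an inertia-invariant integer of `M = M₂(ζ)`, `e ≡ 1` at
`A` and divisible by `ℓ ^ (K + 1)` at the other conjugates of `A ∩ M`.
-/
import Mathlib
import Fermat.Agent.S19.Red.Contract
import Fermat.Agent.S19.Red.UnramGen

set_option autoImplicit false

namespace Fermat.Agent.S19.Red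

/-- **(U+)**: an inertia-fixed algebraic integer `θ` of a finite level `M ⊇ M₂`, a unit of `A`,
that detects inertia modulo the maximal ideal of `A` and is `ℓ`-adically small at the conjugates of
`A` other than those by the decomposition group. -/
theorem unramGen : UnramGenStatement :=
  fun A _ hℓ hA M₂ _ _ K => UnramGen.exists_unram_gen_pow A hℓ hA M₂ K

end Fermat.Agent.S19.Red
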