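/-
S19, reduction (RED), TAIL Y assembled (helper116): `Red.RedStatement` and the (RED) hypothesis of
the top contract as theorems, through the bricks

* `unramGen`            (helper178, `Red/UnramGenPlus.lean`),
* `desc_of_unramGen`    (`Red/Desc.lean`),
* `closure`             (helper113, `Red/Closure.lean`),
* `sat`, `int`          (helper152, `Red/Sat.lean`),
* `red_of_bricks`       (`Red/Main.lean`),
* `Adapter.contract_red_of_red` (helper217, `Red/Adapter.lean`).

This is the spare twin of `Red.DualLattice.contract_red_dual` (TAIL X, helper72), which is the
proof of record.
-/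
import Fermat.Agent.S19.Red.Main
import Fermat.Agent.S19.Red.Desc
import Fermat.Agent.S19.Red.UnramGenPlus
import Fermat.Agent.S19.Red.Closure
import Fermat.Agent.S19.Red.Sat
import Fermat.Agent.S19.Red.Adapter

set_option autoImplicit false

namespace Fermat.Agent.S19.Red

/-- **(RED) is a theorem** (TAIL Y). -/
theorem red : RedStatement :=
  red_of_bricks (desc_of_unramGen unramGen) closure sat int

/-- **`Contract.RedStatement` is a theorem** (TAIL Y). -/
theorem contract_red : Fermat.Agent.S19.Contract.RedStatement :=
  Adapter.contract_red_of_red red

end Fermat.Agent.S19.Red
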